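import Fermat.Agent.LevelRaising.SymbolAlgebra
import Fermat.Agent.LevelRaising.CrossingSpan
import Fermat.Agent.ModularityLifting.CocycleLift
import Mathlib.LinearAlgebra.Basis.VectorSpace

/-!
# Crossing symbols span the modular symbols over a field

For a field in which `2` is invertible and a weight summing to `1` over the orbits of `ST`, in
particular when `3` is invertible or there are no elliptic points of order three.
-/

set_option autoImplicit false

noncomputable section

open Matrix MulAction CongruenceSubgroup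
open scoped MatrixGroups UpperHalfPlane

namespace FLTAgent.ModularityLifting

open FLTAgent.LevelRaising

variable {K : Type*} [Field K] {M : ℕ} [NeZero M]

/-- A functional on symbols over a field which kills every crossing symbol is zero. -/
theorem eq_zero_of_forall_castFn_crossSymb (h2ne : (2 : K) ≠ 0) (w : SL(2, ℤ) → K)
    (hwinv : ∀ γ ∈ Gamma0 M, ∀ g, w (γ * g) = w g)
    (hw : ∀ g, w g + w (g * (mS * mT)) + w (g * (mS * mT) * (mS * mT)) = 1)
    (φ : Lev K M →ₗ[K] K)
    (h : ∀ γ, φ ⟨castFn K (crossSymb (Gamma0 M) γ : Cusp → Cusp → ℤ),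
      castFn_mem (Subtype.coe_prop _)⟩ = 0) : φ = 0 := by
  classical
  have hneg : (-1 : SL(2, ℤ)) ∈ Gamma0 M := MFDim.neg_one_mem_Gamma0
  have : Fintype (SL(2, ℤ) ⧸ Gamma0 M) := Fintype.ofFinite _
  obtain ⟨ψ, hψ⟩ := LinearMap.exists_extend (φ ∘ₗ (symbEquiv (R := K) hneg).symm.toLinearMap)
  let F : (SL(2, ℤ) ⧸ Gamma0 M) → K := fun x => ψ (Pi.single x 1)
  have hF : ∀ Φ : Lev K M, φ Φ = ∑ x, cosetFun (R := K) Φ.1 x * F x := by
    intro Φ
    have h1 : φ Φ = ψ (cosetFun Φ.1) := by
      have e := LinearMap.congr_fun hψ (symbEquiv hneg Φ)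
      simp only [LinearMap.comp_apply, LinearEquiv.coe_coe, LinearEquiv.symm_apply_apply] at e
      exact e.symm
    rw [h1]
    conv_lhs => rw [show cosetFun Φ.1 = ∑ x, cosetFun Φ.1 x •
        (Pi.single x 1 : (SL(2, ℤ) ⧸ Gamma0 M) → K) by
      funext y; simp [Finset.sum_apply, Pi.single_apply]]
    rw [map_sum]
    refine Finset.sum_congr rfl fun x _ => ?_
    rw [map_smul, smul_eq_mul]
  refine LinearMap.ext fun Φ => ?_
  rw [hF Φ, LinearMap.zero_apply]
  have hf := cosetFun_mem (Φ := Φ.1) Φ.2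
  set f := cosetFun (Γ := Gamma0 M) Φ.1
  refine sum_mul_eq_zero_of_crossing hneg h2ne f F (fun γ hγ => ?_)
    (fun x => (maninSpace_smul hf x).1) fun H hH v => ?_
  · have := hF ⟨castFn K (crossSymb (Gamma0 M) (Additive.ofMul ⟨γ, hγ⟩) : Cusp → Cusp → ℤ),
      castFn_mem (Subtype.coe_prop _)⟩
    rw [h] at this
    exact this.symm
  · let πR : Equiv.Perm (SL(2, ℤ) ⧸ Gamma0 M) := MulAction.toPerm (mS * mT)⁻¹
    have h3 : ∀ x, f x + f (πR x) + f ((πR * πR) x) = 0 := fun x => (maninSpace_smul hf x).2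
    let W : (SL(2, ℤ) ⧸ Gamma0 M) → K := fun x => w x.out⁻¹
    have hW : ∀ z, W z + W (πR z) + W (πR (πR z)) = 1 := fun z => by
      simp only [W, πR, MulAction.toPerm_apply, ← mul_smul, ← _root_.mul_inv_rev,
        apply_smul_out_inv hwinv, inv_inv]
      simpa only [mul_assoc] using hw z.out⁻¹
    set s := Finset.univ.filter (fun x => H x = v) with hs
    have hsum : ∀ (π : Equiv.Perm (SL(2, ℤ) ⧸ Gamma0 M)), (∀ x, H (π x) = H x) →
        ∑ x ∈ s, W x * f (π x) = ∑ x ∈ s, W (π.symm x) * f x := fun π hπ =>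
      Finset.sum_equiv π (fun x => by simp [hs, hπ]) fun x _ => by simp
    have h4 : ∑ x ∈ s, (W x * f x + W x * f (πR x) + W x * f ((πR * πR) x)) = 0 :=
      Finset.sum_eq_zero fun x _ => by rw [← mul_add, ← mul_add, h3, mul_zero]
    rw [Finset.sum_add_distrib, Finset.sum_add_distrib, hsum πR hH,
      hsum (πR * πR) (fun x => (hH _).trans (hH x)), ← Finset.sum_add_distrib,
      ← Finset.sum_add_distrib] at h4
    refine Eq.trans (Finset.sum_congr rfl fun x _ => ?_) h4
    have h5 := hW ((πR * πR).symm x)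
    have e1 : πR ((πR * πR).symm x) = πR.symm x := by
      show πR (πR.symm (πR.symm x)) = _
      rw [Equiv.apply_symm_apply]
    rw [e1, Equiv.apply_symm_apply] at h5
    linear_combination (-f x) * h5

end FLTAgent.ModularityLifting
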