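import Fermat.Agent.LevelRaising.DegeneracyModP
import Fermat.Agent.ModularityLifting.Degeneracy.CrossSpan
import Fermat.Agent.ModularityLifting.EigenFree
import Fermat.Agent.ModularityLifting.Twist

/-!
# The degeneracy maps on the parts at a non-Eisenstein system modulo `p`

Over a finite field of characteristic `p`, and for a prime `q` not dividing `N` (possibly `q = p`),
the sum of the two degeneracy maps is injective and the pair of traces is surjective on the parts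
at a system of eigenvalues with some `a ℓ ≠ 1 + ℓ`, `ℓ ≡ 1 (mod N)`.
-/

set_option autoImplicit false

noncomputable section

open Matrix CongruenceSubgroup
open scoped MatrixGroups

namespace FLTAgent.ModularityLifting

open FLTAgent.LevelRaising IsLocalRing

/-- The operator `T_ℓ - c` on all functions of two cusps. -/
def tShift (k : Type) [CommRing k] (ℓ : ℕ) (c : k) : Module.End k (Cusp → Cusp → k) :=
  tOp k ℓ - c • LinearMap.id

theorem tShift_apply {k : Type} [CommRing k] (ℓ : ℕ) (c : k) (Φ : Cusp → Cusp → k) :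
    tShift k ℓ c Φ = tOp k ℓ Φ - c • Φ := rfl

section Field

variable {k : Type} [Field k] {N q : ℕ}

/-- Over a field, membership in the eigenpart of trivial character. -/
theorem mem_eigenPart_one_iff {L : ℕ} {S : Finset ℕ} (hS : ∀ l, l.Prime → l ∣ L → l ∈ S)
    {a : ℕ → k} {Φ : Cusp → Cusp → k} :
    Φ ∈ eigenPart k (1 : DirichletCharacter k L) S a ↔ Φ ∈ Lev k L ∧
      ∀ ℓ : ℕ, ℓ.Prime → ℓ ∉ S → ∃ j, ((tShift k ℓ (a ℓ)) ^ j) Φ = 0 := by
  rw [mem_eigenPart_iff hS, symbChar_eq_lev]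
  refine and_congr_right fun _ => forall_congr' fun ℓ => forall_congr' fun hℓ =>
    forall_congr' fun hℓS => ?_
  have e : shiftOp k (1 : DirichletCharacter k L) ℓ (a ℓ) = tShift k ℓ (a ℓ) := by
    rw [shiftOp, tOpChar_one hℓ fun h => hℓS (hS ℓ hℓ h)]; rfl
  rw [e]
  refine ⟨fun h => ?_, fun ⟨j, hj⟩ n => ⟨j, by rw [hj]; exact zero_mem _⟩⟩
  obtain ⟨j, hj⟩ := h 1
  rw [← symbChar_eq_lev, mem_maximalIdeal_smul_iff_of_field one_ne_zero] at hj
  exact ⟨j, hj⟩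

/-- The cast of an integral symbol, as a symbol of the same level. -/
def castLev (k : Type) [CommRing k] (M : ℕ) : Lev ℤ M →+ Lev k M where
  toFun Φ := ⟨castFn k (Φ : Cusp → Cusp → ℤ), castFn_mem Φ.2⟩
  map_zero' := Subtype.ext (map_zero (castFn k))
  map_add' _ _ := Subtype.ext (map_add (castFn k) _ _)

theorem tShift_pow_apply (ℓ : ℕ) (c e : k) {v : Cusp → Cusp → k} (hv : tOp k ℓ v = e • v)
    (j : ℕ) : (tShift k ℓ c ^ j) v = (e - c) ^ j • v := by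
  induction j with
  | zero => simp
  | succ j ih =>
    rw [pow_succ', Module.End.mul_apply, ih, map_smul, tShift_apply, hv, ← sub_smul, smul_smul,
      pow_succ]

/-- The weight on orbits of `ST` used for crossing symbols. -/
theorem exists_weight {p : ℕ} [Fact p.Prime] (_hp2 : p ≠ 2) [CharP k p] (N : ℕ) [NeZero N]
    (hell : p = 3 → ∃ t, t.Prime ∧ t ∣ N ∧ t % 3 = 2) :
    ∃ w : SL(2, ℤ) → k, (∀ γ ∈ Gamma0 N, ∀ g, w (γ * g) = w g) ∧
      ∀ g, w g + w (g * (mS * mT)) + w (g * (mS * mT) * (mS * mT)) = 1 := by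
  have h3 : IsUnit (3 : k) ∨ ∀ g : SL(2, ℤ), g * mU * g⁻¹ ∉ Gamma0 N := by
    by_cases h : p = 3
    · obtain ⟨t, ht, htN, ht3⟩ := hell h
      exact Or.inr (mU_conj_not_mem ht htN ht3)
    · refine Or.inl (isUnit_iff_ne_zero.mpr fun h0 => h ?_)
      have h0' : ((3 : ℕ) : k) = 0 := by exact_mod_cast h0
      exact (Nat.prime_dvd_prime_iff_eq Fact.out Nat.prime_three).mp
        ((CharP.cast_eq_zero_iff k p 3).mp h0')
  obtain ⟨χ, hχ, hχ1⟩ := exists_orbit_weight (R := k) (L := N) h3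
  refine ⟨χ, hχ, fun g => ?_⟩
  have hU : mS * mT = mU := rfl
  have h := hχ1 (g * (mU * mU))
  have e1 : g * (mU * mU) * mU⁻¹ = g * mU := by group
  have e2 : g * mU * mU⁻¹ = g := by group
  rw [e1, e2] at h
  rw [hU, mul_assoc]
  linear_combination h

/-- The pair of traces `X ↦ (tr X, tr (w X))` on symbols of level `N q`. -/
private def trPair (hq : q.Prime) (hqN : ¬ q ∣ N) (D : ALData N q) :
    Lev k (N * q) →ₗ[k] Lev k N × Lev k N :=
  ((D.trOp k).restrict fun _ h => D.trOp_mem hq hqN h).prod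
    ((D.trOp k).restrict (fun _ h => D.trOp_mem hq hqN h) ∘ₗ
      (D.wOp k).restrict fun _ h => D.wOp_mem hq h)

/-- The operator `T_ℓ - (1 + ℓ)` on symbols of level `N`. -/
private def eisEnd {ℓ : ℕ} (hℓ : ℓ.Prime) (hℓN : ¬ ℓ ∣ N) : Module.End k (Lev k N) :=
  (tOp k ℓ).restrict (fun _ h => tOp_mem hℓ hℓN h) - ((1 + ℓ : ℕ) : Module.End k (Lev k N))

/-- The operator `T_ℓ - c` on symbols of level `L`. -/
private def levShift {L ℓ : ℕ} (hℓ : ℓ.Prime) (hℓL : ¬ ℓ ∣ L) (c : k) : Module.End k (Lev k L) :=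
  (tOp k ℓ).restrict (fun _ h => tOp_mem hℓ hℓL h) - c • 1

/-- The powers of `levShift` are those of `tShift`. -/
private theorem coe_levShift_pow {L ℓ : ℕ} (hℓ : ℓ.Prime) (hℓL : ¬ ℓ ∣ L) (c : k)
    (z : Lev k L) (n : ℕ) :
    (((levShift hℓ hℓL c ^ n) z : Lev k L) : Cusp → Cusp → k) = (tShift k ℓ c ^ n) z := by
  induction n with
  | zero => simp
  | succ n ih =>
    rw [pow_succ', Module.End.mul_apply, pow_succ', Module.End.mul_apply, ← ih]
    rfl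

/-- The pair of traces commutes with the powers of `T_ℓ - c`. -/
private theorem trPair_levShift_pow (hq : q.Prime) (hqN : ¬ q ∣ N) (D : ALData N q) {ℓ : ℕ}
    (hℓ : ℓ.Prime) (hℓNq : ¬ ℓ ∣ N * q) (c : k) (z : Lev k (N * q)) (n : ℕ) :
    ((trPair hq hqN D ((levShift hℓ hℓNq c ^ n) z)).1 : Cusp → Cusp → k) =
        (tShift k ℓ c ^ n) ((trPair hq hqN D z).1 : Cusp → Cusp → k) ∧
      ((trPair hq hqN D ((levShift hℓ hℓNq c ^ n) z)).2 : Cusp → Cusp → k) =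
        (tShift k ℓ c ^ n) ((trPair hq hqN D z).2 : Cusp → Cusp → k) := by
  have htr : ∀ Z ∈ Lev k (N * q), D.trOp k (tShift k ℓ c Z) = tShift k ℓ c (D.trOp k Z) :=
    fun Z hZ => by simp only [tShift_apply, map_sub, map_smul, D.tOp_trOp hq hℓ hℓNq hZ]
  have hwc : ∀ Z ∈ Lev k (N * q), D.wOp k (tShift k ℓ c Z) = tShift k ℓ c (D.wOp k Z) :=
    fun Z hZ => by simp only [tShift_apply, map_sub, map_smul, D.tOp_wOp hq hℓ hℓNq hZ]
  induction n with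
  | zero => simp
  | succ n ih =>
    have hu : ((levShift hℓ hℓNq c ^ (n + 1)) z : Cusp → Cusp → k) =
        tShift k ℓ c ((levShift hℓ hℓNq c ^ n) z : Cusp → Cusp → k) := by
      rw [coe_levShift_pow, coe_levShift_pow, pow_succ', Module.End.mul_apply]
    constructor
    · show D.trOp k ((levShift hℓ hℓNq c ^ (n + 1)) z : Cusp → Cusp → k) = _
      rw [hu, htr _ (Subtype.coe_prop _), pow_succ', Module.End.mul_apply, ← ih.1]
      rfl
    · show D.trOp k (D.wOp k ((levShift hℓ hℓNq c ^ (n + 1)) z : Cusp → Cusp → k)) = _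
      rw [hu, hwc _ (Subtype.coe_prop _), htr _ (D.wOp_mem hq (Subtype.coe_prop _)),
        pow_succ', Module.End.mul_apply, ← ih.2]
      rfl

end Field

section Degeneracy

variable {p : ℕ} [Fact p.Prime] {k : Type} [Field k] [CharP k p] {N q : ℕ} [NeZero N]

/-- **Ihara's lemma modulo `p`, injective form**, on the parts at a non-Eisenstein system. -/
theorem degeneracy_injective (hp2 : p ≠ 2) (hq : q.Prime) (hqN : ¬ q ∣ N) (D : ALData N q)
    (S : Finset ℕ) (hS : ∀ l, l.Prime → l ∣ N → l ∈ S) (a : ℕ → k)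
    (hne : ∃ ℓ, ℓ.Prime ∧ ℓ ∉ S ∧ ℓ % N = 1 % N ∧ a ℓ ≠ 1 + ℓ)
    {Φ Ψ : Cusp → Cusp → k} (hΦ : Φ ∈ eigenPart k (1 : DirichletCharacter k N) S a)
    (hΨ : Ψ ∈ eigenPart k (1 : DirichletCharacter k N) S a) (h : Φ + D.wOp k Ψ = 0) :
    Φ = 0 ∧ Ψ = 0 := by
  obtain ⟨ℓ, hℓ, hℓS, hℓ1, hne⟩ := hne
  obtain ⟨hΦL, hΦn⟩ := (mem_eigenPart_one_iff hS).mp hΦ
  have hΨL := ((mem_eigenPart_one_iff hS).mp hΨ).1
  have hw : D.wOp k Ψ = pull k (ofMat (heckeFam q none)) Ψ := by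
    rw [ALData.wOp, ALData.mat_eq,
      pull_ofMat_mul (sl_det_ne_zero _) (heckeFam_det_ne_zero hq.ne_zero _), ofMat_coe,
      pull_glQ_eq hΨL D.g₀_mem]
  have hΦeq : Φ = pull k (ofMat (heckeFam q none)) (-Ψ) := by
    rw [map_neg, ← hw]; exact eq_neg_of_add_eq_zero_left h
  have hT := tOp_eq_smul_of_periods hΦL (periods_eq_zero_of_pull (p := p) hp2 hq (NeZero.pos N)
    (hq.coprime_iff_not_dvd.mpr hqN).symm hΦL (neg_mem hΨL) hΦeq) hℓ hℓ1
  obtain ⟨j, hj⟩ := hΦn ℓ hℓ hℓS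
  rw [tShift_pow_apply ℓ (a ℓ) _ hT] at hj
  have hΦ0 : Φ = 0 :=
    (smul_eq_zero.mp hj).resolve_left (pow_ne_zero j (sub_ne_zero.mpr (Ne.symm hne)))
  refine ⟨hΦ0, ?_⟩
  rw [hΦ0, zero_add] at h
  rw [← D.wOp_wOp hq (lev_mono (dvd_mul_right N q) hΨL), h, map_zero]

omit [CharP k p] in
/-- Functionals modulo `p` killing the pairs of traces kill `(T_ℓ - 1 - ℓ)²` of integral symbols
on either factor. -/
private theorem addHom_eisEnd_sq_castLev (hp2 : p ≠ 2) (hq : q.Prime) (hqN : ¬ q ∣ N)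
    (D : ALData N q) {ℓ : ℕ} (hℓ : ℓ.Prime) (hℓN : ¬ ℓ ∣ N) (hℓNq : ¬ ℓ ∣ N * q) (hℓp : ℓ ≠ p)
    (hℓ1 : ℓ ≡ 1 [MOD N]) (ψ : Lev k N × Lev k N →+ ZMod p)
    (hψ : ∀ x, ψ (trPair hq hqN D x) = 0) (v : Lev ℤ N) :
    ψ ((eisEnd hℓ hℓN ^ 2) (castLev k N v), 0) = 0 ∧
      ψ (0, (eisEnd hℓ hℓN ^ 2) (castLev k N v)) = 0 := by
  let Ez : Module.End ℤ (Lev ℤ N) := opT hℓ hℓN - ((1 + ℓ : ℕ) : Module.End ℤ (Lev ℤ N))
  have hE : ∀ v, castLev k N (Ez v) = eisEnd hℓ hℓN (castLev k N v) := fun v => by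
    refine Subtype.ext ?_
    show castFn k ((Ez v : Lev ℤ N) : Cusp → Cusp → ℤ) = _
    simp only [Ez, eisEnd, LinearMap.sub_apply, Module.End.natCast_apply, Submodule.coe_sub,
      Submodule.coe_smul_of_tower, map_sub, map_nsmul, coe_opT, castFn_tOp]
    rfl
  have h := functional_eisenstein_sq (N := N) hp2 hq (NeZero.pos N) hqN D
    (ψ.comp ((AddMonoidHom.inl _ _).comp (castLev k N)))
    (ψ.comp ((AddMonoidHom.inr _ _).comp (castLev k N))) (fun X hX => ?_) hℓ hℓN hℓNq hℓp hℓ1 v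
  · rw [pow_two, Module.End.mul_apply, ← hE, ← hE]
    rw [pow_two, Module.End.mul_apply] at h
    exact h
  show ψ (castLev k N ⟨D.trOp ℤ X, _⟩, 0) +
    ψ (0, castLev k N ⟨D.trOp ℤ (D.wOp ℤ X), _⟩) = 0
  rw [← map_add, Prod.mk_add_mk, add_zero, zero_add]
  have e : trPair hq hqN D (castLev k (N * q) ⟨X, hX⟩) =
      (castLev k N ⟨D.trOp ℤ X, D.trOp_mem hq hqN hX⟩,
        castLev k N ⟨D.trOp ℤ (D.wOp ℤ X), D.trOp_mem hq hqN (D.wOp_mem hq hX)⟩) := by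
    refine Prod.ext (Subtype.ext ?_) (Subtype.ext ?_)
    · exact (castFn_trOp D X).symm
    · show D.trOp k (D.wOp k (castFn k X)) = castFn k (D.trOp ℤ (D.wOp ℤ X))
      rw [castFn_trOp, castFn_wOp]
  rw [← e, hψ]

/-- The pairs of traces contain `(T_ℓ - 1 - ℓ)²` of both factors. -/
private theorem mem_range_trPair (hp2 : p ≠ 2) (hq : q.Prime) (hqN : ¬ q ∣ N) (D : ALData N q)
    (hell : p = 3 → ∃ t, t.Prime ∧ t ∣ N ∧ t % 3 = 2) {ℓ : ℕ} (hℓ : ℓ.Prime) (hℓN : ¬ ℓ ∣ N)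
    (hℓNq : ¬ ℓ ∣ N * q) (hℓp : ℓ ≠ p) (hℓ1 : ℓ ≡ 1 [MOD N]) (v₁ v₂ : Lev k N) :
    ((eisEnd hℓ hℓN ^ 2) v₁, (eisEnd hℓ hℓN ^ 2) v₂) ∈ LinearMap.range (trPair hq hqN D) := by
  obtain ⟨wt, hwinv, hwsum⟩ := exists_weight (k := k) hp2 N hell
  have h2 : (2 : k) ≠ 0 := fun h0 => hp2 <| by
    have h0' : ((2 : ℕ) : k) = 0 := by exact_mod_cast h0
    exact (Nat.prime_dvd_prime_iff_eq Fact.out Nat.prime_two).mp
      ((CharP.cast_eq_zero_iff k p 2).mp h0')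
  by_contra hv
  obtain ⟨ψ, hψv, hψ⟩ := Submodule.exists_dual_map_eq_bot_of_notMem hv inferInstance
  have hψ0 : ∀ x, ψ (trPair hq hqN D x) = 0 := fun x => (Submodule.eq_bot_iff _).mp hψ _
    (Submodule.mem_map_of_mem (LinearMap.mem_range_self (trPair hq hqN D) x))
  have hp : ∀ x : k, p • x = 0 := fun x => by rw [nsmul_eq_mul, CharP.cast_eq_zero, zero_mul]
  have key : ∀ γ, ψ ((eisEnd hℓ hℓN ^ 2) (castLev k N (crossSymb (Gamma0 N) γ)), 0) = 0 ∧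
      ψ (0, (eisEnd hℓ hℓN ^ 2) (castLev k N (crossSymb (Gamma0 N) γ))) = 0 := fun γ => by
    have h := fun lam : k →+ ZMod p => addHom_eisEnd_sq_castLev hp2 hq hqN D hℓ hℓN hℓNq hℓp hℓ1
      (lam.comp ψ.toAddMonoidHom) (fun x => (congrArg lam (hψ0 x)).trans (map_zero _))
      (crossSymb (Gamma0 N) γ)
    constructor <;> by_contra hne0 <;> obtain ⟨lam, hlam⟩ := exists_addHom_ne_zero hp hne0
    · exact hlam (h lam).1
    · exact hlam (h lam).2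
  have z1 := eq_zero_of_forall_castFn_crossSymb h2 wt hwinv hwsum
    (ψ ∘ₗ LinearMap.inl k _ _ ∘ₗ (eisEnd hℓ hℓN ^ 2)) fun γ => (key γ).1
  have z2 := eq_zero_of_forall_castFn_crossSymb h2 wt hwinv hwsum
    (ψ ∘ₗ LinearMap.inr k _ _ ∘ₗ (eisEnd hℓ hℓN ^ 2)) fun γ => (key γ).2
  refine hψv ?_
  rw [← Prod.fst_add_snd ((eisEnd hℓ hℓN ^ 2) v₁, (eisEnd hℓ hℓN ^ 2) v₂), map_add]
  exact (congrArg₂ (· + ·) (LinearMap.congr_fun z1 v₁) (LinearMap.congr_fun z2 v₂)).trans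
    (add_zero _)

omit [NeZero N] in
/-- A non-Eisenstein eigenpart lies in the image of `(T_ℓ - 1 - ℓ)²`. -/
private theorem exists_eisEnd_sq_eq {S : Finset ℕ} (hS : ∀ l, l.Prime → l ∣ N → l ∈ S)
    {a : ℕ → k} {ℓ : ℕ} (hℓ : ℓ.Prime) (hℓN : ¬ ℓ ∣ N) (hℓS : ℓ ∉ S) (hne : a ℓ ≠ 1 + ℓ)
    {Θ : Cusp → Cusp → k} (hΘ : Θ ∈ eigenPart k (1 : DirichletCharacter k N) S a) :
    ∃ v : Lev k N, ((eisEnd hℓ hℓN ^ 2) v : Cusp → Cusp → k) = Θ := by
  obtain ⟨hΘL, hΘn⟩ := (mem_eigenPart_one_iff hS).mp hΘ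
  obtain ⟨j, hj⟩ := hΘn ℓ hℓ hℓS
  set Nil := tShift k ℓ (a ℓ)
  have hc : a ℓ - (1 + (ℓ : k)) ≠ 0 := sub_ne_zero.mpr hne
  have hP : ∀ v ∈ Lev k N, Nil v ∈ Lev k N := fun v hv =>
    sub_mem (tOp_mem hℓ hℓN hv) (Submodule.smul_mem _ _ hv)
  obtain ⟨u, hu, hu0, huΘ⟩ := exists_preimage_add_smul Nil _ hP hc j Θ hΘL hj
  obtain ⟨v, hv, -, hvu⟩ := exists_preimage_add_smul Nil _ hP hc j u hu hu0
  refine ⟨⟨v, hv⟩, ?_⟩
  have heq : ∀ z : Lev k N, ((eisEnd hℓ hℓN z : Lev k N) : Cusp → Cusp → k) =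
      Nil z + (a ℓ - (1 + (ℓ : k))) • (z : Cusp → Cusp → k) := fun z => by
    simp only [eisEnd, LinearMap.sub_apply, Module.End.natCast_apply, Submodule.coe_sub,
      Submodule.coe_smul_of_tower]
    rw [tShift_apply, ← Nat.cast_smul_eq_nsmul k (1 + ℓ), Nat.cast_add, Nat.cast_one, sub_smul]
    show tOp k ℓ (z : Cusp → Cusp → k) - _ = _
    abel
  rw [pow_two, Module.End.mul_apply, heq, heq, hvu, huΘ]

/-- A preimage of a pair in the eigenparts may be projected to the eigenpart of level `N q`. -/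
private theorem exists_mem_eigenPart_trPair_eq [Finite k] (hq : q.Prime) (hqN : ¬ q ∣ N)
    (D : ALData N q) {S : Finset ℕ} (hS : ∀ l, l.Prime → l ∣ N * q → l ∈ S) {a : ℕ → k}
    (X₀ : Lev k (N * q))
    (h₁ : ((trPair hq hqN D X₀).1 : Cusp → Cusp → k) ∈
      eigenPart k (1 : DirichletCharacter k N) S a)
    (h₂ : ((trPair hq hqN D X₀).2 : Cusp → Cusp → k) ∈
      eigenPart k (1 : DirichletCharacter k N) S a) :
    ∃ X : Lev k (N * q), (X : Cusp → Cusp → k) ∈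
        eigenPart k (1 : DirichletCharacter k (N * q)) S a ∧
      trPair hq hqN D X = trPair hq hqN D X₀ := by
  have hSN : ∀ l, l.Prime → l ∣ N → l ∈ S := fun l hl h => hS l hl (h.mul_right q)
  have : NeZero (N * q) := ⟨mul_ne_zero (NeZero.ne N) hq.ne_zero⟩
  have : Finite (ResidueField k) := Finite.of_surjective _ residue_surjective
  have : IsAdicComplete (maximalIdeal k) k := by rw [maximalIdeal_eq_bot]; infer_instance
  let ι := {l : ℕ // l.Prime ∧ l ∉ S}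
  have hιNq : ∀ i : ι, ¬ i.1 ∣ N * q := fun i h => i.2.2 (hS i.1 i.2.1 h)
  let u : ι → Module.End k (Lev k (N * q)) := fun i => levShift i.2.1 (hιNq i) (a i.1)
  have hu : ∀ i j, Commute (u i) (u j) := fun i j => by
    rcases eq_or_ne i j with rfl | hij
    · exact Commute.refl _
    refine LinearMap.ext fun z => Subtype.ext ?_
    show tShift k i.1 (a i.1) (tShift k j.1 (a j.1) z) =
      tShift k j.1 (a j.1) (tShift k i.1 (a i.1) z)
    simp only [tShift_apply, map_sub, map_smul, smul_sub, smul_comm (a i.1) (a j.1),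
      tOp_comm i.2.1 j.2.1 (fun h => hij (Subtype.ext h)) (hιNq i) (hιNq j) z.2]
    abel
  have hpow := fun (i : ι) => trPair_levShift_pow hq hqN D i.2.1 (hιNq i) (a i.1)
  obtain ⟨y, hy, hynil⟩ := exists_forall_topNilpotent u hu (LinearMap.ker (trPair hq hqN D))
    (fun i z hz => by
      have h := hpow i z 1
      rw [pow_one, pow_one, hz] at h
      exact Prod.ext (Subtype.ext (h.1.trans (map_zero _)))
        (Subtype.ext (h.2.trans (map_zero _))))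
    (by rw [maximalIdeal_eq_bot, Submodule.bot_smul]; exact bot_le) X₀
    (fun i => by
      obtain ⟨j₁, hj₁⟩ := ((mem_eigenPart_one_iff hSN).mp h₁).2 i.1 i.2.1 i.2.2
      obtain ⟨j₂, hj₂⟩ := ((mem_eigenPart_one_iff hSN).mp h₂).2 i.1 i.2.1 i.2.2
      refine ⟨j₁ + j₂, ?_⟩
      have h := hpow i X₀ (j₁ + j₂)
      refine Prod.ext (Subtype.ext (h.1.trans ?_)) (Subtype.ext (h.2.trans ?_))
      · rw [add_comm, pow_add, Module.End.mul_apply, hj₁, map_zero]; rfl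
      · rw [pow_add, Module.End.mul_apply, hj₂, map_zero]; rfl)
  refine ⟨y, (mem_eigenPart_one_iff hS).mpr ⟨y.2, fun l hl hlS => ?_⟩, ?_⟩
  · obtain ⟨m, hm⟩ := hynil ⟨l, hl, hlS⟩ 1
    refine ⟨m, ?_⟩
    rw [pow_one, maximalIdeal_eq_bot, Submodule.bot_smul, Submodule.mem_bot] at hm
    rw [← coe_levShift_pow hl (hιNq ⟨l, hl, hlS⟩) (a l) y m, hm]
    rfl
  · have h : trPair hq hqN D (X₀ - y) = 0 := hy
    rw [map_sub, sub_eq_zero] at h
    exact h.symm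

/-- **Ihara's lemma modulo `p`, surjective form**, on the parts at a non-Eisenstein system. -/
theorem degeneracy_surjective [Finite k] (hp2 : p ≠ 2) (hq : q.Prime) (hqN : ¬ q ∣ N)
    (D : ALData N q) (hell : p = 3 → ∃ t, t.Prime ∧ t ∣ N ∧ t % 3 = 2)
    (S : Finset ℕ) (hS : ∀ l, l.Prime → l ∣ N * q * p → l ∈ S) (a : ℕ → k)
    (hne : ∃ ℓ, ℓ.Prime ∧ ℓ ∉ S ∧ ℓ % N = 1 % N ∧ a ℓ ≠ 1 + ℓ)
    {Φ Ψ : Cusp → Cusp → k} (hΦ : Φ ∈ eigenPart k (1 : DirichletCharacter k N) S a)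
    (hΨ : Ψ ∈ eigenPart k (1 : DirichletCharacter k N) S a) :
    ∃ X ∈ eigenPart k (1 : DirichletCharacter k (N * q)) S a,
      D.trOp k X = Φ ∧ D.trOp k (D.wOp k X) = Ψ := by
  obtain ⟨ℓ, hℓ, hℓS, hℓ1, hne⟩ := hne
  have hSN : ∀ l, l.Prime → l ∣ N → l ∈ S := fun l hl h => hS l hl ((h.mul_right q).mul_right p)
  have hSNq : ∀ l, l.Prime → l ∣ N * q → l ∈ S := fun l hl h => hS l hl (h.mul_right p)
  have hℓNq : ¬ ℓ ∣ N * q := fun h => hℓS (hSNq ℓ hℓ h)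
  have hℓN : ¬ ℓ ∣ N := fun h => hℓNq (h.mul_right q)
  have hℓp : ℓ ≠ p := fun h => hℓS (hS ℓ hℓ (h ▸ dvd_mul_left ℓ _))
  obtain ⟨v₁, hv₁⟩ := exists_eisEnd_sq_eq hSN hℓ hℓN hℓS hne hΦ
  obtain ⟨v₂, hv₂⟩ := exists_eisEnd_sq_eq hSN hℓ hℓN hℓS hne hΨ
  obtain ⟨X₀, hX₀⟩ := mem_range_trPair hp2 hq hqN D hell hℓ hℓN hℓNq hℓp hℓ1 v₁ v₂
  have h₁ := (congrArg (fun z => (z.1 : Cusp → Cusp → k)) hX₀).trans hv₁
  have h₂ := (congrArg (fun z => (z.2 : Cusp → Cusp → k)) hX₀).trans hv₂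
  obtain ⟨X, hX, hXeq⟩ := exists_mem_eigenPart_trPair_eq hq hqN D hSNq X₀
    (h₁.symm ▸ hΦ) (h₂.symm ▸ hΨ)
  exact ⟨X, hX, (congrArg (fun z => (z.1 : Cusp → Cusp → k)) hXeq).trans h₁,
    (congrArg (fun z => (z.2 : Cusp → Cusp → k)) hXeq).trans h₂⟩

end Degeneracy

end FLTAgent.ModularityLifting
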