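import Fermat.Agent.ModularityLifting.Degeneracy.Coker
import Fermat.Agent.ModularityLifting.Points.CommonKernel
import Mathlib.LinearAlgebra.Matrix.Charpoly.Coeff
import Mathlib.LinearAlgebra.FiniteDimensional.Lemmas
import Mathlib.RingTheory.Localization.FractionRing
import Mathlib.RingTheory.Adjoin.Basic

/-!
# Eigenvectors at the new points

A new point has an eigenvector in the kernel of the transposed degeneracy map on which `U = ε`.
-/

set_option autoImplicit false

noncomputable section

namespace FLTAgent.Degeneracy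

open Matrix Polynomial FLTAgent.HeckePoints

section Prime

variable {O A : Type} [CommRing O] [IsDomain O] [IsNoetherianRing O] [CommRing A] [IsReduced A]
  [Algebra O A] [Module.Finite O A]

/-- A prime of a finite reduced algebra meeting the scalars trivially is killed by an element
outside it. -/
theorem exists_mul_eq_zero_of_prime (P : Ideal A) [P.IsPrime]
    (hP : ∀ o : O, algebraMap O A o ∈ P → o = 0) :
    ∃ e : A, e ∉ P ∧ ∀ x ∈ P, e * x = 0 := by
  classical
  have : IsNoetherianRing A := IsNoetherianRing.of_finite O A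
  have h1 : ∀ x ∈ P, ∃ e : A, e ∉ P ∧ e * x = 0 := by
    intro x hx
    obtain ⟨Q, hQ, hxQ⟩ := IsIntegral.of_finite O x
    obtain ⟨R, hR, hnd⟩ := exists_eq_pow_rootMultiplicity_mul_and_not_dvd Q hQ.ne_zero 0
    rw [map_zero, sub_zero] at hR hnd
    refine ⟨aeval x R, fun he => hnd (X_dvd_iff.mpr (hP _ ?_)), ?_⟩
    · rw [← X_mul_divX_add R, map_add, map_mul, aeval_X, aeval_C] at he
      exact (P.add_mem_iff_right (P.mul_mem_right _ hx)).mp he
    · rw [← aeval_def, hR, map_mul, map_pow, aeval_X] at hxQ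
      have hn : IsNilpotent (aeval x R * x) := ⟨rootMultiplicity 0 Q + 1, by
        rw [mul_pow, pow_succ x, pow_succ (aeval x R)]
        linear_combination (x * aeval x R ^ rootMultiplicity 0 Q) * hxQ⟩
      exact hn.eq_zero
  obtain ⟨s, hs⟩ := IsNoetherian.noetherian P
  have hsP : ∀ x ∈ s, x ∈ P := fun x hx => hs ▸ Submodule.subset_span hx
  choose! e he he0 using fun x hx => h1 x (hsP x hx)
  refine ⟨∏ x ∈ s, e x, fun h => ?_, fun y hy => ?_⟩
  · obtain ⟨x, hx, hxe⟩ := (Ideal.IsPrime.prod_mem_iff (p := P)).mp h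
    exact he x hx hxe
  · rw [← hs] at hy
    induction hy using Submodule.span_induction with
    | mem x hx => rw [← Finset.prod_erase_mul _ _ hx, mul_assoc, he0 x hx, mul_zero]
    | zero => rw [mul_zero]
    | add x y _ _ hx hy => rw [mul_add, hx, hy, add_zero]
    | smul r x _ hx => rw [smul_eq_mul, mul_left_comm, hx, mul_zero]

end Prime

section Common

variable {F L E A : Type} [CommRing F] [Field L] [Field E] [CharZero E] [CommRing A] {d : ℕ}

/-- A ring of matrices over a field of fractions has an eigenvector at each of its points. -/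
theorem exists_eigvec_of_kill (ψ : F →+* Matrix (Fin d) (Fin d) L) (φ : L →+* E) (x : F →+* E)
    (hx : ∀ s, ψ s = 0 → x s = 0) (ι : A →+* L) (sc : A → F)
    (hsc : ∀ a, ψ (sc a) = ι a • 1) (hxsc : ∀ a, x (sc a) = φ (ι a))
    (hfrac : ∀ Y : Matrix (Fin d) (Fin d) L, ∃ (D : A) (G : Matrix (Fin d) (Fin d) A),
      ι D ≠ 0 ∧ ι D • Y = G.map ι)
    (gen : Finset F) :
    ∃ v : Fin d → E, v ≠ 0 ∧ ∀ s ∈ gen, (ψ s).map φ *ᵥ v = x s • v := by
  classical
  let N : gen → Matrix (Fin d) (Fin d) E := fun i => φ.mapMatrix (ψ i) - Matrix.scalar _ (x i)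
  have hs : ∀ (c : E) (Y : Matrix (Fin d) (Fin d) E),
      Matrix.scalar _ c * Y = Y * Matrix.scalar _ c := fun c Y =>
    (Matrix.scalar_commute c (fun _ => Commute.all _ _) Y).eq
  have hN : ∀ i k, N i * N k = N k * N i := by
    intro i k
    simp only [N]
    rw [mul_sub, sub_mul, sub_mul, mul_sub, sub_mul, sub_mul, ← map_mul φ.mapMatrix (ψ i) (ψ k),
      ← map_mul φ.mapMatrix (ψ k) (ψ i), ← map_mul ψ, ← map_mul ψ, mul_comm (i : F) (k : F),
      hs (x i), hs (x k), hs (x i) (Matrix.scalar _ (x k))]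
    abel
  have hdet : ∀ u : gen → ℤ, (∑ i, u i • N i).det = 0 := by
    intro u
    let t : F := ∑ i, u i • (i : F)
    have et : ∑ i, u i • N i = φ.mapMatrix (ψ t) - Matrix.scalar _ (x t) := by
      simp only [N, t, smul_sub, Finset.sum_sub_distrib, map_sum, map_zsmul]
    obtain ⟨D, G, hD, hG⟩ := hfrac (ψ t)
    have hG' : ψ (sc D * t) = G.map ι := by
      rw [map_mul, hsc, Matrix.smul_mul, Matrix.one_mul, hG]
    let q : F := ∑ i ∈ Finset.range (G.charpoly.natDegree + 1),
      sc (G.charpoly.coeff i) * (sc D * t) ^ i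
    have hq : ψ q = 0 := by
      have hCH := congrArg (fun Y => Matrix.map Y ι) (Matrix.aeval_self_charpoly G)
      rw [aeval_eq_sum_range, Matrix.map_zero _ (map_zero ι)] at hCH
      rw [← hCH, ← RingHom.mapMatrix_apply, map_sum, map_sum]
      refine Finset.sum_congr rfl fun i _ => ?_
      rw [map_mul, map_pow, hsc, hG', Matrix.smul_mul, Matrix.one_mul, RingHom.mapMatrix_apply,
        Matrix.map_smul' _ _ _ (map_mul ι), ← RingHom.mapMatrix_apply ι (G ^ i), map_pow,
        RingHom.mapMatrix_apply]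
    have hroot := hx q hq
    simp only [q, map_sum, map_mul, map_pow, hxsc] at hroot
    have hroot' : Polynomial.eval (φ (ι D) * x t) (G.charpoly.map (φ.comp ι)) = 0 := by
      rw [Polynomial.eval_map, Polynomial.eval₂_eq_sum_range]
      simpa using hroot
    rw [← Matrix.charpoly_map, Matrix.eval_charpoly] at hroot'
    have hGE : G.map (φ.comp ι) = φ (ι D) • φ.mapMatrix (ψ t) := by
      rw [RingHom.mapMatrix_apply, ← Matrix.map_smul' _ _ _ (map_mul φ), hG, Matrix.map_map]
      rfl
    have hsc2 : Matrix.scalar (Fin d) (φ (ι D) * x t) = φ (ι D) • Matrix.scalar (Fin d) (x t) := by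
      ext a b
      by_cases h : a = b <;> simp [h]
    rw [hGE, hsc2, ← smul_sub, Matrix.det_smul, mul_eq_zero] at hroot'
    have hD' : φ (ι D) ≠ 0 := fun h => hD (φ.injective (h.trans (map_zero φ).symm))
    rw [et, ← neg_sub, Matrix.det_neg, hroot'.resolve_left (pow_ne_zero _ hD'), mul_zero]
  obtain ⟨v, hv0, hv⟩ := exists_common_kernel N hN hdet
  refine ⟨v, hv0, fun s hs' => ?_⟩
  have := hv ⟨s, hs'⟩
  simp only [N, Matrix.sub_mulVec, sub_eq_zero, RingHom.mapMatrix_apply] at this
  rw [this]
  funext a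
  simp [Matrix.mulVec_diagonal]

end Common

/-- The matrix of the basis of a stable subspace intertwines the restriction. -/
theorem map_mul_basisMat {L n : Type} [Field L] [Fintype n] [DecidableEq n] {d : ℕ}
    {M : Submodule L (n → L)} (b : Module.Basis (Fin d) L M) (Y : Matrix n n L)
    (h : ∀ x ∈ M, Y.mulVecLin x ∈ M) :
    Y * Matrix.of (fun a i => (b i : n → L) a) = Matrix.of (fun a i => (b i : n → L) a) *
      LinearMap.toMatrix b b (Y.mulVecLin.restrict h) := by
  ext a i
  have h1 := congrArg (fun x : M => (x : n → L) a) (b.sum_repr (Y.mulVecLin.restrict h (b i)))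
  simp only [Submodule.coe_sum, Submodule.coe_smul, Finset.sum_apply, Pi.smul_apply, smul_eq_mul,
    LinearMap.coe_restrict_apply, Matrix.mulVecLin_apply] at h1
  refine Eq.trans h1.symm ?_
  rw [Matrix.mul_apply]
  exact Finset.sum_congr rfl fun k _ => by rw [LinearMap.toMatrix_apply, mul_comm]; rfl

section Restrict

variable {F L : Type} [CommRing F] [Field L] {n : Type} [Fintype n] [DecidableEq n] {d : ℕ}
  {M : Submodule L (n → L)} (f : F →+* Matrix n n L) (h : ∀ s, ∀ x ∈ M, (f s).mulVecLin x ∈ M)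
  (b : Module.Basis (Fin d) L M)

/-- The restriction of a ring of matrices to a stable subspace, in a basis of it. -/
private def restrictHom : F →+* Matrix (Fin d) (Fin d) L where
  toFun s := LinearMap.toMatrix b b ((f s).mulVecLin.restrict (h s))
  map_one' := by
    rw [← LinearMap.toMatrix_one b]
    congr 1
    refine LinearMap.ext fun x => Subtype.ext ?_
    simp [LinearMap.coe_restrict_apply]
  map_mul' s t := by
    rw [← LinearMap.toMatrix_mul]
    congr 1
    refine LinearMap.ext fun x => Subtype.ext ?_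
    simp [LinearMap.coe_restrict_apply, Matrix.mulVec_mulVec]
  map_zero' := by
    rw [← map_zero (LinearMap.toMatrix b b)]
    congr 1
    refine LinearMap.ext fun x => Subtype.ext ?_
    simp [LinearMap.coe_restrict_apply]
  map_add' s t := by
    rw [← map_add]
    congr 1
    refine LinearMap.ext fun x => Subtype.ext ?_
    simp [LinearMap.coe_restrict_apply]

/-- A scalar restricts to the scalar. -/
private theorem restrictHom_eq_smul_one {s : F} {c : L} (hs : f s = c • 1) :
    restrictHom f h b s = c • 1 := by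
  show LinearMap.toMatrix b b ((f s).mulVecLin.restrict (h s)) = _
  rw [← LinearMap.toMatrix_one b, ← map_smul]
  congr 1
  refine LinearMap.ext fun x => Subtype.ext ?_
  simp [LinearMap.coe_restrict_apply, hs]

/-- An element restricting to zero kills the subspace. -/
private theorem mulVec_eq_zero_of_restrictHom {s : F} (hs : restrictHom f h b s = 0) {x : n → L}
    (hx : x ∈ M) : f s *ᵥ x = 0 := by
  have h0 := congrArg (fun g => (g ⟨x, hx⟩ : M).1)
    ((LinearMap.toMatrix b b).injective (hs.trans (map_zero _).symm))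
  simpa [LinearMap.coe_restrict_apply] using h0

omit [DecidableEq n] in
/-- The matrix of a basis of a subspace has a left inverse. -/
private theorem exists_mul_basisMat_eq_one :
    ∃ G : Matrix (Fin d) n L, G * Matrix.of (fun a i => (b i : n → L) a) = 1 := by
  classical
  let Bm : Matrix n (Fin d) L := Matrix.of fun a i => (b i : n → L) a
  obtain ⟨Lf, hLf⟩ := LinearMap.exists_leftInverse_of_injective Bm.mulVecLin
    (LinearMap.ker_eq_bot'.mpr fun x hx => by
      have h0 : (∑ i, x i • b i : M) = 0 := Subtype.ext (funext fun a => by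
        simpa [Bm, Matrix.mulVec, dotProduct, Finset.sum_apply, mul_comm] using congrFun hx a)
      exact funext (Fintype.linearIndependent_iff.mp b.linearIndependent x h0))
  refine ⟨LinearMap.toMatrix' Lf, ?_⟩
  have := congrArg LinearMap.toMatrix' hLf
  rwa [LinearMap.toMatrix'_comp, ← Matrix.toLin'_apply', LinearMap.toMatrix'_toLin',
    LinearMap.toMatrix'_id] at this

end Restrict

/-- A matrix killing the columns of another does so after a change of coefficients. -/
private theorem map_mulVec_col_eq_zero {A L : Type} [CommRing A] [CommRing L] {k l m : Type}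
    [Fintype l] (ι : A →+* L) {Y : Matrix k l A} {Z : Matrix l m A} (h : Y * Z = 0) (b : m) :
    Y.map ι *ᵥ (fun c => ι (Z c b)) = 0 := by
  funext i
  rw [show (fun c => ι (Z c b)) = ι ∘ Z.col b from rfl, ← RingHom.map_mulVec]
  simp [show (Y *ᵥ Z.col b) i = (Y * Z) i b from rfl, h]

/-- A matrix over the fraction field of a quotient is a multiple of one from the ring. -/
private theorem exists_smul_eq_map {A : Type} [CommRing A] (P : Ideal A) [P.IsPrime] {d : ℕ}
    (Y : Matrix (Fin d) (Fin d) (FractionRing (A ⧸ P))) :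
    ∃ (D : A) (G : Matrix (Fin d) (Fin d) A),
      (algebraMap (A ⧸ P) (FractionRing (A ⧸ P))).comp (Ideal.Quotient.mk P) D ≠ 0 ∧
        (algebraMap (A ⧸ P) (FractionRing (A ⧸ P))).comp (Ideal.Quotient.mk P) D • Y =
          G.map ((algebraMap (A ⧸ P) (FractionRing (A ⧸ P))).comp (Ideal.Quotient.mk P)) := by
  obtain ⟨⟨D, hD⟩, hint⟩ := IsLocalization.exist_integer_multiples_of_finite
    (nonZeroDivisors (A ⧸ P)) (fun ab : Fin d × Fin d => Y ab.1 ab.2)
  choose g hg using hint
  obtain ⟨D', rfl⟩ := Ideal.Quotient.mk_surjective D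
  choose g' hg' using fun ab => Ideal.Quotient.mk_surjective (g ab)
  refine ⟨D', Matrix.of fun a b => g' (a, b), fun h => ?_, ?_⟩
  · exact nonZeroDivisors.ne_zero hD
      ((map_eq_zero_iff _ (IsFractionRing.injective (A ⧸ P) (FractionRing (A ⧸ P)))).mp h)
  · ext a b
    have h := hg (a, b)
    rw [← hg'] at h
    rw [Matrix.smul_apply, Matrix.map_apply, smul_eq_mul]
    exact ((Algebra.smul_def _ _).symm.trans h.symm :)

/-- A common eigenvector of generators of a module of matrices is one of all its elements. -/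
private theorem mulVec_eq_of_span {O F E : Type} [CommRing O] [CommRing F] [Algebra O F]
    [CommRing E] {d : ℕ} (ψ : F →+* Matrix (Fin d) (Fin d) E) (x : F →+* E)
    (ho : ∀ o : O, ψ (algebraMap O F o) = x (algebraMap O F o) • 1) {gen : Finset F}
    (hgen : Submodule.span O (gen : Set F) = ⊤) {v : Fin d → E}
    (hv : ∀ s ∈ gen, ψ s *ᵥ v = x s • v) (s : F) : ψ s *ᵥ v = x s • v := by
  have hs : s ∈ Submodule.span O (gen : Set F) := hgen ▸ Submodule.mem_top
  induction hs using Submodule.span_induction with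
  | mem y hy => exact hv y hy
  | zero => simp
  | add y z _ _ hy hz => rw [map_add, map_add, Matrix.add_mulVec, hy, hz, add_smul]
  | smul o y _ hy =>
    rw [Algebra.smul_def, map_mul, map_mul, ho, Matrix.smul_mul, Matrix.one_mul,
      Matrix.smul_mulVec, hy, smul_smul]

variable {O : Type} [CommRing O] [IsDomain O] [IsNoetherianRing O] {C : Type} [CommRing C]
  [IsDomain C] [Algebra O C] [Module.Finite O C] {X : Type} [Fintype X]
  (F : Subalgebra O (X → C))
  {A : Type} [CommRing A] [IsReduced A] [Algebra O A] [Module.Finite O A]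
  {m n : Type} [Fintype m] [DecidableEq m] [Fintype n] [DecidableEq n]
  (J : Matrix n m A) (W : Matrix n n A) (Tr : Matrix m n A) (ε : A)
  (act₀ : F →ₐ[O] Matrix m m A) (act₁ : F →ₐ[O] Matrix n n A)

omit [IsNoetherianRing O] [Module.Finite O C] [Fintype X] [IsReduced A] [Module.Finite O A]
  [IsDomain O] [IsDomain C] in
/-- At a point vanishing on what acts as zero, the scalars of the operators are a character. -/
private theorem exists_pointChar (hscal : ∀ a : A, ∃ s : F, act₁ s = a • 1) (ev : F →+* C)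
    (hev : ∀ o : O, ev (algebraMap O F o) = algebraMap O C o)
    (hker : ∀ s : F, act₁ s = 0 → ev s = 0) :
    ∃ η₀ : A →+* C, (∀ o, η₀ (algebraMap O A o) = algebraMap O C o) ∧
      ∀ (a : A) (s : F), act₁ s = a • 1 → ev s = η₀ a := by
  choose sc hsc using hscal
  have hsc' : ∀ (a : A) (s : F), act₁ s = a • 1 → ev s = ev (sc a) := fun a s h => by
    rw [← sub_eq_zero, ← map_sub]
    exact hker _ (by rw [map_sub, h, hsc, sub_self])
  let η₀ : A →+* C :=
    { toFun := fun a => ev (sc a)
      map_one' := by rw [← hsc' 1 1 (by rw [map_one, one_smul]), map_one]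
      map_mul' := fun a b => by
        rw [← map_mul, ← hsc' (a * b) (sc a * sc b) (by
          rw [map_mul, hsc, hsc, Matrix.smul_mul, Matrix.one_mul, smul_smul])]
      map_zero' := by rw [← hsc' 0 0 (by rw [map_zero, zero_smul]), map_zero]
      map_add' := fun a b => by
        rw [← map_add, ← hsc' (a + b) (sc a + sc b) (by rw [map_add, hsc, hsc, add_smul])] }
  refine ⟨η₀, fun o => ((hsc' _ (algebraMap O F o) ?_).symm.trans (hev o)), hsc'⟩
  rw [AlgHom.commutes, IsScalarTower.algebraMap_apply O A (Matrix n n A),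
    Algebra.algebraMap_eq_smul_one]

omit [IsNoetherianRing O] [Module.Finite O C] [Fintype X] [IsReduced A] [Module.Finite O A]
  [IsDomain O] [IsDomain C] in
/-- The operators commute with `U - ε`. -/
private theorem uMat_sub_comm (hJ : ∀ s, act₁ s * J = J * act₀ s)
    (hW : ∀ s, W * act₁ s = act₁ s * W) (hT : ∀ s, Tr * act₁ s = act₀ s * Tr) (s : F) :
    (uMat J W Tr - ε • 1) * act₁ s = act₁ s * (uMat J W Tr - ε • 1) := by
  rw [Matrix.sub_mul, Matrix.mul_sub, Matrix.smul_mul, Matrix.mul_smul, Matrix.one_mul,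
    Matrix.mul_one]
  congr 1
  rw [uMat, Matrix.sub_mul, Matrix.mul_sub, hW]
  congr 1
  rw [Matrix.mul_assoc (J * Tr) W, hW, ← Matrix.mul_assoc, Matrix.mul_assoc J Tr, hT,
    ← Matrix.mul_assoc J, ← hJ]
  simp only [Matrix.mul_assoc]

omit [IsNoetherianRing O] [Module.Finite O C] [Fintype X] [IsReduced A] [Module.Finite O A]
  [IsDomain O] [IsDomain C] in
/-- The operators preserve the space killed by `β` and by `U - ε`. -/
private theorem map_mulVec_constraint (hJ : ∀ s, act₁ s * J = J * act₀ s)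
    (hW : ∀ s, W * act₁ s = act₁ s * W) (hT : ∀ s, Tr * act₁ s = act₀ s * Tr) {L : Type}
    [CommRing L] (ι : A →+* L) (s : F) {x : n → L} (h1 : (betaMat W Tr).map ι *ᵥ x = 0)
    (h2 : (uMat J W Tr - ε • 1).map ι *ᵥ x = 0) :
    (betaMat W Tr).map ι *ᵥ ((act₁ s).map ι *ᵥ x) = 0 ∧
      (uMat J W Tr - ε • 1).map ι *ᵥ ((act₁ s).map ι *ᵥ x) = 0 := by
  refine ⟨?_, ?_⟩ <;> rw [Matrix.mulVec_mulVec, ← Matrix.map_mul]
  · rw [beta_comm (hW s) (hT s), Matrix.map_mul, ← Matrix.mulVec_mulVec, h1, Matrix.mulVec_zero]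
  · rw [uMat_sub_comm F J W Tr ε act₀ act₁ hJ hW hT, Matrix.map_mul, ← Matrix.mulVec_mulVec, h2,
      Matrix.mulVec_zero]

omit [IsNoetherianRing O] [Module.Finite O C] [Fintype X] [IsReduced A] [Module.Finite O A]
  [IsDomain O] [IsDomain C] [DecidableEq m] in
/-- An operator killing the constrained vectors after a change of coefficients lands in `newAnn`
after multiplication by a scalar killing the kernel of the change. -/
private theorem mul_mem_newAnn {L : Type} [CommRing L] {ι : A →+* L} {e : A}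
    (he : ∀ a, ι a = 0 → e * a = 0) {s' s : F} (hs' : act₁ s' = e • 1)
    (hs : ∀ x : n → L, (betaMat W Tr).map ι *ᵥ x = 0 →
      (uMat J W Tr - ε • 1).map ι *ᵥ x = 0 → (act₁ s).map ι *ᵥ x = 0) :
    s' * s ∈ newAnn F J W Tr ε act₁ := by
  intro Z hZ1 hZ2
  rw [map_mul, hs', Matrix.smul_mul, Matrix.one_mul, Matrix.smul_mul]
  ext a b
  refine he _ ?_
  have h0 := congrFun (hs _ (map_mulVec_col_eq_zero ι hZ1 b) (map_mulVec_col_eq_zero ι
    (by rw [Matrix.sub_mul, hZ2, Matrix.smul_mul, Matrix.one_mul, sub_self]) b)) a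
  exact (RingHom.map_mulVec ι (act₁ s) (Z.col b) a).trans h0

/-- A new point has an eigenvector killed by `β` on which `U` acts by the sign. -/
theorem exists_eigvec_of_new
    (hJ : ∀ s, act₁ s * J = J * act₀ s) (hW : ∀ s, W * act₁ s = act₁ s * W)
    (hT : ∀ s, Tr * act₁ s = act₀ s * Tr)
    (hscal : ∀ a : A, ∃ s : F, act₁ s = a • 1)
    (hCinj : Function.Injective (algebraMap O C)) {P₁ : Set X} {θ : X}
    (hθ : θ ∈ newPoints F J W Tr ε act₁ P₁)
    {E : Type} [Field E] [CharZero E] (j : C →+* E) (hj : Function.Injective j) :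
    ∃ (η : A →+* E) (v : n → E), v ≠ 0 ∧
      (∀ o : O, η (algebraMap O A o) = j (algebraMap O C o)) ∧
      (betaMat W Tr).map η *ᵥ v = 0 ∧ (uMat J W Tr).map η *ᵥ v = η ε • v ∧
      ∀ s : F, (act₁ s).map η *ᵥ v = j ((s : X → C) θ) • v := by
  classical
  let ev : F →+* C := ((Pi.evalRingHom (fun _ : X => C) θ).comp F.val.toRingHom)
  have hker : ∀ s : F, act₁ s = 0 → ev s = 0 := fun s h => hθ.2 s fun Z _ _ => by
    rw [h, Matrix.zero_mul]
  obtain ⟨η₀, hη₀, hev⟩ := exists_pointChar F act₁ hscal ev (fun _ => rfl) hker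
  choose sc hsc using hscal
  set P : Ideal A := RingHom.ker η₀
  have : P.IsPrime := RingHom.ker_isPrime η₀
  obtain ⟨e, heP, he⟩ := exists_mul_eq_zero_of_prime (O := O) P fun o ho =>
    hCinj (by rw [map_zero, ← hη₀]; exact ho)
  let L := FractionRing (A ⧸ P)
  let ι : A →+* L := (algebraMap (A ⧸ P) L).comp (Ideal.Quotient.mk P)
  have hι0 : ∀ a, ι a = 0 ↔ a ∈ P := fun a => by
    rw [RingHom.comp_apply, map_eq_zero_iff _ (IsFractionRing.injective (A ⧸ P) L),
      Ideal.Quotient.eq_zero_iff_mem]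
  have hηq : Function.Injective (j.comp (RingHom.kerLift η₀)) :=
    hj.comp (RingHom.kerLift_injective η₀)
  let φ : L →+* E := IsFractionRing.lift hηq
  have hφι : ∀ a, φ (ι a) = j (η₀ a) := fun a => IsFractionRing.lift_algebraMap hηq _
  -- the space cut out by the constraints, and the operators on it
  let M : Submodule L (n → L) := LinearMap.ker ((betaMat W Tr).map ι).mulVecLin ⊓
    LinearMap.ker ((uMat J W Tr - ε • 1).map ι).mulVecLin
  have hM : ∀ x, x ∈ M ↔ (betaMat W Tr).map ι *ᵥ x = 0 ∧
      (uMat J W Tr - ε • 1).map ι *ᵥ x = 0 := fun x => by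
    simp [M, LinearMap.mem_ker]
  let f : F →+* Matrix n n L := ι.mapMatrix.comp act₁.toRingHom
  have hstab : ∀ (s : F), ∀ x ∈ M, (f s).mulVecLin x ∈ M := fun s x hx => by
    obtain ⟨h1, h2⟩ := (hM x).mp hx
    exact (hM _).mpr (map_mulVec_constraint F J W Tr ε act₀ act₁ hJ hW hT ι s h1 h2)
  let bM := Module.finBasis L M
  let ψ := restrictHom f hstab bM
  have hψsc : ∀ a s, act₁ s = a • 1 → ψ s = ι a • 1 := fun a s hs =>
    restrictHom_eq_smul_one f hstab bM (by
      show (act₁ s).map ι = _
      rw [hs, Matrix.map_smul' _ _ _ (map_mul ι), Matrix.map_one _ (map_zero ι) (map_one ι)])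
  have hkill : ∀ s, ψ s = 0 → ev s = 0 := fun s hs => by
    have h0 := hθ.2 _ (mul_mem_newAnn F J W Tr ε act₁ (fun a ha => he a ((hι0 a).mp ha)) (hsc e)
      (fun x h1 h2 => mulVec_eq_zero_of_restrictHom f hstab bM hs ((hM x).mpr ⟨h1, h2⟩)))
    rw [Subalgebra.coe_mul, Pi.mul_apply, mul_eq_zero] at h0
    exact h0.resolve_left fun h => heP ((hev e (sc e) (hsc e)).symm.trans h)
  have : Module.Finite O F := Module.Finite.of_injective F.val.toLinearMap Subtype.val_injective
  obtain ⟨gen, hgen⟩ := Module.Finite.fg_top (R := O) (M := F)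
  obtain ⟨v, hv0, hv⟩ := exists_eigvec_of_kill ψ φ (j.comp ev)
    (fun s h => (congrArg j (hkill s h)).trans (map_zero j)) ι sc (fun a => hψsc a _ (hsc a))
    (fun a => (congrArg j (hev a _ (hsc a))).trans (hφι a).symm) (exists_smul_eq_map P) gen
  have heig : ∀ s, (ψ s).map φ *ᵥ v = j (ev s) • v :=
    mulVec_eq_of_span (φ.mapMatrix.comp ψ) (j.comp ev) (fun o => by
      rw [RingHom.comp_apply, hψsc (algebraMap O A o) _ (by
          rw [AlgHom.commutes, IsScalarTower.algebraMap_apply O A (Matrix n n A),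
            Algebra.algebraMap_eq_smul_one]),
        RingHom.mapMatrix_apply, Matrix.map_smul' _ _ _ (map_mul φ),
        Matrix.map_one _ (map_zero φ) (map_one φ), hφι, hη₀]
      rfl) hgen hv
  obtain ⟨G, hinv⟩ := exists_mul_basisMat_eq_one bM
  let Bm : Matrix n (Fin (Module.finrank L M)) L := Matrix.of fun a i => (bM i : n → L) a
  have hcomp : ∀ {k l : Type} (Y : Matrix k l A), Y.map (j.comp η₀) = (Y.map ι).map φ :=
    fun Y => by rw [Matrix.map_map, ← RingHom.ext (f := φ.comp ι) (g := j.comp η₀) hφι]; rfl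
  have hzero : ∀ {k : Type} (Y : Matrix k n A), (∀ i, Y.map ι *ᵥ (bM i : n → L) = 0) →
      Y.map (j.comp η₀) *ᵥ (Bm.map φ *ᵥ v) = 0 := fun Y h => by
    have hY : Y.map ι * Bm = 0 := by ext a i; exact congrFun (h i) a
    rw [hcomp, Matrix.mulVec_mulVec, ← Matrix.map_mul, hY, Matrix.map_zero _ (map_zero φ),
      Matrix.zero_mulVec]
  refine ⟨j.comp η₀, Bm.map φ *ᵥ v, fun h => hv0 ?_, fun o => by rw [RingHom.comp_apply, hη₀],
    hzero _ fun i => ((hM _).mp (bM i).2).1, ?_, fun s => ?_⟩
  · have := congrArg (G.map φ *ᵥ ·) h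
    simpa [Bm, Matrix.mulVec_mulVec, ← Matrix.map_mul, hinv, Matrix.map_one] using this
  · have h2 := hzero (uMat J W Tr - ε • 1) fun i => ((hM _).mp (bM i).2).2
    rw [Matrix.map_sub _ (map_sub (j.comp η₀)), Matrix.map_smul' _ _ _ (map_mul (j.comp η₀)),
      Matrix.map_one _ (map_zero _) (map_one _), Matrix.sub_mulVec, Matrix.smul_mulVec,
      Matrix.one_mulVec, sub_eq_zero] at h2
    exact h2
  · rw [hcomp, Matrix.mulVec_mulVec, ← Matrix.map_mul,
      show (act₁ s).map ι * Bm = Bm * ψ s from map_mul_basisMat bM _ (hstab s), Matrix.map_mul,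
      ← Matrix.mulVec_mulVec, heig, Matrix.mulVec_smul]
    rfl

end FLTAgent.Degeneracy
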