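import Fermat.Agent.ModularityLifting.Degeneracy.Package
import Fermat.Agent.ModularityLifting.Degeneracy.Eigen
import Fermat.Agent.ModularityLifting.Points.EigenBasis

/-!
# The eigensymbol of a new point

A new point comes from a symbol of level `N q` over a field, killed by both traces to level `N`,
on which `c⁻¹ U` is the sign.
-/

set_option autoImplicit false

noncomputable section

namespace FLTAgent.Degeneracy

open FLTAgent.LevelRaising FLTAgent.ModularityLifting FLTAgent.HeckePoints Matrix IsLocalRing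

section BaseChange

variable {A E : Type} [CommRing A] [CommRing E] {N q : ℕ} (D : ALData N q)
  (δ : DirichletCharacter A N) (c : Aˣ) (φ : A →+* E)

theorem upChar_ringHomComp :
    (upChar q δ).ringHomComp φ = upChar q (δ.ringHomComp φ) := by
  ext u
  rw [MulChar.ringHomComp_apply,
    DirichletCharacter.changeLevel_eq_cast_of_dvd δ (dvd_mul_right N q) u,
    DirichletCharacter.changeLevel_eq_cast_of_dvd (δ.ringHomComp φ) (dvd_mul_right N q) u,
    MulChar.ringHomComp_apply]

theorem map_wOp (Φ : Cusp → Cusp → A) : mapVal φ (D.wOp A Φ) = D.wOp E (mapVal φ Φ) := by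
  funext x y
  simp [mapVal, ALData.wOp, pull_apply]

theorem map_uOp (Φ : Cusp → Cusp → A) : mapVal φ (uOp A q Φ) = uOp E q (mapVal φ Φ) := by
  funext x y
  simp [mapVal, uOp, pullFam_apply, Finset.sum_apply, pull_apply]

theorem map_wChar (Φ : Cusp → Cusp → A) :
    mapVal φ (wChar D δ c Φ) = wChar D (δ.ringHomComp φ) (Units.map φ c) (mapVal φ Φ) := by
  rw [wChar, wChar, LinearMap.smul_apply, LinearMap.smul_apply, mapVal_smul, map_wOp, map_mul,
    MulChar.ringHomComp_apply]
  rfl

theorem map_trChar (Φ : Cusp → Cusp → A) :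
    mapVal φ (trChar D δ Φ) = trChar D (δ.ringHomComp φ) (mapVal φ Φ) := by
  rw [trChar, trChar, LinearMap.add_apply, LinearMap.add_apply, LinearMap.id_apply,
    LinearMap.id_apply, LinearMap.smul_apply, LinearMap.smul_apply, LinearMap.comp_apply,
    LinearMap.comp_apply, mapVal_add, mapVal_smul, map_uOp, map_wOp, MulChar.ringHomComp_apply]

variable {ι κ : Type} [Fintype ι] [DecidableEq ι] [Fintype κ] [DecidableEq κ]
  {M M' : Submodule A (Cusp → Cusp → A)} (b : Module.Basis ι A M) (b' : Module.Basis κ A M')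

omit [DecidableEq κ] in
/-- The effect of a change of coefficients of a map on combinations of a basis. -/
theorem apply_sum_mapVal (f : M →ₗ[A] M') (f' : (Cusp → Cusp → E) →ₗ[E] (Cusp → Cusp → E))
    (hff : ∀ x : M, mapVal φ (f x : Cusp → Cusp → A) = f' (mapVal φ (x : Cusp → Cusp → A)))
    (v : ι → E) :
    f' (∑ i, v i • mapVal φ (b i : Cusp → Cusp → A)) =
      ∑ k, ((LinearMap.toMatrix b b' f).map φ *ᵥ v) k • mapVal φ (b' k : Cusp → Cusp → A) := by
  have hb : ∀ i, mapVal φ (f (b i) : Cusp → Cusp → A) =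
      ∑ k, φ (b'.repr (f (b i)) k) • mapVal φ (b' k : Cusp → Cusp → A) := fun i => by
    conv_lhs => rw [← b'.sum_repr (f (b i))]
    rw [Submodule.coe_sum]
    funext x y
    simp [mapVal, Finset.sum_apply]
  rw [map_sum]
  simp only [map_smul, ← hff, hb, Finset.smul_sum, smul_smul, Matrix.mulVec, dotProduct,
    Matrix.map_apply, LinearMap.toMatrix_apply, Finset.sum_smul]
  rw [Finset.sum_comm]
  exact Finset.sum_congr rfl fun k _ => Finset.sum_congr rfl fun i _ => by rw [mul_comm]

end BaseChange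

variable {O : Type} [CommRing O] [IsDomain O] [IsNoetherianRing O] {C : Type} [CommRing C]
  [IsDomain C] [Algebra O C] [Module.Finite O C] {X : Type} [Fintype X]
  {F : Subalgebra O (X → C)}
  {A : Type} [CommRing A] [IsLocalRing A] [IsReduced A] [Algebra O A] [Module.Finite O A]
  {N q : ℕ} (D : ALData N q)
  {δ : DirichletCharacter A N} (hq : q.Prime) (hqN : ¬ q ∣ N) (c : Aˣ)
  {S : Finset ℕ} (hS : ∀ l, l.Prime → l ∣ N * q → l ∈ S) {a : ℕ → A}
  {m : Type} [Fintype m] [DecidableEq m] {d : ℕ}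
  (b₀ : Module.Basis m A (eigenPart A δ S a))
  (b₁ : Module.Basis (Fin d) A (eigenPart A (upChar q δ) S a))
  (act₀ : F →ₐ[O] Matrix m m A) (act₁ : F →ₐ[O] Matrix (Fin d) (Fin d) A)

omit [IsReduced A] in
/-- Residual independence gives independence after every change of coefficients. -/
theorem combination_ne_zero
    (hker₁ : ∀ Φ ∈ eigenPart A (upChar q δ) S a, mapVal (residue A) Φ = 0 →
      Φ ∈ maximalIdeal A • eigenPart A (upChar q δ) S a)
    {E : Type} [CommRing E] (η : A →+* E) {v : Fin d → E} (hv : v ≠ 0) :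
    ∑ i, v i • mapVal η (b₁ i : Cusp → Cusp → A) ≠ 0 := by
  intro h0
  have hli : LinearIndependent (ResidueField A)
      fun i => mapVal (residue A) (b₁ i : Cusp → Cusp → A) := by
    refine Fintype.linearIndependent_iff.mpr fun g hg i => ?_
    choose x hx using fun i => residue_surjective (g i)
    set Z : eigenPart A (upChar q δ) S a := ∑ i, x i • b₁ i
    have hz : mapVal (residue A) (Z : Cusp → Cusp → A) = 0 := by
      simp only [Z, Submodule.coe_sum, Submodule.coe_smul]
      rw [mapVal_sum_smul]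
      simpa only [hx] using hg
    have h := (residue_eq_zero_iff _).mpr (repr_mem_of_mem_smul b₁ (hker₁ _ Z.2 hz) i)
    rw [Module.Basis.repr_sum_self] at h
    rw [← hx i, h]
  obtain ⟨pts, hb⟩ := exists_isUnit_valueMat _ hli
  refine hv (comb_injective hb η ?_)
  rw [comb_apply, comb_apply, h0]
  simp

include D hq hqN in
/-- A new point gives an eigensymbol killed by both traces on which `c⁻¹ U` is the sign. -/
theorem exists_new_symbol {G : Set F} (hG : Algebra.adjoin O G = ⊤)
    (hgen : ActsByHecke F δ S hS a b₀ b₁ act₀ act₁ G)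
    (hc : (c : A) * c = δ (q : ZMod N))
    (hscal : ∀ x : A, ∃ s : F, act₁ s = x • 1)
    (hker₁ : ∀ Φ ∈ eigenPart A (upChar q δ) S a, mapVal (residue A) Φ = 0 →
      Φ ∈ maximalIdeal A • eigenPart A (upChar q δ) S a)
    (hCinj : Function.Injective (algebraMap O C)) (ε : O) {P₁ : Set X} {θ : X}
    (hθ : θ ∈ newPts D hq hqN c hS b₀ b₁ act₁ ε P₁)
    {E : Type} [Field E] [CharZero E] (j : C →+* E) (hj : Function.Injective j) :
    ∃ (η : A →+* E) (Φ : Cusp → Cusp → E),
      (∀ o : O, η (algebraMap O A o) = j (algebraMap O C o)) ∧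
      Φ ∈ SymbChar E (upChar q (δ.ringHomComp η)) ∧ Φ ≠ 0 ∧
      trChar D (δ.ringHomComp η) Φ = 0 ∧
      trChar D (δ.ringHomComp η) (wChar D (δ.ringHomComp η) (Units.map η c) Φ) = 0 ∧
      uOp E q Φ = (η c * j (algebraMap O C ε)) • Φ ∧
      (∀ (s : F) (x : A), act₁ s = x • 1 → η x = j ((s : X → C) θ)) ∧
      ∀ (s : F) (x : A) (l : ℕ) (hl : l.Prime) (hlN : ¬ l ∣ N * q),
        act₁ s = x • LinearMap.toMatrix b₁ b₁ (tE' δ S hS a hl hlN) →
          η x • tOpChar E (upChar q (δ.ringHomComp η)) l Φ = j ((s : X → C) θ) • Φ := by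
  have hi := intertwines D hq hqN c hS b₀ b₁ act₀ act₁ hG hgen
  obtain ⟨η, v, hv0, hη, hβ, hU, hs⟩ := exists_eigvec_of_new F
    (jMat δ S hS a b₀ b₁) (wMat D δ hq c S hS a b₁) (trMat D δ hq hqN S hS a b₀ b₁)
    (algebraMap O A ε) act₀ act₁ (fun s => (hi s).1) (fun s => (hi s).2.1) (fun s => (hi s).2.2)
    hscal hCinj hθ j hj
  set δE := δ.ringHomComp η
  set Φ := ∑ i, v i • mapVal η (b₁ i : Cusp → Cusp → A) with hΦdef
  have hΦ : Φ ∈ SymbChar E (upChar q δE) := by
    rw [← upChar_ringHomComp]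
    exact Submodule.sum_mem _ fun i _ =>
      Submodule.smul_mem _ _ (mapVal_mem η ((mem_eigenPart_iff hS).mp (b₁ i).2).1)
  have hβ0 : (trMat D δ hq hqN S hS a b₀ b₁).map η *ᵥ v = 0 := funext fun k => by
    simpa [betaMat, Matrix.mulVec, dotProduct] using congrFun hβ (0, k)
  have hβ1 : (trMat D δ hq hqN S hS a b₀ b₁ * wMat D δ hq c S hS a b₁).map η *ᵥ v = 0 :=
    funext fun k => by simpa [betaMat, Matrix.mulVec, dotProduct] using congrFun hβ (1, k)
  have hW : (wMat D δ hq c S hS a b₁).map η *ᵥ v = -(η (algebraMap O A ε)) • v := by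
    rw [neg_smul, ← hU, uMat, Matrix.map_sub _ (map_sub η), Matrix.sub_mulVec, Matrix.mul_assoc,
      Matrix.map_mul, ← Matrix.mulVec_mulVec, hβ1, Matrix.mulVec_zero, zero_sub, neg_neg]
  have ew : wChar D δE (Units.map η c) Φ = -(η (algebraMap O A ε)) • Φ := by
    rw [hΦdef, apply_sum_mapVal η b₁ b₁ (wE D δ hq c S hS a) _
      (fun x => by rw [coe_wE, map_wChar]), show LinearMap.toMatrix b₁ b₁ (wE D δ hq c S hS a) =
        wMat D δ hq c S hS a b₁ from rfl, hW, Finset.smul_sum]
    exact Finset.sum_congr rfl fun i _ => by rw [Pi.smul_apply, smul_eq_mul, mul_smul]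
  have et : trChar D δE Φ = 0 := by
    rw [hΦdef, apply_sum_mapVal η b₁ b₀ (trE D δ hq hqN S hS a) _
      (fun x => by rw [coe_trE, map_trChar]),
        show LinearMap.toMatrix b₁ b₀ (trE D δ hq hqN S hS a) =
        trMat D δ hq hqN S hS a b₀ b₁ from rfl, hβ0]
    simp
  have etw : trChar D δE (wChar D δE (Units.map η c) Φ) = 0 := by
    rw [ew, map_smul, et, smul_zero]
  have hsv : ∀ s : F, (act₁ s).map η *ᵥ v = j ((s : X → C) θ) • v := hs
  refine ⟨η, Φ, hη, hΦ, combination_ne_zero b₁ hker₁ η hv0, et, etw, ?_, fun s x hx => ?_,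
    fun s x l hl hlN hx => ?_⟩
  · have hcE : ((Units.map η c : Eˣ) : E) * (Units.map η c : Eˣ) = δE (q : ZMod N) := by
      rw [MulChar.ringHomComp_apply, ← hc, map_mul]
      rfl
    have h := uOp_eq_trChar D hq (Units.map η c) hcE hΦ
    rw [etw, zero_sub, ew, neg_smul, neg_neg] at h
    have h2 := congrArg (fun Y => (η c) • Y) h
    simp only [smul_smul] at h2
    rw [show η (c : A) * ((↑(Units.map η c)⁻¹ : Eˣ) : E) = 1 from
      Units.mul_inv (Units.map (η : A →* E) c),
      one_smul] at h2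
    rw [h2, hη]
  · obtain ⟨i, hi⟩ : ∃ i, v i ≠ 0 := Function.ne_iff.mp hv0
    have h := congrFun (hsv s) i
    rw [hx, Matrix.map_smul' _ _ _ (map_mul η), Matrix.map_one _ (map_zero _) (map_one _),
      Matrix.smul_mulVec, Matrix.one_mulVec, Pi.smul_apply, Pi.smul_apply, smul_eq_mul,
      smul_eq_mul] at h
    exact mul_right_cancel₀ hi h
  · have h := hsv s
    rw [hx, Matrix.map_smul' _ _ _ (map_mul η), Matrix.smul_mulVec] at h
    have ht := apply_sum_mapVal η b₁ b₁ (tE' δ S hS a hl hlN)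
      (tOpChar E (upChar q δE) l) (fun y => by
        rw [coe_tE', mapVal_tOpChar, upChar_ringHomComp]) v
    rw [← hΦdef] at ht
    rw [ht, hΦdef, Finset.smul_sum, Finset.smul_sum]
    refine Finset.sum_congr rfl fun i _ => ?_
    rw [smul_smul, smul_smul]
    exact congrArg (· • _) (congrFun h i)

end FLTAgent.Degeneracy
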