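import Fermat.Agent.ModularityLifting.Degeneracy.TWGalois

/-!
# The non-Eisenstein part at a Taylor–Wiles prime is old

At a prime `t ≡ 1 (mod p)` where the residual Frobenius has two distinct eigenvalues, the pair of
traces is injective on the residual part of level `N t`: the rank at level `N t` is at most twice
the rank at level `N`, and the eigenvalues of `U_t` are residual Frobenius eigenvalues.
-/

set_option autoImplicit false

noncomputable section

open CongruenceSubgroup IsLocalRing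

namespace FLTAgent.ModularityLifting

open FLTAgent.LevelRaising FLTAgent.DefRing

local notation "Qbar" => AlgebraicClosure ℚ

variable {p : ℕ} [Fact p.Prime] {O : Type} [CommRing O] [IsDomain O] [IsDiscreteValuationRing O]
  [IsAdicComplete (maximalIdeal O) O] [Finite (ResidueField O)] [CharZero O]
  [CharP (ResidueField O) p]

omit [CharZero O] in
/-- The rank of a non-Eisenstein part is the dimension of the residual part. -/
theorem finrank_eigenPart (hp2 : p ≠ 2) {L : ℕ} [NeZero L]
    (hell : p = 3 → ∃ s, s.Prime ∧ s ∣ L ∧ s % 3 = 2)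
    (S : Finset ℕ) (hS : ∀ q, q.Prime → q ∣ L * p → q ∈ S) (a : ℕ → O)
    (hne : ∃ ℓ, ℓ.Prime ∧ ℓ ∉ S ∧ ℓ % L = 1 % L ∧ residue O (a ℓ) ≠ residue O (1 + ℓ)) :
    Module.finrank O (eigenPart O (1 : DirichletCharacter O L) S a) =
      Module.finrank (ResidueField O)
        (eigenPart (ResidueField O) (1 : DirichletCharacter (ResidueField O) L) S
          (residue O ∘ a)) := by
  classical
  obtain ⟨hfin, hfree, hbc⟩ := eigenPart_free_baseChange p hp2 (1 : DirichletCharacter O L)
    (fun u => ⟨0, by simp⟩) hell S hS a hne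
  obtain ⟨hsurj, hker⟩ := hbc (ResidueField O) (residue O) residue_surjective
  have hone : (1 : DirichletCharacter O L).ringHomComp (residue O) = 1 := by ext u; simp
  have hSL : ∀ q, q.Prime → q ∣ L → q ∈ S := fun q hq h => hS q hq (h.mul_right p)
  let M := eigenPart O (1 : DirichletCharacter O L) S a
  let V := eigenPart (ResidueField O) (1 : DirichletCharacter (ResidueField O) L) S (residue O ∘ a)
  have : Module.Finite O M := hfin
  have : Module.Free O M := hfree
  let b := Module.finBasis O M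
  have hmem : ∀ i, mapVal (residue O) (b i : Cusp → Cusp → O) ∈ V := fun i => by
    have h := mapVal_mem_eigenPart (residue O) residue_surjective hSL (b i).2
    rwa [hone] at h
  let w : Fin (Module.finrank O M) → V := fun i => ⟨_, hmem i⟩
  have hli : LinearIndependent (ResidueField O) w := by
    rw [Fintype.linearIndependent_iff]
    intro c hc i
    choose c' hc' using fun i => residue_surjective (c i)
    set Φ : M := ∑ i, c' i • b i with hΦ
    have h0 : ∀ x y, residue O ((Φ : Cusp → Cusp → O) x y) = 0 := fun x y => by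
      have := congrFun (congrFun (congrArg Subtype.val hc) x) y
      simpa [hΦ, w, mapVal, hc', Finset.sum_apply] using this
    have h1 : (Φ : Cusp → Cusp → O) ∈ (RingHom.ker (residue O) • (⊤ : Submodule O M)).map
        M.subtype := by
      rw [Submodule.map_smul'', Submodule.map_top, Submodule.range_subtype]
      exact hker Φ Φ.2 h0
    obtain ⟨Φ', hΦ', he⟩ := Submodule.mem_map.mp h1
    rw [Subtype.ext (a2 := Φ) he] at hΦ'
    have h2 : b.repr Φ i ∈ RingHom.ker (residue O) := by
      refine Submodule.smul_induction_on hΦ' (fun r hr x _ => ?_) fun x y hx hy => ?_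
      · rw [map_smul, Finsupp.smul_apply, smul_eq_mul]
        exact Ideal.mul_mem_right _ _ hr
      · rw [map_add, Finsupp.add_apply]; exact add_mem hx hy
    rw [hΦ, b.repr_sum_self, RingHom.mem_ker, hc'] at h2
    exact h2
  have hspan : ⊤ ≤ Submodule.span (ResidueField O) (Set.range w) := by
    rintro ⟨v, hv⟩ -
    obtain ⟨Φ, hΦ, hΦv⟩ := hsurj v (by rw [hone]; exact hv)
    refine (Submodule.mem_span_range_iff_exists_fun (ResidueField O)).mpr
      ⟨fun i => residue O (b.repr ⟨Φ, hΦ⟩ i), Subtype.ext ?_⟩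
    show _ = v
    rw [← hΦv]
    funext x y
    have h := congrArg (residue O) (congrFun (congrFun (congrArg Subtype.val
      (b.sum_repr ⟨Φ, hΦ⟩)) x) y)
    simp only [Submodule.coe_sum, Submodule.coe_smul, Finset.sum_apply, Pi.smul_apply,
      smul_eq_mul, map_sum, map_mul] at h
    simp only [w, Submodule.coe_sum, Submodule.coe_smul, Finset.sum_apply, Pi.smul_apply,
      smul_eq_mul, mapVal, h]
  rw [Module.finrank_eq_card_basis (Module.Basis.mk hli hspan), Fintype.card_fin]

/-- **Rank bound and `U_t` at a Taylor–Wiles prime.** -/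
theorem twPrime_old (p : ℕ) [Fact p.Prime] (hp2 : p ≠ 2) {O : Type} [CommRing O] [IsDomain O]
    [IsDiscreteValuationRing O]
    [IsAdicComplete (maximalIdeal O) O] [Finite (ResidueField O)] [CharZero O]
    [CharP (ResidueField O) p]
    {N t : ℕ} [NeZero N] (ht : t.Prime) (htp : t ≠ p) (htN : ¬ t ∣ N) (ht1 : t % p = 1)
    (S : Finset ℕ) (hS : ∀ l, l.Prime → l ∣ N * t * p → l ∈ S)
    (hell : p = 3 → ∃ s, s.Prime ∧ s ∣ N ∧ s % 3 = 2)
    (ρ : MatRep (ResidueField O)) (hρ : MatCont ρ) (hdet : DetCyclotomic ρ p)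
    (_hirr : AbsIrreducibleOn ρ ⊤) (_hunr : UnramifiedAt ρ t)
    (hdist : ∀ A : ValuationSubring Qbar, A.LiesOverPrime t → ∀ φ, A.IsFrobeniusAt φ t →
      ∃ α β, α ≠ β ∧ α + β = (ρ φ).trace ∧ α * β = (ρ φ).det)
    (a : ℕ → O) (ha : ∀ l, l.Prime → l ∉ S → ∀ A : ValuationSubring Qbar, A.LiesOverPrime l →
      ∀ φ, A.IsFrobeniusAt φ l → (ρ φ).trace = residue O (a l))
    (hne : ∃ ℓ, ℓ.Prime ∧ ℓ ∉ S ∧ ℓ % (N * t) = 1 % (N * t) ∧ residue O (a ℓ) ≠ residue O (1 + ℓ)) :
    Module.finrank O (eigenPart O (1 : DirichletCharacter O (N * t)) S a) ≤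
      2 * Module.finrank O (eigenPart O (1 : DirichletCharacter O N) S a) ∧
    ∀ (A : ValuationSubring Qbar), A.LiesOverPrime t → ∀ φ, A.IsFrobeniusAt φ t →
    ∀ Φ ∈ eigenPart (ResidueField O) (1 : DirichletCharacter (ResidueField O) (N * t)) S
        (residue O ∘ a),
      Φ ≠ 0 → ∀ b, uOp (ResidueField O) t Φ = b • Φ →
        b ^ 2 - (ρ φ).trace * b + (ρ φ).det = 0 := by
  classical
  have hp : p.Prime := Fact.out
  have : NeZero (N * t) := ⟨mul_ne_zero (NeZero.ne N) ht.ne_zero⟩
  obtain ⟨D⟩ := exists_alData (N := N) ht htN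
  have hSN : ∀ l, l.Prime → l ∣ N → l ∈ S := fun l hl h => hS l hl ((h.mul_right t).mul_right p)
  have hSNt : ∀ l, l.Prime → l ∣ N * t → l ∈ S := fun l hl h => hS l hl (h.mul_right p)
  have hSNp : ∀ l, l.Prime → l ∣ N * p → l ∈ S := fun l hl h =>
    hS l hl (h.trans ⟨t, by ring⟩)
  have hneN : ∃ ℓ, ℓ.Prime ∧ ℓ ∉ S ∧ ℓ % N = 1 % N ∧ residue O (a ℓ) ≠ residue O (1 + ℓ) := by
    obtain ⟨ℓ, h1, h2, h3, h4⟩ := hne
    exact ⟨ℓ, h1, h2, Nat.ModEq.of_dvd (dvd_mul_right N t) h3, h4⟩
  have hres : ∀ ℓ : ℕ, residue O (1 + (ℓ : O)) = 1 + (ℓ : ResidueField O) := fun ℓ => by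
    rw [map_add, map_one, map_natCast]
  have ht' : (t : ResidueField O) = 1 := by
    have h : ((t : ℕ) : ResidueField O) = ((1 : ℕ) : ResidueField O) :=
      (CharP.natCast_eq_natCast (ResidueField O) p).mpr
        (by show t % p = 1 % p; rw [ht1, Nat.one_mod_eq_one.mpr hp.ne_one])
    rw [h, Nat.cast_one]
  -- the traces are injective on the residual part
  set EN := eigenPart (ResidueField O) (1 : DirichletCharacter (ResidueField O) N) S
    (residue O ∘ a) with hEN
  set ENt := eigenPart (ResidueField O) (1 : DirichletCharacter (ResidueField O) (N * t)) S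
    (residue O ∘ a) with hENt
  have htr : ∀ Z ∈ ENt, D.trOp (ResidueField O) Z ∈ EN ∧
      D.wOp (ResidueField O) Z ∈ ENt := by
    intro Z hZ
    obtain ⟨hZL, hZn⟩ := (mem_eigenPart_one_iff hSNt).mp hZ
    have hsh : ∀ {l : ℕ} (hl : l.Prime) (hlS : l ∉ S) (c : ResidueField O) (j : ℕ),
        (tShift (ResidueField O) l c ^ j) Z ∈ Lev (ResidueField O) (N * t) ∧
          (tShift (ResidueField O) l c ^ j) (D.trOp (ResidueField O) Z) =
            D.trOp (ResidueField O) ((tShift (ResidueField O) l c ^ j) Z) ∧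
          (tShift (ResidueField O) l c ^ j) (D.wOp (ResidueField O) Z) =
            D.wOp (ResidueField O) ((tShift (ResidueField O) l c ^ j) Z) := by
      intro l hl hlS c j
      have hlN : ¬ l ∣ N * t := fun h => hlS (hSNt l hl h)
      induction j with
      | zero => simp [hZL]
      | succ j ih =>
        obtain ⟨h1, h2, h3⟩ := ih
        simp only [pow_succ', Module.End.mul_apply, h2, h3, tShift_apply, map_sub, map_smul,
          D.tOp_trOp ht hl hlN h1, D.tOp_wOp ht hl hlN h1, and_self, and_true]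
        exact sub_mem (tOp_mem hl hlN h1) (Submodule.smul_mem _ _ h1)
    refine ⟨(mem_eigenPart_one_iff hSN).mpr ⟨D.trOp_mem ht htN hZL, fun l hl hlS => ?_⟩,
      (mem_eigenPart_one_iff hSNt).mpr ⟨D.wOp_mem ht hZL, fun l hl hlS => ?_⟩⟩
    · obtain ⟨j, hj⟩ := hZn l hl hlS
      exact ⟨j, by rw [(hsh hl hlS _ j).2.1, hj, map_zero]⟩
    · obtain ⟨j, hj⟩ := hZn l hl hlS
      exact ⟨j, by rw [(hsh hl hlS _ j).2.2, hj, map_zero]⟩
  have hinj : ∀ Z ∈ ENt, D.trOp (ResidueField O) Z = 0 →
      D.trOp (ResidueField O) (D.wOp (ResidueField O) Z) = 0 → Z = 0 := by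
    intro Z hZ h1 h2
    by_contra hZ0
    obtain ⟨A, hA⟩ := FLTAgent.Density.exists_liesOverPrime ht
    obtain ⟨φ, hφ⟩ := FLTAgent.Density.exists_isFrobeniusAt A ht hA
    obtain ⟨α, β, hαβ, hs, hpr⟩ := hdist A hA φ hφ
    have h := trace_sq_eq_of_new hp2 ht htp htN ht1 D hell S hS ρ hρ hdet (residue O ∘ a) ha (by
      obtain ⟨ℓ, g1, g2, g3, g4⟩ := hne
      exact ⟨ℓ, g1, g2, g3, by rw [← hres]; exact g4⟩) hZ hZ0 h1 h2 hA hφ
    rw [← hs, ← hpr] at h
    exact hαβ (sub_eq_zero.mp (eq_zero_of_pow_eq_zero (n := 2) (by linear_combination h)))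
  refine ⟨?_, fun A hA φ hφ Φ hΦ hΦ0 b hb => ?_⟩
  · rw [finrank_eigenPart hp2 (fun h => (hell h).imp fun s hs => ⟨hs.1, hs.2.1.mul_right t, hs.2.2⟩)
      S hS a hne, finrank_eigenPart hp2 hell S hSNp a hneN]
    have hle : EN ≤ Lev (ResidueField O) N := fun Z hZ => ((mem_eigenPart_one_iff hSN).mp hZ).1
    have : FiniteDimensional (ResidueField O) EN := Submodule.finiteDimensional_of_le hle
    let β : ENt →ₗ[ResidueField O] EN × EN :=
      ((D.trOp (ResidueField O)).restrict fun Z hZ => (htr Z hZ).1).prod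
        ((D.trOp (ResidueField O) ∘ₗ D.wOp (ResidueField O)).restrict fun Z hZ =>
          (htr _ (htr Z hZ).2).1)
    have hβ : Function.Injective β := (injective_iff_map_eq_zero β).mpr fun Z hZ => Subtype.ext
      (hinj Z Z.2 (congrArg (fun z : EN × EN => (z.1 : Cusp → Cusp → ResidueField O)) hZ)
        (congrArg (fun z : EN × EN => (z.2 : Cusp → Cusp → ResidueField O)) hZ))
    exact (LinearMap.finrank_le_finrank_of_injective hβ).trans
      (by rw [Module.finrank_prod, two_mul])
  · obtain ⟨hΦL, -⟩ := (mem_eigenPart_one_iff hSNt).mp hΦ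
    set X := D.trOp (ResidueField O) Φ with hX
    set Y := D.trOp (ResidueField O) (D.wOp (ResidueField O) Φ) with hY
    have hXL : X ∈ Lev (ResidueField O) N := D.trOp_mem ht htN hΦL
    have hYL : Y ∈ Lev (ResidueField O) N := D.trOp_mem ht htN (D.wOp_mem ht hΦL)
    have hU : uOp (ResidueField O) t Φ = Y - D.wOp (ResidueField O) Φ := by
      rw [hY]
      simp only [ALData.trOp, LinearMap.add_apply, LinearMap.id_apply, LinearMap.comp_apply,
        D.wOp_wOp ht hΦL, add_sub_cancel_left]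
    have e1 : b • X = Y := by
      rw [hX, ← map_smul, ← hb, hU, map_sub, D.trOp_of_mem ht hYL, ← hY, ht', add_smul, one_smul,
        add_sub_cancel_right]
    have e2 : tOp (ResidueField O) t Y = b • Y + X := by
      have h : b • Y = tOp (ResidueField O) t Y - X := by
        conv_lhs => rw [hY, ← map_smul, ← map_smul, ← hb, hU, map_sub, map_sub,
          D.wOp_wOp ht hΦL, D.trOp_wOp_of_mem ht hYL]
      rw [h, sub_add_cancel]
    have hY0 : Y ≠ 0 := fun h => by
      rw [h, map_zero, smul_zero, zero_add] at e2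
      exact hΦ0 (hinj Φ hΦ e2.symm h)
    have hb0 : b ≠ 0 := fun h => hY0 (by rw [← e1, h, zero_smul])
    have hXY : X = b⁻¹ • Y := by rw [← e1, smul_smul, inv_mul_cancel₀ hb0, one_smul]
    have hc : tOp (ResidueField O) t Y = (b + b⁻¹) • Y := by rw [e2, hXY, add_smul]
    have hτ := eigenvalue_eq_trace hp2 ht htp htN hell S hS ρ hρ hdet (residue O ∘ a) ha (by
      obtain ⟨ℓ, g1, g2, g3, g4⟩ := hneN
      exact ⟨ℓ, g1, g2, g3, by rw [← hres]; exact g4⟩) (htr _ (htr Φ hΦ).2).1 hY0 hc hA hφ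
    rw [← hτ, det_frobenius_residual hp hdet ht htp hA hφ, ht', add_mul, inv_mul_cancel₀ hb0]
    ring

end FLTAgent.ModularityLifting
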