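import Mathlib.LinearAlgebra.Matrix.NonsingularInverse
import Mathlib.RingTheory.LocalRing.ResidueField.Basic
import Mathlib.LinearAlgebra.Matrix.ToLin
import Mathlib.Algebra.Algebra.Basic

/-!
# Degeneracy matrices

From a map `J` to the higher level, an involution `W` there and a trace `Tr` back with
`Tr J = v + 1` and `Tr W J = T`: the maps `α = [J, W J]`, `β = [Tr; Tr W]` and `E = 1 + ε U`,
`U = J Tr W - W`, with all their identities.
-/

set_option autoImplicit false
set_option linter.unusedSectionVars false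

noncomputable section

namespace FLTAgent.Degeneracy

open Matrix

variable {A : Type} [CommRing A] {m n : Type} [Fintype m] [DecidableEq m] [Fintype n]
  [DecidableEq n]

variable (J : Matrix n m A) (W : Matrix n n A) (Tr : Matrix m n A)

/-- The degeneracy matrix. -/
def alphaMat : Matrix n (Fin 2 × m) A := Matrix.of fun i x => (![J, W * J] x.1) i x.2

/-- The transposed degeneracy matrix. -/
def betaMat : Matrix (Fin 2 × m) n A := Matrix.of fun x j => (![Tr, Tr * W] x.1) x.2 j

/-- `c⁻¹ U` in terms of the degeneracy maps. -/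
def uMat : Matrix n n A := J * Tr * W - W

/-- `1 + ε U`. -/
def eMat (ε : A) : Matrix n n A := 1 + ε • uMat J W Tr

/-- A two by two block matrix. -/
def blockMat {l k : Type} (P : Fin 2 → Fin 2 → Matrix l k A) : Matrix (Fin 2 × l) (Fin 2 × k) A :=
  Matrix.of fun x y => P x.1 y.1 x.2 y.2

/-- The diagonal block matrix. -/
def diagMat (S : Matrix m m A) : Matrix (Fin 2 × m) (Fin 2 × m) A :=
  Matrix.of fun x y => if x.1 = y.1 then S x.2 y.2 else 0

theorem beta_mul_eq {k : Type} (X : Matrix n k A) :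
    betaMat W Tr * X = Matrix.of fun x j => (![Tr * X, Tr * W * X] x.1) x.2 j := by
  ext ⟨i, a⟩ j
  fin_cases i <;> simp [betaMat, Matrix.mul_apply]

theorem mul_alpha_eq {k : Type} (X : Matrix k n A) :
    X * alphaMat J W = Matrix.of fun i x => (![X * J, X * (W * J)] x.1) i x.2 := by
  ext i ⟨j, b⟩
  fin_cases j <;> simp [alphaMat, Matrix.mul_apply]

theorem alpha_mul_block (P : Fin 2 → Fin 2 → Matrix m m A) :
    alphaMat J W * blockMat P =
      Matrix.of fun i x => (J * P 0 x.1 + W * J * P 1 x.1) i x.2 := by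
  ext i ⟨j, b⟩
  simp [alphaMat, blockMat, Matrix.mul_apply, Fintype.sum_prod_type, Fin.sum_univ_two]

theorem block_mul_beta (P : Fin 2 → Fin 2 → Matrix m m A) :
    blockMat P * betaMat W Tr =
      Matrix.of fun x j => (P x.1 0 * Tr + P x.1 1 * (Tr * W)) x.2 j := by
  ext ⟨i, a⟩ j
  simp [betaMat, blockMat, Matrix.mul_apply, Fintype.sum_prod_type, Fin.sum_univ_two]

theorem blockMat_mul (P Q : Fin 2 → Fin 2 → Matrix m m A) :
    blockMat P * blockMat Q = blockMat fun i j => P i 0 * Q 0 j + P i 1 * Q 1 j := by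
  ext ⟨i, a⟩ ⟨j, b⟩
  simp [blockMat, Matrix.mul_apply, Fintype.sum_prod_type, Fin.sum_univ_two]

theorem diagMat_eq_block (S : Matrix m m A) :
    diagMat S = blockMat fun i j => if i = j then S else 0 := by
  ext ⟨i, a⟩ ⟨j, b⟩
  by_cases h : i = j <;> simp [diagMat, blockMat, h]

/-- The relations between the degeneracy maps. -/
structure Valid (v : A) (T : Matrix m m A) : Prop where
  w_sq : W * W = 1
  tr_j : Tr * J = (v + 1) • (1 : Matrix m m A)
  tr_w_j : Tr * W * J = T

variable {J W Tr} {v : A} {T : Matrix m m A} (h : Valid J W Tr v T)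
include h

theorem beta_alpha :
    betaMat W Tr * alphaMat J W = Matrix.of fun x y : Fin 2 × m =>
      if x.1 = y.1 then (if x.2 = y.2 then v + 1 else 0) else T x.2 y.2 := by
  ext ⟨i, a⟩ ⟨j, b⟩
  rw [beta_mul_eq]
  fin_cases i <;> fin_cases j <;>
    simp [mul_alpha_eq, ← Matrix.mul_assoc, h.tr_j, h.tr_w_j, Matrix.one_apply]
  all_goals simp [Matrix.mul_assoc, h.w_sq, h.tr_j, Matrix.one_apply]

theorem tr_u : Tr * uMat J W Tr = v • (Tr * W) := by
  rw [uMat, Matrix.mul_sub, ← Matrix.mul_assoc, ← Matrix.mul_assoc, h.tr_j, Matrix.smul_mul,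
    Matrix.smul_mul, Matrix.one_mul, add_smul, one_smul, add_sub_cancel_right]

theorem tr_w_u : Tr * W * uMat J W Tr = T * (Tr * W) - Tr := by
  rw [uMat, Matrix.mul_sub, ← Matrix.mul_assoc (Tr * W), ← Matrix.mul_assoc (Tr * W), h.tr_w_j,
    Matrix.mul_assoc Tr W W, h.w_sq, Matrix.mul_one, Matrix.mul_assoc T]

theorem beta_e (ε : A) :
    betaMat W Tr * eMat J W Tr ε = (Matrix.of fun x y : Fin 2 × m =>
      (if x = y then 1 else 0) + ε *
        (if x.1 = 0 ∧ y.1 = 1 then (if x.2 = y.2 then v else 0)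
        else if x.1 = 1 ∧ y.1 = 0 then (if x.2 = y.2 then -1 else 0)
        else if x.1 = 1 ∧ y.1 = 1 then T x.2 y.2
        else 0)) * betaMat W Tr := by
  have e : (Matrix.of fun x y : Fin 2 × m =>
      (if x = y then 1 else 0) + ε *
        (if x.1 = 0 ∧ y.1 = 1 then (if x.2 = y.2 then v else 0)
        else if x.1 = 1 ∧ y.1 = 0 then (if x.2 = y.2 then -1 else 0)
        else if x.1 = 1 ∧ y.1 = 1 then T x.2 y.2
        else 0)) = blockMat fun i j =>
      (![![(1 : Matrix m m A), (ε * v) • 1], ![(-ε) • 1, 1 + ε • T]] i) j := by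
    ext ⟨i, a⟩ ⟨j, b⟩
    fin_cases i <;> fin_cases j <;> simp [blockMat, Matrix.one_apply]
    split_ifs <;> simp
  rw [e, block_mul_beta, beta_mul_eq]
  ext ⟨i, a⟩ j
  have h0 : Tr * eMat J W Tr ε = Tr + ε • v • (Tr * W) := by
    rw [eMat, Matrix.mul_add, Matrix.mul_one, Matrix.mul_smul, tr_u h]
  have h1 : Tr * W * eMat J W Tr ε = Tr * W + ε • (T * (Tr * W) - Tr) := by
    rw [eMat, Matrix.mul_add, Matrix.mul_one, Matrix.mul_smul, tr_w_u h]
  fin_cases i
  · simp [h0, smul_smul]
  · simp [h1, Matrix.add_mul, smul_sub]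
    ring

theorem e_alpha (ε : A) :
    eMat J W Tr ε * alphaMat J W = alphaMat J W * blockMat fun i j =>
      (![![1 + ε • T, (ε * v) • (1 : Matrix m m A)], ![(-ε) • 1, 1]] i) j := by
  have h0 : uMat J W Tr * J = J * T - W * J := by
    rw [uMat, Matrix.sub_mul, Matrix.mul_assoc J Tr W, Matrix.mul_assoc J, h.tr_w_j]
  have h1 : uMat J W Tr * (W * J) = v • J := by
    rw [uMat, Matrix.sub_mul, ← Matrix.mul_assoc W, h.w_sq, Matrix.one_mul,
      Matrix.mul_assoc (J * Tr), ← Matrix.mul_assoc W, h.w_sq, Matrix.one_mul,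
      Matrix.mul_assoc, h.tr_j, Matrix.mul_smul, Matrix.mul_one, add_smul, one_smul,
      add_sub_cancel_right]
  rw [alpha_mul_block, mul_alpha_eq]
  ext i ⟨j, b⟩
  fin_cases j
  · simp [eMat, Matrix.add_mul, h0, Matrix.mul_add, smul_sub, Matrix.mul_smul]
    ring
  · simp [eMat, Matrix.add_mul, h1, Matrix.mul_smul, smul_smul]
    ring

theorem u_u_of_ker {k : Type} {X : Matrix n k A} (h0 : Tr * X = 0) (h1 : Tr * W * X = 0) :
    uMat J W Tr * (uMat J W Tr * X) = X := by
  have e1 : uMat J W Tr * X = -(W * X) := by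
    rw [uMat, Matrix.sub_mul, Matrix.mul_assoc J, Matrix.mul_assoc J, h1, Matrix.mul_zero, zero_sub]
  rw [e1, Matrix.mul_neg, uMat, Matrix.sub_mul, Matrix.mul_assoc (J * Tr), ← Matrix.mul_assoc W W,
    h.w_sq, Matrix.one_mul, Matrix.mul_assoc J, h0, Matrix.mul_zero, zero_sub, neg_neg]

omit h

variable {S₀ : Matrix m m A} {S₁ : Matrix n n A} (hJ : S₁ * J = J * S₀) (hW : W * S₁ = S₁ * W)
  (hT : Tr * S₁ = S₀ * Tr)

include hJ hW in
theorem alpha_comm : S₁ * alphaMat J W = alphaMat J W * diagMat S₀ := by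
  rw [diagMat_eq_block, alpha_mul_block, mul_alpha_eq]
  ext i ⟨j, b⟩
  fin_cases j
  · simp [hJ]
  · simp [← Matrix.mul_assoc, ← hW]
    simp [Matrix.mul_assoc, hJ]

include hW hT in
theorem beta_comm : betaMat W Tr * S₁ = diagMat S₀ * betaMat W Tr := by
  rw [diagMat_eq_block, block_mul_beta, beta_mul_eq]
  ext ⟨i, a⟩ j
  fin_cases i
  · simp [hT]
  · simp [Matrix.mul_assoc, hW]
    simp [← Matrix.mul_assoc, hT]

include hJ hW hT in
theorem e_comm (ε : A) : eMat J W Tr ε * S₁ = S₁ * eMat J W Tr ε := by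
  have hu : uMat J W Tr * S₁ = S₁ * uMat J W Tr := by
    rw [uMat, Matrix.sub_mul, Matrix.mul_sub, hW, Matrix.mul_assoc (J * Tr), hW,
      ← Matrix.mul_assoc (J * Tr), Matrix.mul_assoc J Tr S₁, hT, ← Matrix.mul_assoc J, ← hJ]
    simp [Matrix.mul_assoc]
  rw [eMat, Matrix.add_mul, Matrix.mul_add, Matrix.one_mul, Matrix.mul_one, Matrix.smul_mul, hu,
    Matrix.mul_smul]

section Local

open IsLocalRing

variable [IsLocalRing A]

/-- A matrix injective modulo the maximal ideal has a left inverse. -/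
theorem exists_left_inverse {k : Type} [Fintype k] [DecidableEq k] (M : Matrix n k A)
    (hinj : ∀ x : k → ResidueField A, M.map (residue A) *ᵥ x = 0 → x = 0) :
    ∃ L : Matrix k n A, L * M = 1 := by
  classical
  obtain ⟨g, hg⟩ := LinearMap.exists_leftInverse_of_injective (Matrix.mulVecLin (M.map (residue A)))
    (LinearMap.ker_eq_bot'.mpr hinj)
  obtain ⟨Lb, rfl⟩ : ∃ Lb : Matrix k n (ResidueField A), Matrix.mulVecLin Lb = g :=
    ⟨LinearMap.toMatrix' g, Matrix.toLin'_toMatrix' g⟩
  rw [← Matrix.mulVecLin_mul, ← Matrix.mulVecLin_one] at hg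
  have hLb : Lb * M.map (residue A) = 1 := Matrix.toLin'.injective hg
  let L : Matrix k n A := Lb.map (Function.surjInv residue_surjective)
  have hres : (residue A).mapMatrix (L * M) = 1 := by
    rw [RingHom.mapMatrix_apply, Matrix.map_mul, ← hLb]
    congr 1
    ext i j
    exact Function.surjInv_eq residue_surjective (Lb i j)
  have hdet : IsUnit (L * M).det := by
    have h1 : residue A (L * M).det = 1 := by rw [RingHom.map_det, hres, Matrix.det_one]
    by_contra hc
    exact one_ne_zero (h1 ▸ (residue_eq_zero_iff _).mpr hc)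
  exact ⟨(L * M)⁻¹ * L, by rw [Matrix.mul_assoc, Matrix.nonsing_inv_mul _ hdet]⟩

/-- A matrix surjective modulo the maximal ideal has a right inverse. -/
theorem exists_right_inverse {k : Type} [Fintype k] [DecidableEq k] (M : Matrix k n A)
    (hsurj : ∀ y : k → ResidueField A, ∃ x, M.map (residue A) *ᵥ x = y) :
    ∃ L : Matrix n k A, M * L = 1 := by
  classical
  choose x hx using fun i : k => hsurj (Pi.single i 1)
  let L : Matrix n k A := Matrix.of fun a i => Function.surjInv residue_surjective (x i a)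
  have hres : (residue A).mapMatrix (M * L) = 1 := by
    ext a i
    have h := congrFun (hx i) a
    simp only [RingHom.mapMatrix_apply, Matrix.map_apply, Matrix.mul_apply, map_sum, map_mul,
      L, Matrix.of_apply, Function.surjInv_eq residue_surjective]
    simpa [Matrix.mulVec, dotProduct, Pi.single_apply, Matrix.one_apply] using h
  have hdet : IsUnit (M * L).det := by
    have h1 : residue A (M * L).det = 1 := by rw [RingHom.map_det, hres, Matrix.det_one]
    by_contra hc
    exact one_ne_zero (h1 ▸ (residue_eq_zero_iff _).mpr hc)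
  exact ⟨L * (M * L)⁻¹, by rw [← Matrix.mul_assoc, Matrix.mul_nonsing_inv _ hdet]⟩

end Local

end FLTAgent.Degeneracy
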