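import Fermat.Agent.ModularityLifting.Degeneracy.Operators
import Fermat.Agent.ModularityLifting.Degeneracy.Matrices
import Fermat.Agent.ModularityLifting.EigenFree
import Mathlib.LinearAlgebra.Matrix.ToLin

/-!
# The degeneracy matrices in bases of the eigenparts
-/

set_option autoImplicit false
set_option linter.unusedSectionVars false

noncomputable section

namespace FLTAgent.Degeneracy

open FLTAgent.LevelRaising FLTAgent.ModularityLifting Matrix IsLocalRing

section Transport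

variable {A : Type} [CommRing A] [IsLocalRing A] {L L' : ℕ} {δ : DirichletCharacter A L}
  {δ' : DirichletCharacter A L'} {S : Finset ℕ} {a : ℕ → A}

/-- A map of symbols commuting with the Hecke operators preserves the eigenparts. -/
theorem map_mem_eigenPart (hS : ∀ l, l.Prime → l ∣ L → l ∈ S)
    (hS' : ∀ l, l.Prime → l ∣ L' → l ∈ S) (f : (Cusp → Cusp → A) →ₗ[A] (Cusp → Cusp → A))
    (hf : ∀ Φ ∈ SymbChar A δ, f Φ ∈ SymbChar A δ')
    (hc : ∀ l, l.Prime → l ∉ S → ∀ Φ ∈ SymbChar A δ,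
      tOpChar A δ' l (f Φ) = f (tOpChar A δ l Φ))
    {Φ : Cusp → Cusp → A} (hΦ : Φ ∈ eigenPart A δ S a) : f Φ ∈ eigenPart A δ' S a := by
  obtain ⟨h1, h2⟩ := (mem_eigenPart_iff hS).mp hΦ
  refine (mem_eigenPart_iff hS').mpr ⟨hf _ h1, fun l hl hlS n => ?_⟩
  obtain ⟨j, hj⟩ := h2 l hl hlS n
  have hpow : ∀ j, (shiftOp A δ' l (a l) ^ j) (f Φ) = f ((shiftOp A δ l (a l) ^ j) Φ) := by
    intro j
    induction j with
    | zero => rfl
    | succ j ih =>
      rw [pow_succ', Module.End.mul_apply, ih, pow_succ', Module.End.mul_apply, shiftOp_apply,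
        shiftOp_apply, map_sub, map_smul,
        hc l hl hlS _ (pow_shiftOp_mem hl (fun h => hlS (hS l hl h)) (a l) j h1)]
  refine ⟨j, ?_⟩
  rw [hpow]
  refine Submodule.smul_induction_on hj (fun r hr v hv => ?_) fun x y hx hy => ?_
  · rw [map_smul]
    exact Submodule.smul_mem_smul hr (hf v hv)
  · rw [map_add]
    exact add_mem hx hy

theorem repr_mem_of_mem_smul {M : Submodule A (Cusp → Cusp → A)} {ι : Type}
    (b : Module.Basis ι A M) {I : Ideal A} {Φ : M}
    (hΦ : (Φ : Cusp → Cusp → A) ∈ I • M) (i : ι) : b.repr Φ i ∈ I := by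
  have hmem : Φ ∈ (I • ⊤ : Submodule A M) := by
    obtain ⟨y, hy, he⟩ : (Φ : Cusp → Cusp → A) ∈ (I • ⊤ : Submodule A M).map M.subtype := by
      rw [Submodule.map_smul'', Submodule.map_top, Submodule.range_subtype]
      exact hΦ
    rwa [show y = Φ from Subtype.ext he] at hy
  refine Submodule.smul_induction_on hmem (fun r hr v _ => ?_) fun x y hx hy => ?_
  · rw [map_smul, Finsupp.smul_apply, smul_eq_mul]
    exact I.mul_mem_right _ hr
  · rw [map_add, Finsupp.add_apply]
    exact I.add_mem hx hy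

end Transport

variable {A : Type} [CommRing A] [IsLocalRing A] {N q : ℕ} (D : ALData N q)
  (δ : DirichletCharacter A N) (hq : q.Prime) (hqN : ¬ q ∣ N) (c : Aˣ)
  (S : Finset ℕ) (hS : ∀ l, l.Prime → l ∣ N * q → l ∈ S) (a : ℕ → A)

include hS in
theorem mem_S_of_dvd (l : ℕ) (hl : l.Prime) (h : l ∣ N) : l ∈ S := hS l hl (h.mul_right q)

include hS in
theorem not_dvd_of_notMem {l : ℕ} (hl : l.Prime) (h : l ∉ S) : ¬ l ∣ N * q :=
  fun hd => h (hS l hl hd)

/-- The inclusion of eigenparts. -/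
def inclE : eigenPart A δ S a →ₗ[A] eigenPart A (upChar q δ) S a :=
  Submodule.inclusion fun _ hΦ =>
    map_mem_eigenPart (mem_S_of_dvd S hS) hS LinearMap.id (fun _ h => symbChar_le_up h)
      (fun l hl hlS Ψ _ => by
        rw [LinearMap.id_apply, LinearMap.id_apply,
          tOpChar_upChar hl (not_dvd_of_notMem S hS hl hlS)]) hΦ

/-- The involution on the eigenpart. -/
def wE : Module.End A (eigenPart A (upChar q δ) S a) :=
  (wChar D δ c).restrict fun _ hΦ => map_mem_eigenPart hS hS _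
    (fun _ h => wChar_mem D hq c h)
    (fun _ hl hlS _ h => tOpChar_wChar D hq c hl (not_dvd_of_notMem S hS hl hlS) h) hΦ

/-- The trace of eigenparts. -/
def trE : eigenPart A (upChar q δ) S a →ₗ[A] eigenPart A δ S a :=
  (trChar D δ).restrict fun _ hΦ => map_mem_eigenPart hS (mem_S_of_dvd S hS) _
    (fun _ h => trChar_mem D hq hqN h)
    (fun _ hl hlS _ h => tOpChar_trChar D hq hl (not_dvd_of_notMem S hS hl hlS) h) hΦ

include hS in
/-- `T_l` on the eigenpart of level `N`. -/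
def tE {l : ℕ} (hl : l.Prime) (hlN : ¬ l ∣ N) : Module.End A (eigenPart A δ S a) :=
  (tOpChar A δ l).restrict fun _ hΦ => map_mem_eigenPart (mem_S_of_dvd S hS) (mem_S_of_dvd S hS) _
    (fun _ h => tOpChar_mem hl hlN h)
    (fun m hm hmS _ h => tOpChar_comm hm hl (fun hd => hmS (mem_S_of_dvd S hS m hm hd)) hlN h) hΦ

include hS in
/-- `T_l` on the eigenpart of level `N q`. -/
def tE' {l : ℕ} (hl : l.Prime) (hlN : ¬ l ∣ N * q) : Module.End A (eigenPart A (upChar q δ) S a) :=
  (tOpChar A (upChar q δ) l).restrict fun _ hΦ => map_mem_eigenPart hS hS _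
    (fun _ h => tOpChar_mem hl hlN h)
    (fun _ hm hmS _ h => tOpChar_comm hm hl (not_dvd_of_notMem S hS hm hmS) hlN h) hΦ

@[simp] theorem coe_inclE (Φ : eigenPart A δ S a) :
    (inclE δ S hS a Φ : Cusp → Cusp → A) = (Φ : Cusp → Cusp → A) :=
  Submodule.coe_inclusion _ _

@[simp] theorem coe_wE (Φ : eigenPart A (upChar q δ) S a) :
    (wE D δ hq c S hS a Φ : Cusp → Cusp → A) = wChar D δ c (Φ : Cusp → Cusp → A) :=
  LinearMap.coe_restrict_apply _ _

@[simp] theorem coe_trE (Φ : eigenPart A (upChar q δ) S a) :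
    (trE D δ hq hqN S hS a Φ : Cusp → Cusp → A) = trChar D δ (Φ : Cusp → Cusp → A) :=
  LinearMap.coe_restrict_apply _ _

@[simp] theorem coe_tE {l : ℕ} (hl : l.Prime) (hlN : ¬ l ∣ N) (Φ : eigenPart A δ S a) :
    (tE δ S hS a hl hlN Φ : Cusp → Cusp → A) = tOpChar A δ l (Φ : Cusp → Cusp → A) :=
  LinearMap.coe_restrict_apply _ _

@[simp] theorem coe_tE' {l : ℕ} (hl : l.Prime) (hlN : ¬ l ∣ N * q)
    (Φ : eigenPart A (upChar q δ) S a) :
    (tE' δ S hS a hl hlN Φ : Cusp → Cusp → A) = tOpChar A (upChar q δ) l (Φ : Cusp → Cusp → A) :=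
  LinearMap.coe_restrict_apply _ _

variable {m n : Type} [Fintype m] [DecidableEq m] [Fintype n] [DecidableEq n]
  (b₀ : Module.Basis m A (eigenPart A δ S a)) (b₁ : Module.Basis n A (eigenPart A (upChar q δ) S a))

/-- The matrix of the inclusion. -/
def jMat : Matrix n m A := LinearMap.toMatrix b₀ b₁ (inclE δ S hS a)

/-- The matrix of the involution. -/
def wMat : Matrix n n A := LinearMap.toMatrix b₁ b₁ (wE D δ hq c S hS a)

/-- The matrix of the trace. -/
def trMat : Matrix m n A := LinearMap.toMatrix b₁ b₀ (trE D δ hq hqN S hS a)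

variable (hc : (c : A) * c = δ (q : ZMod N))

include hc in
theorem valid : Valid (jMat δ S hS a b₀ b₁) (wMat D δ hq c S hS a b₁)
    (trMat D δ hq hqN S hS a b₀ b₁) (q : A)
    ((↑c⁻¹ : A) • LinearMap.toMatrix b₀ b₀ (tE δ S hS a hq hqN)) := by
  refine ⟨?_, ?_, ?_⟩
  · rw [wMat, ← LinearMap.toMatrix_comp b₁ b₁ b₁, ← LinearMap.toMatrix_id b₁]
    congr 1
    refine LinearMap.ext fun Φ => Subtype.ext ?_
    rw [LinearMap.comp_apply, LinearMap.id_apply, coe_wE, coe_wE]
    exact wChar_wChar D hq c hc ((mem_eigenPart_iff hS).mp Φ.2).1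
  · rw [trMat, jMat, ← LinearMap.toMatrix_comp b₀ b₁ b₀, ← LinearMap.toMatrix_id b₀, ← map_smul]
    congr 1
    refine LinearMap.ext fun Φ => Subtype.ext ?_
    rw [LinearMap.comp_apply, LinearMap.smul_apply, LinearMap.id_apply, Submodule.coe_smul, coe_trE,
      coe_inclE]
    exact trChar_of_mem D hq ((mem_eigenPart_iff (mem_S_of_dvd S hS)).mp Φ.2).1
  · rw [trMat, wMat, jMat, Matrix.mul_assoc, ← LinearMap.toMatrix_comp b₀ b₁ b₁,
      ← LinearMap.toMatrix_comp b₀ b₁ b₀, ← map_smul]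
    congr 1
    refine LinearMap.ext fun Φ => Subtype.ext ?_
    rw [LinearMap.comp_apply, LinearMap.comp_apply, LinearMap.smul_apply, Submodule.coe_smul,
      coe_trE, coe_wE, coe_inclE, coe_tE]
    exact trChar_wChar_of_mem D hq c hc ((mem_eigenPart_iff (mem_S_of_dvd S hS)).mp Φ.2).1

theorem tMat_comm {l : ℕ} (hl : l.Prime) (hlN : ¬ l ∣ N * q) :
    let T₀ := LinearMap.toMatrix b₀ b₀ (tE δ S hS a hl fun h => hlN (h.mul_right q))
    let T₁ := LinearMap.toMatrix b₁ b₁ (tE' δ S hS a hl hlN)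
    T₁ * jMat δ S hS a b₀ b₁ = jMat δ S hS a b₀ b₁ * T₀ ∧
      wMat D δ hq c S hS a b₁ * T₁ = T₁ * wMat D δ hq c S hS a b₁ ∧
      trMat D δ hq hqN S hS a b₀ b₁ * T₁ = T₀ * trMat D δ hq hqN S hS a b₀ b₁ := by
  refine ⟨?_, ?_, ?_⟩
  · rw [jMat, ← LinearMap.toMatrix_comp b₀ b₁ b₁, ← LinearMap.toMatrix_comp b₀ b₀ b₁]
    congr 1
    refine LinearMap.ext fun Φ => Subtype.ext ?_
    rw [LinearMap.comp_apply, LinearMap.comp_apply, coe_tE', coe_inclE, coe_inclE, coe_tE,
      tOpChar_upChar hl hlN]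
  · rw [wMat, ← LinearMap.toMatrix_comp b₁ b₁ b₁, ← LinearMap.toMatrix_comp b₁ b₁ b₁]
    congr 1
    refine LinearMap.ext fun Φ => Subtype.ext ?_
    rw [LinearMap.comp_apply, LinearMap.comp_apply, coe_wE, coe_tE', coe_tE', coe_wE]
    exact (tOpChar_wChar D hq c hl hlN ((mem_eigenPart_iff hS).mp Φ.2).1).symm
  · rw [trMat, ← LinearMap.toMatrix_comp b₁ b₁ b₀, ← LinearMap.toMatrix_comp b₁ b₀ b₀]
    congr 1
    refine LinearMap.ext fun Φ => Subtype.ext ?_
    rw [LinearMap.comp_apply, LinearMap.comp_apply, coe_trE, coe_tE', coe_tE, coe_trE]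
    exact (tOpChar_trChar D hq hl hlN ((mem_eigenPart_iff hS).mp Φ.2).1).symm

/-- Intertwining on generators gives intertwining on the generated algebra. -/
theorem intertwine_of_adjoin {O F : Type} [CommRing O] [Algebra O A] [CommRing F] [Algebra O F]
    {k l : Type} [Fintype k] [DecidableEq k] [Fintype l] [DecidableEq l]
    (f : F →ₐ[O] Matrix k k A) (g : F →ₐ[O] Matrix l l A) (M : Matrix k l A) {G : Set F}
    (hG : Algebra.adjoin O G = ⊤) (h : ∀ s ∈ G, f s * M = M * g s) (s : F) :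
    f s * M = M * g s := by
  have hs : s ∈ Algebra.adjoin O G := hG ▸ trivial
  induction hs using Algebra.adjoin_induction with
  | mem x hx => exact h x hx
  | algebraMap r =>
    rw [AlgHom.commutes, AlgHom.commutes, Algebra.algebraMap_eq_smul_one,
      Algebra.algebraMap_eq_smul_one, Matrix.smul_mul, Matrix.mul_smul, Matrix.one_mul,
      Matrix.mul_one]
  | add x y _ _ hx hy => rw [map_add, map_add, Matrix.add_mul, Matrix.mul_add, hx, hy]
  | mul x y _ _ hx hy =>
    rw [map_mul, map_mul, Matrix.mul_assoc, hy, ← Matrix.mul_assoc, hx, Matrix.mul_assoc]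

/-- Injectivity and surjectivity of the degeneracy maps on residual eigenparts. -/
def ResidualDegeneracy (k : Type) [Field k] (N q : ℕ) (D : ALData N q) (S : Finset ℕ)
    (a : ℕ → k) : Prop :=
  (∀ Φ ∈ eigenPart k (1 : DirichletCharacter k N) S a,
    ∀ Ψ ∈ eigenPart k (1 : DirichletCharacter k N) S a,
      Φ + D.wOp k Ψ = 0 → Φ = 0 ∧ Ψ = 0) ∧
  (∀ Φ ∈ eigenPart k (1 : DirichletCharacter k N) S a,
    ∀ Ψ ∈ eigenPart k (1 : DirichletCharacter k N) S a,
      ∃ X ∈ eigenPart k (1 : DirichletCharacter k (N * q)) S a,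
        D.trOp k X = Φ ∧ D.trOp k (D.wOp k X) = Ψ)

section Residual

variable (hδ : δ.ringHomComp (residue A) = 1) (hc1 : residue A (c : A) = 1)

include hδ in
theorem upChar_residual : (upChar q δ).ringHomComp (residue A) = 1 := by
  ext u
  rw [MulChar.ringHomComp_apply, MulChar.one_apply u.isUnit,
    DirichletCharacter.changeLevel_eq_cast_of_dvd δ (dvd_mul_right N q) u]
  have h : IsUnit ((u : ZMod (N * q)).cast : ZMod N) :=
    u.isUnit.map (ZMod.castHom (dvd_mul_right N q) (ZMod N))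
  rw [← MulChar.ringHomComp_apply, hδ, MulChar.one_apply h]

include hq D in
theorem isUnit_cast_a : IsUnit (D.a : ZMod N) :=
  IsUnit.of_mul_eq_one ((q : ZMod N) * (D.d : ZMod N)) (by
    linear_combination cast_eq_one D)

include hq hδ in
theorem residue_char_a : residue A (δ (D.a : ZMod N)) = 1 := by
  rw [← MulChar.ringHomComp_apply, hδ, MulChar.one_apply (isUnit_cast_a D hq)]

include hq hδ hc1 in
theorem mapVal_wChar (Φ : Cusp → Cusp → A) :
    mapVal (residue A) (wChar D δ c Φ) = D.wOp (ResidueField A) (mapVal (residue A) Φ) := by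
  rw [wChar, LinearMap.smul_apply, mapVal_smul, map_mul, residue_char_a D δ hq hδ, hc1, mul_one,
    one_smul]
  rfl

include hq hδ in
theorem mapVal_trChar (Φ : Cusp → Cusp → A) :
    mapVal (residue A) (trChar D δ Φ) = D.trOp (ResidueField A) (mapVal (residue A) Φ) := by
  rw [trChar, LinearMap.add_apply, LinearMap.id_apply, LinearMap.smul_apply, LinearMap.comp_apply,
    mapVal_add, mapVal_smul, residue_char_a D δ hq hδ, one_smul, ALData.trOp, LinearMap.add_apply,
    LinearMap.id_apply, LinearMap.comp_apply]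
  congr 1
  funext x y
  simp [mapVal, uOp, pullFam_apply, Finset.sum_apply, ALData.wOp, pull_apply]

variable {D δ c S a}

theorem mapVal_sum_smul {ι : Type} (s : Finset ι) (x : ι → A) (b : ι → Cusp → Cusp → A) :
    mapVal (residue A) (∑ i ∈ s, x i • b i) =
      ∑ i ∈ s, residue A (x i) • mapVal (residue A) (b i) := by
  funext u v
  simp [mapVal, Finset.sum_apply]

theorem mapVal_eq_zero_of_repr {M : Submodule A (Cusp → Cusp → A)} {ι : Type} [Fintype ι]
    (b : Module.Basis ι A M) {Φ : M} (h : ∀ i, residue A (b.repr Φ i) = 0) :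
    mapVal (residue A) (Φ : Cusp → Cusp → A) = 0 := by
  conv_lhs => rw [← b.sum_repr Φ]
  rw [Submodule.coe_sum]
  simp only [Submodule.coe_smul]
  rw [mapVal_sum_smul]
  simp [h]

variable (hres : ResidualDegeneracy (ResidueField A) N q D S (residue A ∘ a))
  (hker₀ : ∀ Φ ∈ eigenPart A δ S a, mapVal (residue A) Φ = 0 →
    Φ ∈ maximalIdeal A • eigenPart A δ S a)

include hS hq hδ in
theorem mapVal_mem₀ {Φ : Cusp → Cusp → A} (hΦ : Φ ∈ eigenPart A δ S a) :
    mapVal (residue A) Φ ∈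
      eigenPart (ResidueField A) (1 : DirichletCharacter (ResidueField A) N) S (residue A ∘ a) :=
  hδ ▸ mapVal_mem_eigenPart (residue A) residue_surjective (mem_S_of_dvd S hS) hΦ

include hqN hδ hc1 hres hker₀ in
/-- The degeneracy matrix is injective modulo the maximal ideal. -/
theorem exists_alpha_left_inverse :
    ∃ Li : Matrix (Fin 2 × m) n A,
      Li * alphaMat (jMat δ S hS a b₀ b₁) (wMat D δ hq c S hS a b₁) = 1 := by
  refine exists_left_inverse _ fun x hx => ?_
  choose xt hxt using fun i => residue_surjective (x i)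
  set P0 : eigenPart A δ S a := b₀.equivFun.symm fun i => xt (0, i) with hP0
  set P1 : eigenPart A δ S a := b₀.equivFun.symm fun i => xt (1, i) with hP1
  set Z : eigenPart A (upChar q δ) S a :=
    inclE δ S hS a P0 + wE D δ hq c S hS a (inclE δ S hS a P1) with hZ
  have hrepr : ∀ (P : eigenPart A δ S a) (f : m → A), P = b₀.equivFun.symm f →
      ⇑(b₀.repr P) = f := fun P f h => by
    rw [h, ← Module.Basis.equivFun_apply, LinearEquiv.apply_symm_apply]
  have hr : ∀ i, b₁.repr Z i =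
      (alphaMat (jMat δ S hS a b₀ b₁) (wMat D δ hq c S hS a b₁) *ᵥ xt) i := by
    intro i
    have h0 := congrFun (LinearMap.toMatrix_mulVec_repr b₀ b₁ (inclE δ S hS a) P0) i
    have h1 := congrFun (LinearMap.toMatrix_mulVec_repr b₀ b₁
      (wE D δ hq c S hS a ∘ₗ inclE δ S hS a) P1) i
    rw [LinearMap.toMatrix_comp b₀ b₁ b₁] at h1
    rw [hZ, map_add, Finsupp.add_apply, ← h0]
    rw [LinearMap.comp_apply] at h1
    rw [← h1, hrepr P0 _ hP0, hrepr P1 _ hP1]
    simp [Matrix.mulVec, dotProduct, alphaMat, jMat, wMat, Fintype.sum_prod_type, Fin.sum_univ_two]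
  have hz : mapVal (residue A) (Z : Cusp → Cusp → A) = 0 := mapVal_eq_zero_of_repr b₁ fun i => by
    rw [hr, RingHom.map_mulVec, show residue A ∘ xt = x from funext hxt, hx, Pi.zero_apply]
  have hsplit : mapVal (residue A) (P0 : Cusp → Cusp → A) +
      D.wOp (ResidueField A) (mapVal (residue A) (P1 : Cusp → Cusp → A)) = 0 := by
    rw [← mapVal_wChar D δ hq c hδ hc1, ← mapVal_add]
    exact hz
  obtain ⟨h0, h1⟩ := hres.1 _ (mapVal_mem₀ hq hS hδ P0.2) _ (mapVal_mem₀ hq hS hδ P1.2) hsplit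
  funext ⟨j, i⟩
  have hcoord : ∀ (P : eigenPart A δ S a), mapVal (residue A) (P : Cusp → Cusp → A) = 0 →
      residue A (b₀.repr P i) = 0 := fun P hP =>
    (residue_eq_zero_iff _).mpr (repr_mem_of_mem_smul b₀ (hker₀ _ P.2 hP) i)
  fin_cases j
  · simpa [hrepr P0 _ hP0, hxt] using hcoord P0 h0
  · simpa [hrepr P1 _ hP1, hxt] using hcoord P1 h1

variable (hlift₁ : ∀ Φ' ∈ eigenPart (ResidueField A)
    (1 : DirichletCharacter (ResidueField A) (N * q)) S (residue A ∘ a),
  ∃ Φ ∈ eigenPart A (upChar q δ) S a, mapVal (residue A) Φ = Φ')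

include hδ hc1 hres hker₀ hlift₁ in
/-- The transposed degeneracy matrix is surjective modulo the maximal ideal. -/
theorem exists_beta_right_inverse :
    ∃ Ri : Matrix n (Fin 2 × m) A,
      betaMat (wMat D δ hq c S hS a b₁) (trMat D δ hq hqN S hS a b₀ b₁) * Ri = 1 := by
  refine exists_right_inverse _ fun y => ?_
  choose yt hyt using fun i => residue_surjective (y i)
  set P0 : eigenPart A δ S a := b₀.equivFun.symm fun i => yt (0, i) with hP0
  set P1 : eigenPart A δ S a := b₀.equivFun.symm fun i => yt (1, i) with hP1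
  obtain ⟨Xb, hXb, ht0, ht1⟩ := hres.2 _ (mapVal_mem₀ hq hS hδ P0.2) _ (mapVal_mem₀ hq hS hδ P1.2)
  obtain ⟨X, hX, rfl⟩ := hlift₁ Xb hXb
  set X1 : eigenPart A (upChar q δ) S a := ⟨X, hX⟩
  refine ⟨fun i => residue A (b₁.repr X1 i), ?_⟩
  have hrepr : ∀ (P : eigenPart A δ S a) (f : m → A), P = b₀.equivFun.symm f →
      ⇑(b₀.repr P) = f := fun P f h => by
    rw [h, ← Module.Basis.equivFun_apply, LinearEquiv.apply_symm_apply]
  have hsub : ∀ (Q P : eigenPart A δ S a),
      mapVal (residue A) (Q : Cusp → Cusp → A) = mapVal (residue A) (P : Cusp → Cusp → A) →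
      ∀ i, residue A (b₀.repr Q i) = residue A (b₀.repr P i) := fun Q P h i => by
    have hd : mapVal (residue A) ((Q - P : eigenPart A δ S a) : Cusp → Cusp → A) = 0 := by
      rw [Submodule.coe_sub, mapVal_sub, h, sub_self]
    have := (residue_eq_zero_iff _).mpr (repr_mem_of_mem_smul b₀ (hker₀ _ (Q - P).2 hd) i)
    rwa [map_sub, Finsupp.sub_apply, map_sub, sub_eq_zero] at this
  funext ⟨j, i⟩
  have h0 := hsub (trE D δ hq hqN S hS a X1) P0 ((mapVal_trChar D δ hq hδ X).trans ht0) i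
  have h1 := hsub (trE D δ hq hqN S hS a (wE D δ hq c S hS a X1)) P1 (by
    rw [coe_trE, mapVal_trChar D δ hq hδ, coe_wE, mapVal_wChar D δ hq c hδ hc1]
    exact ht1) i
  have e0 := congrFun (LinearMap.toMatrix_mulVec_repr b₁ b₀ (trE D δ hq hqN S hS a) X1) i
  have e1 := congrFun (LinearMap.toMatrix_mulVec_repr b₁ b₀
    (trE D δ hq hqN S hS a ∘ₗ wE D δ hq c S hS a) X1) i
  rw [LinearMap.toMatrix_comp b₁ b₁ b₀, LinearMap.comp_apply] at e1
  rw [show (fun i => residue A (b₁.repr X1 i)) = residue A ∘ ⇑(b₁.repr X1) from rfl,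
    ← RingHom.map_mulVec]
  fin_cases j
  · rw [← e0, hrepr P0 _ hP0] at h0
    simpa [Matrix.mulVec, dotProduct, betaMat, trMat, hyt] using h0
  · rw [← e1, hrepr P1 _ hP1] at h1
    simpa [Matrix.mulVec, dotProduct, betaMat, trMat, wMat, hyt] using h1

end Residual

end FLTAgent.Degeneracy
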