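import Fermat.Agent.ModularityLifting.Twist
import Fermat.Agent.ModularityLifting.Points.UChar

/-!
# Degeneracy maps on symbols with a character

`δ` has level `N`, prime to `q`, and `c ^ 2 = δ q`. Multiplying the Atkin–Lehner map by `c δ(a)`
gives an involution `w` of the symbols of level `N q`, and the trace `1 + δ(a) U W` to level `N`
satisfies `tr = q + 1`, `tr ∘ w = c⁻¹ T_q` on symbols of level `N`.
-/

set_option autoImplicit false

noncomputable section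

namespace FLTAgent.Degeneracy

open FLTAgent.LevelRaising FLTAgent.ModularityLifting FLTAgent.HeckePoints CongruenceSubgroup Matrix
open scoped MatrixGroups

variable {R : Type} [CommRing R] {N q : ℕ}

/-- The character `δ` read at level `N q`. -/
abbrev upChar (q : ℕ) (δ : DirichletCharacter R N) : DirichletCharacter R (N * q) :=
  DirichletCharacter.changeLevel (dvd_mul_right N q) δ

variable (D : ALData N q) (δ : DirichletCharacter R N)

/-- The normalised Atkin–Lehner map. -/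
def wChar (c : Rˣ) : (Cusp → Cusp → R) →ₗ[R] (Cusp → Cusp → R) :=
  ((c : R) * δ (D.a : ZMod N)) • D.wOp R

/-- The trace to level `N`. -/
def trChar : (Cusp → Cusp → R) →ₗ[R] (Cusp → Cusp → R) :=
  LinearMap.id + δ (D.a : ZMod N) • (uOp R q ∘ₗ D.wOp R)

variable {δ}

theorem gamma0_mul_le {γ : SL(2, ℤ)} (hγ : γ ∈ Gamma0 (N * q)) : γ ∈ Gamma0 N :=
  mem_Gamma0_iff_dvd.mpr
    ((Int.natCast_dvd_natCast.mpr (dvd_mul_right N q)).trans (mem_Gamma0_iff_dvd.mp hγ))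

theorem upChar_lowerRight {γ : SL(2, ℤ)} (hγ : γ ∈ Gamma0 (N * q)) :
    upChar q δ ((γ 1 1 : ℤ) : ZMod (N * q)) = δ ((γ 1 1 : ℤ) : ZMod N) :=
  changeLevel_intCast _ δ _ (isUnit_lowerRight hγ)

theorem pull_glQ_up {Φ : Cusp → Cusp → R} (hΦ : Φ ∈ SymbChar R (upChar q δ)) {γ : SL(2, ℤ)}
    (hγ : γ ∈ Gamma0 (N * q)) : pull R (glQ γ) Φ = δ ((γ 1 1 : ℤ) : ZMod N) • Φ := by
  rw [pull_glQ_char hΦ hγ, upChar_lowerRight hγ]

/-- Symbols of level `N` are symbols of level `N q`. -/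
theorem symbChar_le_up : SymbChar R δ ≤ SymbChar R (upChar q δ) := fun Φ hΦ =>
  mem_symbChar_of_pull hΦ.1 fun γ hγ => by
    rw [pull_glQ_char hΦ (gamma0_mul_le hγ), upChar_lowerRight hγ]

include D in
theorem cast_eq_one : (q : ZMod N) * (D.a : ZMod N) * (D.d : ZMod N) = 1 := by
  have h := congrArg (Int.cast : ℤ → ZMod N) D.eq_one
  simpa using h

theorem char_a_mul : δ (D.a : ZMod N) * δ ((q : ZMod N) * (D.d : ZMod N)) = 1 := by
  rw [← map_mul, ← map_one δ]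
  congr 1
  linear_combination cast_eq_one D

theorem mat_conj_mod {A B : M2} (hA : (N : ℤ) ∣ A 1 0) (hB : (N : ℤ) ∣ B 1 0)
    (he : D.mat * A = B * D.mat) :
    ((B 0 0 : ℤ) : ZMod N) = ((A 0 0 : ℤ) : ZMod N) ∧
      ((B 1 1 : ℤ) : ZMod N) = ((A 1 1 : ℤ) : ZMod N) := by
  have hA' : ((A 1 0 : ℤ) : ZMod N) = 0 := (ZMod.intCast_zmod_eq_zero_iff_dvd _ _).mpr hA
  have hB' : ((B 1 0 : ℤ) : ZMod N) = 0 := (ZMod.intCast_zmod_eq_zero_iff_dvd _ _).mpr hB
  have h00 := congrArg (Int.cast : ℤ → ZMod N) (congrFun (congrFun he 0) 0)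
  have h11 := congrArg (Int.cast : ℤ → ZMod N) (congrFun (congrFun he 1) 1)
  simp [ALData.mat, Matrix.mul_apply, Fin.sum_univ_two, hA', hB'] at h00 h11
  constructor
  · linear_combination -(D.d : ZMod N) * h00 +
      (((A 0 0 : ℤ) : ZMod N) - (B 0 0 : ℤ)) * cast_eq_one D
  · linear_combination -(D.a : ZMod N) * h11 +
      (((A 1 1 : ℤ) : ZMod N) - (B 1 1 : ℤ)) * cast_eq_one D

variable (hq : q.Prime)
include hq

theorem wChar_mem (c : Rˣ) {Φ : Cusp → Cusp → R} (hΦ : Φ ∈ SymbChar R (upChar q δ)) :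
    wChar D δ c Φ ∈ SymbChar R (upChar q δ) := by
  refine Submodule.smul_mem _ _ (mem_symbChar_of_pull (fun x y z => hΦ.1 _ _ _) fun γ hγ => ?_)
  obtain ⟨γ', hγ', he⟩ := D.exists_sl_mat_mul hγ
  rw [ALData.wOp, ← ofMat_coe, ← pull_ofMat_mul (D.mat_det_ne_zero hq) (sl_det_ne_zero γ), he,
    pull_ofMat_mul (sl_det_ne_zero γ') (D.mat_det_ne_zero hq), ofMat_coe, pull_glQ_up hΦ hγ',
    map_smul, upChar_lowerRight hγ]
  congr 2
  exact (mat_conj_mod D (mem_Gamma0_iff_dvd.mp (gamma0_mul_le hγ))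
    (mem_Gamma0_iff_dvd.mp (gamma0_mul_le hγ')) he).2

theorem wChar_wChar (c : Rˣ) (hc : (c : R) * c = δ (q : ZMod N)) {Φ : Cusp → Cusp → R}
    (hΦ : Φ ∈ SymbChar R (upChar q δ)) : wChar D δ c (wChar D δ c Φ) = Φ := by
  rw [wChar, LinearMap.smul_apply, LinearMap.smul_apply, map_smul, smul_smul, ALData.wOp,
    ← pull_ofMat_mul (D.mat_det_ne_zero hq) (D.mat_det_ne_zero hq), ALData.mat_mul_mat,
    pull_ofMat_smul (by exact_mod_cast hq.ne_zero) (sl_det_ne_zero _), ofMat_coe,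
    pull_glQ_up hΦ D.sq_mem, smul_smul]
  have h11 : ((D.sq 1 1 : ℤ) : ZMod N) = (q : ZMod N) * (D.d : ZMod N) ^ 2 := by
    simp [ALData.sq]
  have h := cast_eq_one D
  have key : δ (q : ZMod N) * (δ (D.a : ZMod N) * δ (D.a : ZMod N)) *
      δ ((q : ZMod N) * (D.d : ZMod N) ^ 2) = 1 := by
    rw [← map_mul, ← map_mul, ← map_mul, ← map_one δ]
    congr 1
    linear_combination ((q : ZMod N) * (D.a : ZMod N) * (D.d : ZMod N) + 1) * h
  rw [h11]
  conv_rhs => rw [← one_smul R Φ, ← key, ← hc]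
  congr 1
  ring

theorem trChar_eq_sum (Φ : Cusp → Cusp → R) :
    trChar D δ Φ = ∑ i, δ (((D.cosetRep i) 0 0 : ℤ) : ZMod N) • pull R (glQ (D.cosetRep i)) Φ := by
  rw [Fintype.sum_option, trChar, LinearMap.add_apply, LinearMap.id_apply, LinearMap.smul_apply,
    LinearMap.comp_apply, uOp, ALData.wOp, pullFam_apply, Finset.smul_sum]
  congr 1
  · simp [ALData.cosetRep, pull_one]
  · refine Finset.sum_congr rfl fun j _ => ?_
    rw [← pull_ofMat_mul (D.mat_det_ne_zero hq) (heckeFam_det_ne_zero hq.ne_zero _),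
      ALData.mat_mul_heckeFam, pull_ofMat_smul (by exact_mod_cast hq.ne_zero) (sl_det_ne_zero _),
      ofMat_coe]
    rfl

theorem trChar_of_mem {Φ : Cusp → Cusp → R} (hΦ : Φ ∈ SymbChar R δ) :
    trChar D δ Φ = ((q : R) + 1) • Φ := by
  rw [trChar_eq_sum D hq, Finset.sum_congr rfl fun i _ => show
      δ (((D.cosetRep i) 0 0 : ℤ) : ZMod N) • pull R (glQ (D.cosetRep i)) Φ = Φ by
        rw [pull_glQ_char hΦ (D.cosetRep_mem i), smul_smul,
          dirichlet_mul_of_det (D.cosetRep_mem i), one_smul],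
    Finset.sum_const, Finset.card_univ, Fintype.card_option, Fintype.card_fin,
    ← Nat.cast_smul_eq_nsmul R]
  push_cast
  rfl

theorem trChar_mem (hqN : ¬ q ∣ N) {Φ : Cusp → Cusp → R} (hΦ : Φ ∈ SymbChar R (upChar q δ)) :
    trChar D δ Φ ∈ SymbChar R δ := by
  refine mem_symbChar_of_pull (fun x y z => ?_) fun γ hγ => ?_
  · simp only [trChar_eq_sum D hq, Finset.sum_apply, Pi.smul_apply, pull_apply,
      smul_eq_mul, ← Finset.sum_add_distrib, ← mul_add, hΦ.1]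
  have h : ∀ i, ∃ k, ∃ γ' ∈ Gamma0 (N * q), D.cosetRep i * γ = γ' * D.cosetRep k := fun i => by
    obtain ⟨k, hk⟩ := D.exists_eq_mul_cosetRep hq hqN (mul_mem (D.cosetRep_mem i) hγ)
    exact ⟨k, _, hk, (inv_mul_cancel_right _ _).symm⟩
  choose e γ' hγ' he using h
  have hei : Function.Injective e := fun i i' hii => by
    refine D.cosetRep_injective hq hqN ?_
    have h1 : D.cosetRep i * (D.cosetRep i')⁻¹ = γ' i * (γ' i')⁻¹ := by
      rw [eq_mul_inv_of_mul_eq (he i), eq_mul_inv_of_mul_eq (he i'), hii]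
      group
    rw [h1]
    exact mul_mem (hγ' i) (inv_mem (hγ' i'))
  rw [trChar_eq_sum D hq, map_sum, Finset.smul_sum]
  refine Fintype.sum_bijective e (Finite.injective_iff_bijective.mp hei) _ _ fun i => ?_
  rw [map_smul, ← ofMat_coe γ, ← ofMat_coe (D.cosetRep i),
    ← pull_ofMat_mul (sl_det_ne_zero _) (sl_det_ne_zero γ), ← Matrix.SpecialLinearGroup.coe_mul,
    he i, Matrix.SpecialLinearGroup.coe_mul, pull_ofMat_mul (sl_det_ne_zero _) (sl_det_ne_zero _),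
    ofMat_coe, ofMat_coe, pull_glQ_up hΦ (hγ' i), map_smul, smul_smul, smul_smul]
  congr 1
  have hprod : ((D.cosetRep i 1 1 : ℤ) : ZMod N) * ((γ 1 1 : ℤ) : ZMod N) =
      ((γ' i 1 1 : ℤ) : ZMod N) * ((D.cosetRep (e i) 1 1 : ℤ) : ZMod N) := by
    have h1 := congrArg (fun g : SL(2, ℤ) => ((g 1 1 : ℤ) : ZMod N)) (he i)
    simp only [Matrix.SpecialLinearGroup.coe_mul, Matrix.mul_apply, Fin.sum_univ_two] at h1
    push_cast at h1
    rwa [Gamma0_mem.mp (D.cosetRep_mem i), Gamma0_mem.mp (gamma0_mul_le (hγ' i)), zero_mul,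
      zero_add, zero_mul, zero_add] at h1
  have hp := congrArg δ hprod
  rw [map_mul, map_mul] at hp
  linear_combination
    (-δ ((γ' i 1 1 : ℤ) : ZMod N) * δ (((D.cosetRep i) 0 0 : ℤ) : ZMod N)) *
        dirichlet_mul_of_det (δ := δ) (D.cosetRep_mem (e i))
      - δ (((D.cosetRep i) 0 0 : ℤ) : ZMod N) * δ (((D.cosetRep (e i)) 0 0 : ℤ) : ZMod N) * hp
      + δ ((γ 1 1 : ℤ) : ZMod N) * δ (((D.cosetRep (e i)) 0 0 : ℤ) : ZMod N) *
        dirichlet_mul_of_det (δ := δ) (D.cosetRep_mem i)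

theorem wOp_wChar (c : Rˣ) (hc : (c : R) * c = δ (q : ZMod N)) {Φ : Cusp → Cusp → R}
    (hΦ : Φ ∈ SymbChar R (upChar q δ)) :
    δ (D.a : ZMod N) • D.wOp R (wChar D δ c Φ) = (↑c⁻¹ : R) • Φ := by
  conv_rhs => rw [← wChar_wChar D hq c hc hΦ]
  generalize wChar D δ c Φ = X
  rw [wChar, LinearMap.smul_apply, smul_smul, ← mul_assoc, Units.inv_mul, one_mul]

theorem trChar_wChar_of_mem (c : Rˣ) (hc : (c : R) * c = δ (q : ZMod N)) {Φ : Cusp → Cusp → R}
    (hΦ : Φ ∈ SymbChar R δ) :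
    trChar D δ (wChar D δ c Φ) = (↑c⁻¹ : R) • tOpChar R δ q Φ := by
  have hw := wOp_wChar D hq c hc (symbChar_le_up hΦ)
  have hV : wChar D δ c Φ = (c : R) • pull R (ofMat (heckeFam q none)) Φ := by
    rw [wChar, LinearMap.smul_apply, ALData.wOp, ALData.mat_eq,
      pull_ofMat_mul (sl_det_ne_zero _) (heckeFam_det_ne_zero hq.ne_zero _), ofMat_coe,
      pull_glQ_char hΦ D.g₀_mem, map_smul, smul_smul]
    congr 1
    have h11 : ((D.g₀ 1 1 : ℤ) : ZMod N) = (q : ZMod N) * (D.d : ZMod N) := by simp [ALData.g₀]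
    rw [h11, mul_assoc, char_a_mul, mul_one]
  rw [trChar, LinearMap.add_apply, LinearMap.id_apply, LinearMap.smul_apply, LinearMap.comp_apply,
    ← map_smul, hw, hV, map_smul, tOpChar, LinearMap.add_apply, LinearMap.smul_apply, smul_add,
    smul_smul, ← hc, ← mul_assoc, Units.inv_mul, one_mul, uOp, pullFam_apply, LinearMap.sum_apply]

/-- `c⁻¹ U` in terms of the involution and the trace. -/
theorem uOp_eq_trChar (c : Rˣ) (hc : (c : R) * c = δ (q : ZMod N)) {Φ : Cusp → Cusp → R}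
    (hΦ : Φ ∈ SymbChar R (upChar q δ)) :
    (↑c⁻¹ : R) • uOp R q Φ = trChar D δ (wChar D δ c Φ) - wChar D δ c Φ := by
  have hw := wOp_wChar D hq c hc hΦ
  rw [trChar, LinearMap.add_apply, LinearMap.id_apply, LinearMap.smul_apply, LinearMap.comp_apply,
    ← map_smul (uOp R q) (δ (D.a : ZMod N)), hw, map_smul, add_sub_cancel_left]

omit D hq in
theorem tOpChar_upChar {ℓ : ℕ} (hℓ : ℓ.Prime) (hL : ¬ ℓ ∣ N * q) :
    tOpChar R (upChar q δ) ℓ = tOpChar R δ ℓ := by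
  have hu : IsUnit ((ℓ : ℤ) : ZMod (N * q)) := by
    rw [Int.cast_natCast]
    exact (ZMod.unitOfCoprime ℓ ((Nat.Prime.coprime_iff_not_dvd hℓ).mpr hL)).isUnit
  have h := changeLevel_intCast (dvd_mul_right N q) δ (ℓ : ℤ) hu
  rw [Int.cast_natCast, Int.cast_natCast] at h
  rw [tOpChar, tOpChar, h]

theorem tOpChar_wChar (c : Rˣ) {ℓ : ℕ} (hℓ : ℓ.Prime) (hL : ¬ ℓ ∣ N * q) {Φ : Cusp → Cusp → R}
    (hΦ : Φ ∈ SymbChar R (upChar q δ)) :
    tOpChar R (upChar q δ) ℓ (wChar D δ c Φ) = wChar D δ c (tOpChar R (upChar q δ) ℓ Φ) := by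
  have hdvd : ∀ A : M2, ((N * q : ℕ) : ℤ) ∣ A 1 0 → (N : ℤ) ∣ A 1 0 := fun A h =>
    (Int.natCast_dvd_natCast.mpr (dvd_mul_right N q)).trans h
  have hlow : ∀ i : Option (Fin ℓ), ((N * q : ℕ) : ℤ) ∣ heckeFam ℓ i 1 0 := fun i => by
    rw [heckeFam_lower]; exact dvd_zero _
  choose B hBd hBc hBe using fun i : Option (Fin ℓ) => D.exists_mat_mul (hlow i)
  have hunit : IsUnit ((ℓ : ℕ) : ZMod (N * q)) :=
    (ZMod.unitOfCoprime ℓ ((Nat.Prime.coprime_iff_not_dvd hℓ).mpr hL)).isUnit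
  have hB00 : ∀ i, IsUnit ((B i 0 0 : ℤ) : ZMod (N * q)) := fun i => by
    have h := congrArg (Int.cast : ℤ → ZMod (N * q)) ((hBd i).trans (heckeFam_det ℓ i))
    rw [Matrix.det_fin_two] at h
    push_cast at h
    rw [(ZMod.intCast_zmod_eq_zero_iff_dvd _ _).mpr (hBc i), mul_zero, sub_zero] at h
    exact isUnit_of_mul_isUnit_left (h ▸ hunit)
  have hA00 : ∀ i, IsUnit ((heckeFam ℓ i 0 0 : ℤ) : ZMod (N * q)) := by
    rintro (_ | j)
    · simpa using hunit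
    · simp
  have key : ∀ i, wpull (upChar q δ) (heckeFam ℓ i) (D.wOp R Φ) =
      D.wOp R (wpull (upChar q δ) (B i) Φ) := fun i => by
    rw [wpull_apply, wpull_apply, map_smul, ALData.wOp,
      ← pull_ofMat_mul (D.mat_det_ne_zero hq) (heckeFam_det_ne_zero hℓ.ne_zero i), hBe i,
      pull_ofMat_mul (by rw [hBd i]; exact heckeFam_det_ne_zero hℓ.ne_zero i)
        (D.mat_det_ne_zero hq), changeLevel_intCast _ δ _ (hA00 i),
      changeLevel_intCast _ δ _ (hB00 i),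
      (mat_conj_mod D (hdvd _ (hlow i)) (hdvd _ (hBc i)) (hBe i)).1]
  rw [wChar, LinearMap.smul_apply, LinearMap.smul_apply, map_smul]
  congr 1
  rw [tOpChar_eq_sum, tOpChar_eq_sum, Finset.sum_congr rfl fun i _ => key i, ← map_sum]
  congr 1
  refine sum_wpull_eq hΦ rfl B _ (heckeFam_det_ne_zero hℓ.ne_zero) hlow (fun i => ?_)
    fun i i' γ hγ he => ?_
  · exact exists_gamma_mul_heckeFam hℓ hL (by rw [hBd i, heckeFam_det]) (hBc i)
  · obtain ⟨γ'', _, he'⟩ := D.exists_sl_mul_mat hγ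
    have he2 : D.mat * heckeFam ℓ i = D.mat * ((γ'' : M2) * heckeFam ℓ i') := by
      rw [hBe i, he, mul_assoc, ← hBe i', ← mul_assoc, he', mul_assoc]
    exact heckeFam_right_unique hℓ (δ₁ := 1) (by rw [Matrix.det_one]; exact not_prime_dvd_one hℓ)
      (not_dvd_det_SL hℓ γ'') (by
        rw [one_mul]; exact left_cancel_of_det_ne_zero (D.mat_det_ne_zero hq) he2)

theorem tOpChar_trChar {ℓ : ℕ} (hℓ : ℓ.Prime) (hL : ¬ ℓ ∣ N * q) {Φ : Cusp → Cusp → R}
    (hΦ : Φ ∈ SymbChar R (upChar q δ)) :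
    tOpChar R δ ℓ (trChar D δ Φ) = trChar D δ (tOpChar R (upChar q δ) ℓ Φ) := by
  have hw : wChar D δ (1 : Rˣ) = δ (D.a : ZMod N) • D.wOp R := by
    rw [wChar, Units.val_one, one_mul]
  have hmem := wChar_mem D hq (1 : Rˣ) hΦ
  rw [← tOpChar_upChar hℓ hL]
  simp only [trChar, LinearMap.add_apply, LinearMap.id_apply, LinearMap.smul_apply,
    LinearMap.comp_apply, map_add, ← map_smul (uOp R q)]
  congr 1
  have h1 := tOpChar_wChar D hq (1 : Rˣ) hℓ hL hΦ
  rw [hw, LinearMap.smul_apply, LinearMap.smul_apply] at h1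
  rw [hw, LinearMap.smul_apply] at hmem
  rw [tOpChar_uOp_comm hℓ hq hL (dvd_mul_left q N) hmem, h1]

end FLTAgent.Degeneracy
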