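import Fermat.Agent.ModularityLifting.Degeneracy.Matrices
import Mathlib.RingTheory.IntegralClosure.IsIntegralClosure.Basic
import Mathlib.RingTheory.Noetherian.Basic
import Mathlib.Algebra.Polynomial.FieldDivision

/-!
# The cokernel of the degeneracy map

A function on the points that vanishes at the new points kills `(α α' - 1) E`; if it only
vanishes at the new points with trivial diamond values, its entries lie in the augmentation ideal.
-/

set_option autoImplicit false

noncomputable section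

namespace FLTAgent.Degeneracy

open Matrix Polynomial

variable {O : Type} [CommRing O] [IsDomain O] [IsNoetherianRing O] {C : Type} [CommRing C]
  [IsDomain C] [Algebra O C] [Module.Finite O C] {X : Type} [Fintype X]
  (F : Subalgebra O (X → C))

/-- An element is invertible up to a nonzero scalar where it does not vanish. -/
theorem exists_mul_eq_const (e : F) : ∃ (g : F) (c : O), c ≠ 0 ∧
    ∀ x, (e : X → C) x ≠ 0 → (e : X → C) x * (g : X → C) x = algebraMap O C c := by
  have : Module.Finite O F := Module.Finite.of_injective F.val.toLinearMap Subtype.val_injective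
  obtain ⟨P, hP, he⟩ := IsIntegral.of_finite O e
  obtain ⟨Q, hQ, hnd⟩ := exists_eq_pow_rootMultiplicity_mul_and_not_dvd P hP.ne_zero 0
  rw [map_zero, sub_zero] at hQ hnd
  refine ⟨-(aeval e Q.divX), Q.coeff 0, fun h => hnd (X_dvd_iff.mpr h), fun x hx => ?_⟩
  have h1 : aeval ((e : X → C) x) P = 0 := by
    have h := congrArg (fun z : F => (z : X → C) x) he
    rw [← aeval_def] at h
    let ev : F →ₐ[O] C := (Pi.evalAlgHom O (fun _ : X => C) x).comp F.val
    rw [show (e : X → C) x = ev e from rfl, aeval_algHom_apply]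
    exact h
  rw [hQ, map_mul, map_pow, aeval_X] at h1
  have h2 := (mul_eq_zero.mp h1).resolve_left (pow_ne_zero _ hx)
  rw [← X_mul_divX_add Q, map_add, map_mul, aeval_X, aeval_C] at h2
  have h3 : ((aeval e Q.divX : F) : X → C) x = aeval ((e : X → C) x) Q.divX := by
    let ev : F →ₐ[O] C := (Pi.evalAlgHom O (fun _ : X => C) x).comp F.val
    exact (aeval_algHom_apply ev e _).symm
  rw [NegMemClass.coe_neg, Pi.neg_apply, h3]
  linear_combination -h2

variable {A : Type} [CommRing A] [Algebra O A]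
  {m n : Type} [Fintype m] [DecidableEq m] [Fintype n] [DecidableEq n]
  (J : Matrix n m A) (W : Matrix n n A) (Tr : Matrix m n A) (ε : A)
  (act₀ : F →ₐ[O] Matrix m m A) (act₁ : F →ₐ[O] Matrix n n A)

/-- The elements killing the kernel of `β` on which `U = ε`. -/
def newAnn : Ideal F where
  carrier := {s | ∀ Z : Matrix n n A, betaMat W Tr * Z = 0 → uMat J W Tr * Z = ε • Z →
    act₁ s * Z = 0}
  add_mem' := fun {a b} ha hb Z h1 h2 => by
    rw [map_add, Matrix.add_mul, ha Z h1 h2, hb Z h1 h2, add_zero]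
  zero_mem' := fun Z _ _ => by rw [map_zero, Matrix.zero_mul]
  smul_mem' := fun a b hb Z h1 h2 => by
    rw [smul_eq_mul, map_mul, Matrix.mul_assoc, hb Z h1 h2, Matrix.mul_zero]

/-- The new points. -/
def newPoints (P₁ : Set X) : Set X :=
  {θ | θ ∈ P₁ ∧ ∀ s ∈ newAnn F J W Tr ε act₁, (s : X → C) θ = 0}

omit [DecidableEq m] in
/-- A function vanishing at the new points, times a scalar congruent to a constant, vanishes. -/
theorem exists_scalar_mul {P₁ : Set X} (t : F)
    (ht : ∀ θ ∈ newPoints F J W Tr ε act₁ P₁, (t : X → C) θ = 0) (Q : Set X) (hQ : Q ⊆ P₁) :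
    ∃ (c : O) (i : F), c ≠ 0 ∧ i ∈ newAnn F J W Tr ε act₁ ∧
      ∀ θ ∈ Q, (((algebraMap O F c + i) * t : F) : X → C) θ = 0 := by
  classical
  let bad : Finset X := Finset.univ.filter fun θ => θ ∈ Q ∧ θ ∉ newPoints F J W Tr ε act₁ P₁
  have hw : ∀ θ ∈ bad, ∃ (h : F) (c : O), c ≠ 0 ∧ (h : X → C) θ = 0 ∧
      h - algebraMap O F c ∈ newAnn F J W Tr ε act₁ := by
    intro θ hθ
    obtain ⟨hθQ, hnew⟩ := (Finset.mem_filter.mp hθ).2
    obtain ⟨s, hs, hs0⟩ : ∃ s ∈ newAnn F J W Tr ε act₁, (s : X → C) θ ≠ 0 := by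
      by_contra hcon
      push Not at hcon
      exact hnew ⟨hQ hθQ, hcon⟩
    obtain ⟨g, c, hc, hg⟩ := exists_mul_eq_const F s
    refine ⟨algebraMap O F c - s * g, c, hc, ?_, ?_⟩
    · rw [Subalgebra.coe_sub, Subalgebra.coe_mul, Pi.sub_apply, Pi.mul_apply, hg θ hs0,
        Subalgebra.coe_algebraMap, Pi.algebraMap_apply, sub_self]
    · rw [sub_sub_cancel_left]
      exact neg_mem (Ideal.mul_mem_right g _ hs)
  choose! h c hc h0 hI using hw
  refine ⟨∏ θ ∈ bad, c θ, (∏ θ ∈ bad, h θ) - algebraMap O F (∏ θ ∈ bad, c θ),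
    Finset.prod_ne_zero_iff.mpr hc, ?_, fun θ hθ => ?_⟩
  · rw [← Ideal.Quotient.eq, map_prod, map_prod, map_prod]
    exact Finset.prod_congr rfl fun θ hθ => Ideal.Quotient.eq.mpr (hI θ hθ)
  · rw [add_sub_cancel, Subalgebra.coe_mul, Pi.mul_apply]
    by_cases hn : θ ∈ newPoints F J W Tr ε act₁ P₁
    · rw [ht θ hn, mul_zero]
    · have hb : θ ∈ bad := Finset.mem_filter.mpr ⟨Finset.mem_univ _, hθ, hn⟩
      rw [← Finset.mul_prod_erase bad h hb, Subalgebra.coe_mul, Pi.mul_apply, h0 θ hb, zero_mul,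
        zero_mul]

section Coker

variable {J W Tr ε}
variable {v : ℕ} {T : Matrix m m A} (hV : Valid J W Tr (v : A) T)
  {L : Matrix (Fin 2 × m) n A} (hL : L * alphaMat J W = 1) (hε : ε * ε = 1)
  (hJ : ∀ s, act₁ s * J = J * act₀ s) (hW : ∀ s, W * act₁ s = act₁ s * W)
  (hinv : ∃ (c : O) (T' : Matrix m m A), c ≠ 0 ∧
    ((v : A) + 1) ^ 2 • T' - T * (T * T') = algebraMap O A c • (1 : Matrix m m A))
  (hreg : ∀ c : O, c ≠ 0 → ∀ a : A, c • a = 0 → a = 0)

include hV hL hε hJ hW hinv hreg in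
omit [IsDomain O] [IsNoetherianRing O] [IsDomain C] [Module.Finite O C] [Fintype X] in
/-- Elements of the annihilator kill the cokernel part. -/
theorem coker_of_mem {s : F} (hs : s ∈ newAnn F J W Tr ε act₁) :
    (alphaMat J W * L - 1) * act₁ s * eMat J W Tr ε = 0 := by
  obtain ⟨c, T', hc, hT'⟩ := hinv
  let Y : Matrix (Fin 2 × m) (Fin 2 × m) A := blockMat fun i j =>
    if i = j then ((v : A) + 1) • T' else -(T * T')
  have hba : betaMat W Tr * alphaMat J W = blockMat fun i j =>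
      if i = j then ((v : A) + 1) • (1 : Matrix m m A) else T := by
    rw [beta_alpha hV]
    ext ⟨i, a⟩ ⟨j, b⟩
    by_cases h : i = j <;> simp [blockMat, h, Matrix.one_apply]
  have hY : betaMat W Tr * alphaMat J W * Y =
      algebraMap O A c • (1 : Matrix (Fin 2 × m) (Fin 2 × m) A) := by
    rw [hba, blockMat_mul]
    ext ⟨i, a⟩ ⟨j, b⟩
    have e := congrFun (congrFun hT' a) b
    fin_cases i <;> fin_cases j <;>
      simp [blockMat, Matrix.one_apply, sq, smul_smul] at e ⊢ <;>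
      linear_combination e
  let Z : Matrix n n A := algebraMap O A c • 1 - alphaMat J W * (Y * betaMat W Tr)
  have hZ : betaMat W Tr * Z = 0 := by
    rw [Matrix.mul_sub, Matrix.mul_smul, Matrix.mul_one, ← Matrix.mul_assoc, ← Matrix.mul_assoc, hY,
      Matrix.smul_mul, Matrix.one_mul, sub_self]
  have hz : Tr * Z = 0 ∧ Tr * W * Z = 0 := by
    constructor <;> ext a j
    · simpa [beta_mul_eq] using congrFun (congrFun hZ (0, a)) j
    · simpa [beta_mul_eq] using congrFun (congrFun hZ (1, a)) j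
  have h1 : betaMat W Tr * (eMat J W Tr ε * Z) = 0 := by
    rw [← Matrix.mul_assoc, beta_e hV, Matrix.mul_assoc, hZ, Matrix.mul_zero]
  have h2 : uMat J W Tr * (eMat J W Tr ε * Z) = ε • (eMat J W Tr ε * Z) := by
    rw [eMat, Matrix.add_mul, Matrix.one_mul, Matrix.smul_mul, Matrix.mul_add, Matrix.mul_smul,
      u_u_of_ker hV hz.1 hz.2, smul_add, smul_smul, hε, one_smul, add_comm]
  have h3 := hs _ h1 h2
  have hprA : (alphaMat J W * L - 1) * alphaMat J W = 0 := by
    rw [Matrix.sub_mul, Matrix.mul_assoc, hL, Matrix.mul_one, Matrix.one_mul, sub_self]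
  have h4 : (alphaMat J W * L - 1) * (act₁ s * (eMat J W Tr ε * alphaMat J W)) = 0 := by
    rw [e_alpha hV, ← Matrix.mul_assoc (act₁ s), alpha_comm (hJ s) (hW s),
      ← Matrix.mul_assoc, ← Matrix.mul_assoc, hprA, Matrix.zero_mul, Matrix.zero_mul]
  have h5 := congrArg ((alphaMat J W * L - 1) * ·) h3
  simp only [Z, Matrix.mul_sub, Matrix.mul_smul, Matrix.mul_one, Matrix.mul_zero] at h5
  rw [← Matrix.mul_assoc (eMat J W Tr ε) (alphaMat J W),
    ← Matrix.mul_assoc (act₁ s) (eMat J W Tr ε * alphaMat J W),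
    ← Matrix.mul_assoc (alphaMat J W * L - 1) (act₁ s * (eMat J W Tr ε * alphaMat J W)), h4,
    Matrix.zero_mul, sub_zero, ← Matrix.mul_assoc] at h5
  ext i j
  refine hreg c hc _ ?_
  rw [Algebra.smul_def]
  exact congrFun (congrFun h5 i) j

include hreg in
omit [DecidableEq m] in
/-- A function vanishing at the new points lies in the annihilator. -/
theorem mem_newAnn_of_vanish {P₁ : Set X}
    (hvan₁ : ∀ t : F, (∀ θ ∈ P₁, (t : X → C) θ = 0) → act₁ t = 0) {t : F}
    (ht : ∀ θ ∈ newPoints F J W Tr ε act₁ P₁, (t : X → C) θ = 0) :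
    t ∈ newAnn F J W Tr ε act₁ := by
  obtain ⟨c, i, hc, hi, hvan⟩ := exists_scalar_mul F J W Tr ε act₁ t ht P₁ le_rfl
  intro Z hZ1 hZ2
  have h := congrArg (· * Z) (hvan₁ _ hvan)
  simp only [add_mul, map_add, map_mul, AlgHom.commutes, Matrix.zero_mul] at h
  rw [← map_mul act₁ i t, (Ideal.mul_mem_right t _ hi : i * t ∈ newAnn F J W Tr ε act₁) Z hZ1 hZ2,
    add_zero, ← Algebra.smul_def, Matrix.smul_mul] at h
  ext a b
  exact hreg c hc _ (congrFun (congrFun h a) b)

include hV hL hε hJ hW hinv hreg in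
theorem coker_eq_zero {P₁ : Set X}
    (hvan₁ : ∀ t : F, (∀ θ ∈ P₁, (t : X → C) θ = 0) → act₁ t = 0) (t : F)
    (ht : ∀ θ ∈ newPoints F J W Tr ε act₁ P₁, (t : X → C) θ = 0) :
    (alphaMat J W * L - 1) * act₁ t * eMat J W Tr ε = 0 :=
  coker_of_mem F act₀ act₁ hV hL hε hJ hW hinv hreg
    (mem_newAnn_of_vanish F act₁ hreg hvan₁ ht)

include hV hL hε hJ hW hinv hreg in
theorem coker_mem {P₁ Z : Set X} (I : Ideal A)
    (hvanI : ∀ t : F, (∀ θ ∈ P₁, θ ∈ Z → (t : X → C) θ = 0) → ∀ a b, act₁ t a b ∈ I)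
    (hI : ∀ c : O, c ≠ 0 → ∀ a : A, c • a ∈ I → a ∈ I) (t : F)
    (ht : ∀ θ ∈ newPoints F J W Tr ε act₁ P₁, θ ∈ Z → (t : X → C) θ = 0) (a b : n) :
    ((alphaMat J W * L - 1) * act₁ t * eMat J W Tr ε : Matrix n n A) a b ∈ I := by
  classical
  let P' := P₁ ∩ Z
  have hnew : ∀ θ ∈ newPoints F J W Tr ε act₁ P', (t : X → C) θ = 0 := fun θ hθ =>
    ht θ ⟨hθ.1.1, hθ.2⟩ hθ.1.2
  obtain ⟨c, i, hc, hi, hvan⟩ := exists_scalar_mul F J W Tr ε act₁ t hnew P' le_rfl
  have h := coker_of_mem F act₀ act₁ hV hL hε hJ hW hinv hreg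
    (Ideal.mul_mem_right t _ hi)
  set M := (alphaMat J W * L - 1) * act₁ ((algebraMap O F c + i) * t) * eMat J W Tr ε with hM
  have hMI : M a b ∈ I := by
    rw [hM, Matrix.mul_apply]
    refine sum_mem fun k _ => Ideal.mul_mem_right _ _ ?_
    rw [Matrix.mul_apply]
    exact sum_mem fun l _ => Ideal.mul_mem_left _ _ (hvanI _ (fun θ h1 h2 => hvan θ ⟨h1, h2⟩) l k)
  refine hI c hc _ ?_
  have e : M = c • ((alphaMat J W * L - 1) * act₁ t * eMat J W Tr ε) := by
    rw [hM, add_mul, map_add, map_mul, AlgHom.commutes, Matrix.mul_add, Matrix.add_mul, h, add_zero,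
      ← Algebra.smul_def, Matrix.mul_smul, Matrix.smul_mul]
  rwa [← Matrix.smul_apply, ← e]

end Coker

end FLTAgent.Degeneracy
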