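import Fermat.Agent.Eigenforms.Bound
import Fermat.Agent.ModularityLifting.PointsDatum.Semisimple
import Mathlib.Algebra.Polynomial.FieldDivision
import Mathlib.LinearAlgebra.Matrix.Charpoly.Basic

/-!
# `T² - (v + 1)²` is invertible up to a nonzero scalar

An integral polynomial killing `T_v` on cusp forms can be chosen without the roots `±(v + 1)`; a
matrix killed by it has `(v + 1)² - T²` invertible up to a nonzero integer.
-/

set_option autoImplicit false

noncomputable section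

open Polynomial Matrix

namespace FLTAgent.Degeneracy

theorem intCast_module_end_injective {R V : Type} [Ring R] [AddCommGroup V] [Module R V]
    (f : Module.End R V) (c : ℤ) (hf : ∀ v, f v = c • v → v = 0) {v : V}
    (h : aeval f (X - C c : ℤ[X]) v = 0) : v = 0 := by
  rw [map_sub, aeval_X, aeval_C, eq_intCast, LinearMap.sub_apply, Module.End.intCast_apply,
    sub_eq_zero] at h
  exact hf v h

/-- An endomorphism killed by a nonzero integral polynomial and without the eigenvalues in a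
finite set is killed by one without roots in this set. -/
theorem exists_kill_avoiding {R V : Type} [Ring R] [AddCommGroup V] [Module R V]
    (f : Module.End R V) (bad : Finset ℤ) (hf : ∀ c ∈ bad, ∀ v, f v = c • v → v = 0) :
    ∀ (Q : ℤ[X]), Q ≠ 0 → aeval f Q = 0 →
      ∃ Q' : ℤ[X], aeval f Q' = 0 ∧ ∀ c ∈ bad, Q'.eval c ≠ 0 := by
  intro Q
  induction hd : Q.natDegree using Nat.strong_induction_on generalizing Q with
  | _ d ih =>
    subst hd
    intro hQ0 hQ
    by_cases h : ∀ c ∈ bad, Q.eval c ≠ 0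
    · exact ⟨Q, hQ, h⟩
    push Not at h
    obtain ⟨c, hc, hroot⟩ := h
    obtain ⟨R', hR'⟩ := dvd_iff_isRoot.mpr hroot
    have hR0 : R' ≠ 0 := fun h => hQ0 (by rw [hR', h, mul_zero])
    refine ih R'.natDegree ?_ R' rfl hR0 ?_
    · rw [hR', natDegree_mul (X_sub_C_ne_zero c) hR0, natDegree_X_sub_C]
      omega
    · refine LinearMap.ext fun v => intCast_module_end_injective f c (hf c hc) ?_
      rw [← Module.End.mul_apply, ← map_mul, ← hR', hQ, LinearMap.zero_apply]

/-- An integral polynomial killing `T_v` on cusp forms with no root `±(v + 1)`. -/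
theorem exists_kill_heckeT {L : ℕ} [NeZero L] {v : ℕ} (hv : v.Prime) (hvL : ¬ v ∣ L) :
    ∃ Q : ℤ[X], aeval (CuspForm.heckeTLin (N := L) 2 hv hvL) Q = 0 ∧
      Q.eval ((v : ℤ) + 1) ≠ 0 ∧ Q.eval (-((v : ℤ) + 1)) ≠ 0 := by
  classical
  obtain ⟨Q₀, hsq, hQ₀⟩ := PointsDatum.exists_squarefree_kill (L := L) hv hvL
  have h0 : Q₀ ≠ 0 := fun h => not_squarefree_zero (by rwa [h, Polynomial.map_zero] at hsq)
  obtain ⟨Q, hQ, hbad⟩ := exists_kill_avoiding (CuspForm.heckeTLin (N := L) 2 hv hvL)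
    {(v : ℤ) + 1, -((v : ℤ) + 1)} (fun c hc f hf => by
      by_contra hf0
      have hnorm := Eigenforms.norm_eigenvalue_lt hv.two_le hf0 (c := (c : ℂ)) (by
        have h1 := congrArg (fun g : CuspForm (CongruenceSubgroup.Gamma0 L) 2 => (⇑g : _ → ℂ)) hf
        funext τ
        have h2 := congrFun h1 τ
        simpa using h2)
      simp only [Finset.mem_insert, Finset.mem_singleton] at hc
      have hpos : (0 : ℝ) ≤ (v : ℝ) + 1 := by positivity
      rw [Complex.norm_intCast] at hnorm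
      rcases hc with rfl | rfl <;> push_cast at hnorm <;>
        simp only [abs_neg, abs_of_nonneg hpos, lt_self_iff_false] at hnorm) Q₀ h0 hQ₀
  exact ⟨Q, hQ, hbad _ (by simp), hbad _ (by simp)⟩

/-- A matrix killed by a polynomial without the roots `±(v + 1)` has `(v + 1)² - T²` invertible
up to a nonzero integer. -/
theorem exists_scaled_inverse {O A : Type} [CommRing O] [CommRing A] [Algebra O A] [CharZero O]
    {m : Type} [Fintype m] [DecidableEq m] (T : Matrix m m A) (v : ℕ) (Q : ℤ[X])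
    (hQ : aeval T Q = 0) (h₁ : Q.eval ((v : ℤ) + 1) ≠ 0) (h₂ : Q.eval (-((v : ℤ) + 1)) ≠ 0) :
    ∃ (c : O) (T' : Matrix m m A), c ≠ 0 ∧
      ((v : A) + 1) ^ 2 • T' - T * (T * T') = algebraMap O A c • (1 : Matrix m m A) := by
  set n : ℤ := (v : ℤ) + 1 with hn
  obtain ⟨S₁, hS₁⟩ : X - C n ∣ Q - C (Q.eval n) := X_sub_C_dvd_sub_C_eval
  obtain ⟨S₂, hS₂⟩ : X - C (-n) ∣ Q - C (Q.eval (-n)) := X_sub_C_dvd_sub_C_eval
  refine ⟨((Q.eval n * Q.eval (-n) : ℤ) : O), -(aeval T (S₁ * S₂)),
    Int.cast_ne_zero.mpr (mul_ne_zero h₁ h₂), ?_⟩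
  have e : ∀ (c : ℤ), aeval T (C c) = (c : A) • (1 : Matrix m m A) := fun c => by
    rw [aeval_C, eq_intCast, ← zsmul_one, Int.cast_smul_eq_zsmul A]
  have h : aeval T ((X ^ 2 - C (n ^ 2)) * (S₁ * S₂)) =
      ((Q.eval n * Q.eval (-n) : ℤ) : A) • (1 : Matrix m m A) := by
    have e2 : (X ^ 2 - C (n ^ 2)) * (S₁ * S₂) = (Q - C (Q.eval n)) * (Q - C (Q.eval (-n))) := by
      rw [hS₁, hS₂, map_pow, map_neg]
      ring
    rw [e2, map_mul, map_sub, map_sub, hQ, zero_sub, zero_sub, neg_mul_neg, e, e, Int.cast_mul,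
      Matrix.smul_mul, Matrix.one_mul, smul_smul]
  rw [map_mul, map_sub, map_pow, aeval_X, e, Matrix.sub_mul, sq, Matrix.mul_assoc, Matrix.smul_mul,
    Matrix.one_mul] at h
  rw [map_intCast, smul_neg, Matrix.mul_neg, Matrix.mul_neg, sub_neg_eq_add, ← h, neg_add_eq_sub,
    hn]
  push_cast
  rfl

end FLTAgent.Degeneracy
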