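import Fermat.Agent.ModularityLifting.Degeneracy.ModP
import Fermat.Agent.ModularityLifting.NewformOfSymb
import Fermat.Agent.LevelRaising.Main

/-!
# New eigensymbols modulo `p` come from newforms

A non-zero symbol of level `N q` in the part at a non-Eisenstein system modulo `p` which is killed
by both traces to level `N` gives a newform of level divisible by `q` congruent to that system.
-/

set_option autoImplicit false

noncomputable section

open Matrix CongruenceSubgroup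
open scoped MatrixGroups

namespace FLTAgent.ModularityLifting

open FLTAgent.LevelRaising IsLocalRing

variable {p : ℕ} [Fact p.Prime] {k : Type} [Field k] [CharP k p]

/-- Linear relations over a field of characteristic `p` between integral families. -/
theorem sum_smul_intCast_eq_zero {n : ℕ} {V Ω Ω' : Type*} [AddCommGroup V] (c : Fin n → k)
    (v : Fin n → V) (f : V →+ (Ω → ℤ)) (g : V →+ (Ω' → ℤ))
    (hfg : ∀ x, (∀ ω, (p : ℤ) ∣ f x ω) → ∀ ω', (p : ℤ) ∣ g x ω')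
    (h : ∀ ω, ∑ i, c i * (f (v i) ω : k) = 0) (ω' : Ω') : ∑ i, c i * (g (v i) ω' : k) = 0 := by
  by_contra hne
  obtain ⟨lam, hlam⟩ := exists_addHom_ne_zero (p := p)
    (fun x : k => by rw [nsmul_eq_mul, CharP.cast_eq_zero, zero_mul]) hne
  refine hlam ?_
  have hl : ∀ (z : ℤ) (x : k), lam (x * z) = (z : ZMod p) * lam x := fun z x => by
    rw [← zsmul_eq_mul', map_zsmul, zsmul_eq_mul]
  set x := ∑ i, ((lam (c i)).val : ℤ) • v i with hx
  have key : ∀ (e : V →+ ℤ), ((e x : ℤ) : ZMod p) = ∑ i, (e (v i) : ZMod p) * lam (c i) :=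
    fun e => by simp [hx, map_sum, mul_comm]
  rw [map_sum, Finset.sum_congr rfl fun i _ => hl _ _]
  refine ((key ((Pi.evalAddMonoidHom _ ω').comp g)).symm).trans ?_
  rw [AddMonoidHom.comp_apply, Pi.evalAddMonoidHom_apply, ZMod.intCast_zmod_eq_zero_iff_dvd]
  refine hfg x (fun ω => ?_) ω'
  rw [← ZMod.intCast_zmod_eq_zero_iff_dvd]
  refine (key ((Pi.evalAddMonoidHom _ ω).comp f)).trans ?_
  simp only [AddMonoidHom.comp_apply, Pi.evalAddMonoidHom_apply]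
  have h' := congrArg lam (h ω)
  rwa [map_sum, Finset.sum_congr rfl fun i _ => hl _ _, map_zero] at h'

omit [Fact p.Prime] [CharP k p] in
/-- Commuting locally nilpotent maps of a non-zero finite dimensional space kill a non-zero
vector. -/
theorem exists_forall_apply_eq_zero {V ι : Type*} [AddCommGroup V] [Module k V]
    (f : ι → Module.End k V) :
    ∀ (U : Submodule k V) [FiniteDimensional k U], U ≠ ⊥ → (∀ i, ∀ v ∈ U, f i v ∈ U) →
      (∀ i j, ∀ v ∈ U, f i (f j v) = f j (f i v)) → (∀ i, ∀ v ∈ U, ∃ n, (f i ^ n) v = 0) →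
      ∃ v ∈ U, v ≠ 0 ∧ ∀ i, f i v = 0 := by
  intro U
  induction hd : Module.finrank k U using Nat.strong_induction_on generalizing U with
  | h d ih =>
    intro _ hU hst hc hn
    obtain ⟨v, hv, hv0⟩ := Submodule.exists_mem_ne_zero_of_ne_bot hU
    by_cases hall : ∀ i, f i v = 0
    · exact ⟨v, hv, hv0, hall⟩
    push Not at hall
    obtain ⟨i, hi⟩ := hall
    set U' : Submodule k V := U ⊓ LinearMap.ker (f i) with hU'
    have hlt : U' < U := lt_of_le_of_ne inf_le_left fun h => hi ((h.symm.le hv).2)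
    have hne : U' ≠ ⊥ := fun h => by
      obtain ⟨n, hn⟩ := hn i v hv
      have : ∀ m, (f i ^ m) v ∈ U := fun m => by
        induction m with
        | zero => simpa using hv
        | succ m ihm => rw [pow_succ', Module.End.mul_apply]; exact hst i _ ihm
      induction n with
      | zero => exact hv0 (by simpa using hn)
      | succ n ihn =>
        rw [pow_succ', Module.End.mul_apply] at hn
        have hm : (f i ^ n) v ∈ U' := ⟨this n, hn⟩
        rw [h, Submodule.mem_bot] at hm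
        exact ihn hm
    have : FiniteDimensional k U' := Submodule.finiteDimensional_of_le inf_le_left
    obtain ⟨w, hw, hw0, hwf⟩ := ih _ (hd ▸ Submodule.finrank_lt_finrank_of_lt hlt) U' rfl hne
      (fun j u hu => ⟨hst j u hu.1, by
        rw [SetLike.mem_coe, LinearMap.mem_ker, hc i j u hu.1,
          show f i u = 0 from hu.2, map_zero]⟩)
      (fun j l u hu => hc j l u hu.1) fun j u hu => hn j u hu.1
    exact ⟨w, hw.1, hw0, hwf⟩

variable {N q : ℕ} [NeZero N]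

/-- Symbols over a field are combinations of integral ones. -/
theorem exists_castFn_combination (hp2 : p ≠ 2)
    (hell : p = 3 → ∃ t, t.Prime ∧ t ∣ N ∧ t % 3 = 2) {X : Cusp → Cusp → k} (hX : X ∈ Lev k N) :
    ∃ (n : ℕ) (c : Fin n → k) (Ψ : Fin n → Lev ℤ N),
      X = ∑ i, c i • castFn k (Ψ i : Cusp → Cusp → ℤ) := by
  have h2 : (2 : k) ≠ 0 := fun h0 => hp2 <| by
    have h0' : ((2 : ℕ) : k) = 0 := by exact_mod_cast h0
    exact (Nat.prime_dvd_prime_iff_eq Fact.out Nat.prime_two).mp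
      ((CharP.cast_eq_zero_iff k p 2).mp h0')
  obtain ⟨w, hwinv, hwsum⟩ := exists_weight (k := k) hp2 N hell
  have htop : (⟨X, hX⟩ : Lev k N) ∈ Submodule.span k (Set.range (castLev k N)) := by
    by_contra hnot
    obtain ⟨ψ, hψ, hψ0⟩ := Submodule.exists_dual_map_eq_bot_of_notMem hnot inferInstance
    have z := eq_zero_of_forall_castFn_crossSymb h2 w hwinv hwsum ψ fun γ =>
      (Submodule.eq_bot_iff _).mp hψ0 _
        (Submodule.mem_map_of_mem (Submodule.subset_span ⟨crossSymb (Gamma0 N) γ, rfl⟩))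
    rw [z, LinearMap.zero_apply] at hψ
    exact hψ rfl
  obtain ⟨n, c, g, hg⟩ := Submodule.mem_span_set'.mp htop
  choose Ψ hΨ using fun i => (g i).2
  refine ⟨n, c, Ψ, ?_⟩
  have h := congrArg Subtype.val hg
  simp only [Submodule.coe_sum, SetLike.val_smul] at h
  rw [← h]
  exact Finset.sum_congr rfl fun i _ => by rw [← hΨ i]; rfl

/-- The generators of the Hecke ring of both levels away from `S`. -/
def awayGen (N q : ℕ) (S : Finset ℕ) : Set (EndPair N q) :=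
  {x | ∃ (l : ℕ) (hl : l.Prime) (_ : l ∉ S) (h0 : ¬ l ∣ N) (h1 : ¬ l ∣ N * q),
    x = (opT hl h0, opT hl h1)}

/-- The Hecke ring of both levels away from `S`. -/
def awayAlg (N q : ℕ) (S : Finset ℕ) : Subalgebra ℤ (EndPair N q) :=
  Algebra.adjoin ℤ (awayGen N q S)

omit [NeZero N] in
theorem awayAlg_le (S : Finset ℕ) : awayAlg N q S ≤ pairAlg N q :=
  Algebra.adjoin_mono fun _ ⟨l, hl, _, h0, h1, e⟩ => ⟨l, hl, h0, h1, e⟩

instance awayAlg_isMulCommutative (N q : ℕ) (S : Finset ℕ) : IsMulCommutative (awayAlg N q S) :=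
  Algebra.isMulCommutative_adjoin ℤ fun _ hx _ hy => by
    obtain ⟨l, hl, _, h0, h1, rfl⟩ := hx
    obtain ⟨l', hl', _, h0', h1', rfl⟩ := hy
    exact Prod.ext (opT_comm hl h0 hl' h0') (opT_comm hl h1 hl' h1')

open scoped IsMulCommutative in
instance awayAlg_commRing (N q : ℕ) (S : Finset ℕ) : CommRing (awayAlg N q S) := inferInstance

/-- The action on level `N q`. -/
def awayTop (N q : ℕ) (S : Finset ℕ) : awayAlg N q S →+* Module.End ℤ (Lev ℤ (N * q)) :=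
  (RingHom.snd _ _).comp (awayAlg N q S).val.toRingHom

/-- The action on two copies of level `N`. -/
def awayLow (N q : ℕ) (S : Finset ℕ) : awayAlg N q S →+* Module.End ℤ (Lev ℤ N × Lev ℤ N) :=
  (diagFst N q).comp (awayAlg N q S).val.toRingHom

omit [NeZero N] in
theorem betaLev_awayTop (hq : q.Prime) (hqN : ¬ q ∣ N) (D : ALData N q) {S : Finset ℕ}
    (x : awayAlg N q S) (Φ : Lev ℤ (N * q)) :
    D.betaLev hq hqN (awayTop N q S x Φ) = awayLow N q S x (D.betaLev hq hqN Φ) := by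
  refine pairAlg_intertwine (RingHom.snd _ _) (diagFst N q) _ ?_ (awayAlg_le S x.2) Φ
  rintro _ ⟨l, hl, h0, h1, rfl⟩ Φ
  refine Prod.ext (Subtype.ext ?_) (Subtype.ext ?_)
  · exact (D.tOp_trOp hq hl h1 Φ.2).symm
  · show D.trOp ℤ (D.wOp ℤ (tOp ℤ l (Φ : Cusp → Cusp → ℤ))) =
      tOp ℤ l (D.trOp ℤ (D.wOp ℤ (Φ : Cusp → Cusp → ℤ)))
    rw [D.tOp_trOp hq hl h1 (D.wOp_mem hq Φ.2), D.tOp_wOp hq hl h1 Φ.2]

/-- An exact eigensymbol in the part killed by both traces. -/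
theorem exists_exact_eigen (hq : q.Prime) (D : ALData N q) (S : Finset ℕ)
    (hS : ∀ l, l.Prime → l ∣ N * q → l ∈ S) (a : ℕ → k)
    {X : Cusp → Cusp → k} (hX : X ∈ eigenPart k (1 : DirichletCharacter k (N * q)) S a)
    (hX0 : X ≠ 0) (h1 : D.trOp k X = 0) (h2 : D.trOp k (D.wOp k X) = 0) :
    ∃ Y ∈ Lev k (N * q), Y ≠ 0 ∧ D.trOp k Y = 0 ∧ D.trOp k (D.wOp k Y) = 0 ∧
      ∀ l, l.Prime → l ∉ S → tOp k l Y = a l • Y := by
  have : NeZero (N * q) := ⟨mul_ne_zero (NeZero.ne N) hq.ne_zero⟩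
  have hNq : ∀ {l}, l.Prime → l ∉ S → ¬ l ∣ N * q := fun hl hlS h => hlS (hS _ hl h)
  let ι := {l : ℕ // l.Prime ∧ l ∉ S}
  let U : Submodule k (Cusp → Cusp → k) := eigenPart k (1 : DirichletCharacter k (N * q)) S a ⊓
    (LinearMap.ker (D.trOp k) ⊓ LinearMap.ker (D.trOp k ∘ₗ D.wOp k))
  have hUle : U ≤ Lev k (N * q) := fun v hv => ((mem_eigenPart_one_iff hS).mp hv.1).1
  have : FiniteDimensional k U := Submodule.finiteDimensional_of_le hUle
  have hshift : ∀ (i : ι) v, v ∈ Lev k (N * q) → tShift k i.1 (a i.1) v ∈ Lev k (N * q) :=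
    fun i v hv => sub_mem (tOp_mem i.2.1 (hNq i.2.1 i.2.2) hv) (Submodule.smul_mem _ _ hv)
  have hcomm : ∀ (i j : ι) v, v ∈ Lev k (N * q) → tShift k i.1 (a i.1) (tShift k j.1 (a j.1) v) =
      tShift k j.1 (a j.1) (tShift k i.1 (a i.1) v) := fun i j v hv => by
    rcases eq_or_ne i j with rfl | hij
    · rfl
    simp only [tShift_apply, map_sub, map_smul, smul_sub, smul_comm (a i.1) (a j.1),
      tOp_comm i.2.1 j.2.1 (fun h => hij (Subtype.ext h)) (hNq i.2.1 i.2.2) (hNq j.2.1 j.2.2) hv]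
    abel
  have hpow : ∀ (i j : ι) (m : ℕ) v, v ∈ Lev k (N * q) →
      (tShift k i.1 (a i.1) ^ m) v ∈ Lev k (N * q) ∧
      (tShift k i.1 (a i.1) ^ m) (tShift k j.1 (a j.1) v) =
        tShift k j.1 (a j.1) ((tShift k i.1 (a i.1) ^ m) v) := by
    intro i j m v hv
    induction m generalizing v with
    | zero => exact ⟨by simpa using hv, by simp⟩
    | succ m ih =>
      simp only [pow_succ, Module.End.mul_apply]
      exact ⟨(ih _ (hshift i v hv)).1,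
        by rw [hcomm i j v hv]; exact (ih _ (hshift i v hv)).2⟩
  obtain ⟨Y, hY, hY0, hYe⟩ := exists_forall_apply_eq_zero (fun i : ι => tShift k i.1 (a i.1)) U
    ((Submodule.ne_bot_iff _).mpr ⟨X, ⟨hX, h1, h2⟩, hX0⟩)
    (fun i v hv => by
      obtain ⟨hv1, hv2, hv3⟩ := hv
      obtain ⟨hvL, hvn⟩ := (mem_eigenPart_one_iff hS).mp hv1
      rw [SetLike.mem_coe, LinearMap.mem_ker] at hv2 hv3
      rw [LinearMap.comp_apply] at hv3
      refine ⟨(mem_eigenPart_one_iff hS).mpr ⟨hshift i v hvL, fun l hl hlS => ?_⟩, ?_, ?_⟩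
      · obtain ⟨j, hj⟩ := hvn l hl hlS
        exact ⟨j, by rw [(hpow ⟨l, hl, hlS⟩ i j v hvL).2, hj, map_zero]⟩
      · rw [SetLike.mem_coe, LinearMap.mem_ker, tShift_apply, map_sub, map_smul,
          ← D.tOp_trOp hq i.2.1 (hNq i.2.1 i.2.2) hvL, hv2, map_zero, smul_zero, sub_zero]
      · rw [SetLike.mem_coe, LinearMap.mem_ker, LinearMap.comp_apply, tShift_apply, map_sub,
          map_smul, ← D.tOp_wOp hq i.2.1 (hNq i.2.1 i.2.2) hvL, map_sub, map_smul,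
          ← D.tOp_trOp hq i.2.1 (hNq i.2.1 i.2.2) (D.wOp_mem hq hvL), hv3, map_zero, smul_zero,
          sub_zero])
    (fun i j v hv => hcomm i j v (hUle hv))
    (fun i v hv => ((mem_eigenPart_one_iff hS).mp hv.1).2 i.1 i.2.1 i.2.2)
  exact ⟨Y, hUle hY, hY0, hY.2.1, hY.2.2, fun l hl hlS => sub_eq_zero.mp (hYe ⟨l, hl, hlS⟩)⟩

/-- The character of the Hecke ring on an eigensymbol modulo `p`. -/
theorem exists_awayChar (hp2 : p ≠ 2) (hq : q.Prime)
    (hell : p = 3 → ∃ t, t.Prime ∧ t ∣ N ∧ t % 3 = 2) (S : Finset ℕ) (a : ℕ → k)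
    {Y : Cusp → Cusp → k} (hY : Y ∈ Lev k (N * q)) (hY0 : Y ≠ 0)
    (hYe : ∀ l, l.Prime → l ∉ S → tOp k l Y = a l • Y) :
    ∃ (θ : awayAlg N q S →+* k) (n : ℕ) (c : Fin n → k) (Ψ : Fin n → Lev ℤ (N * q)),
      Y = ∑ i, c i • castFn k (Ψ i : Cusp → Cusp → ℤ) ∧
      (∀ x, ∑ i, c i • castFn k ((awayTop N q S x (Ψ i) : Lev ℤ (N * q)) : Cusp → Cusp → ℤ) =
        θ x • Y) ∧
      ∀ (l : ℕ) (hl : l.Prime) (hlS : l ∉ S) (h0 : ¬ l ∣ N) (h1 : ¬ l ∣ N * q),
        θ ⟨(opT hl h0, opT hl h1), Algebra.subset_adjoin ⟨l, hl, hlS, h0, h1, rfl⟩⟩ = a l := by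
  have : NeZero (N * q) := ⟨mul_ne_zero (NeZero.ne N) hq.ne_zero⟩
  obtain ⟨n, c, Ψ, hrep⟩ := exists_castFn_combination (p := p) hp2
    (fun h => (hell h).imp fun t ht => ⟨ht.1, ht.2.1.mul_right q, ht.2.2⟩) hY
  have hact : ∀ x ∈ awayAlg N q S,
      ∃ (F : Module.End k (Cusp → Cusp → k)) (e : k), (∀ Φ : Lev ℤ (N * q),
        castFn k (x.2 Φ : Cusp → Cusp → ℤ) = F (castFn k (Φ : Cusp → Cusp → ℤ))) ∧
        F Y = e • Y := by
    intro x hx
    induction hx using Algebra.adjoin_induction with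
    | mem x hx =>
      obtain ⟨l, hl, hlS, h0, h1, rfl⟩ := hx
      exact ⟨tOp k l, a l, fun Φ => castFn_tOp l _, hYe l hl hlS⟩
    | algebraMap r =>
      refine ⟨(r : k) • LinearMap.id, (r : k), fun Φ => ?_, rfl⟩
      rw [Prod.algebraMap_apply, Module.algebraMap_end_apply, Submodule.coe_smul, castFn_zsmul]
      rfl
    | add x y _ _ hx hy =>
      obtain ⟨F, e, hF, hFe⟩ := hx
      obtain ⟨G, f, hG, hGf⟩ := hy
      refine ⟨F + G, e + f, fun Φ => ?_, by rw [LinearMap.add_apply, hFe, hGf, add_smul]⟩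
      rw [Prod.snd_add, LinearMap.add_apply, Submodule.coe_add, map_add, hF, hG]; rfl
    | mul x y _ _ hx hy =>
      obtain ⟨F, e, hF, hFe⟩ := hx
      obtain ⟨G, f, hG, hGf⟩ := hy
      refine ⟨F * G, f * e, fun Φ => ?_, by
        rw [Module.End.mul_apply, hGf, map_smul, hFe, smul_smul]⟩
      rw [Prod.snd_mul, Module.End.mul_apply, Module.End.mul_apply, hF, hG]
  choose F e hF hFe using fun x : awayAlg N q S => hact x.1 x.2
  let val : awayAlg N q S → (Cusp → Cusp → k) := fun x =>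
    ∑ i, c i • castFn k ((awayTop N q S x (Ψ i) : Lev ℤ (N * q)) : Cusp → Cusp → ℤ)
  have hvalF : ∀ x y, val (x * y) = F x (val y) := fun x y => by
    simp only [val, map_mul, Module.End.mul_apply, map_sum, map_smul]
    exact Finset.sum_congr rfl fun i _ => congrArg _ (hF x _)
  have hone : val 1 = Y := by
    conv_rhs => rw [hrep]
    simp [val]
  have hval : ∀ x, val x = e x • Y := fun x => by
    rw [← hFe x]
    conv_lhs => rw [← mul_one x]
    rw [hvalF, hone]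
  have huniq : ∀ y z : k, y • Y = z • Y → y = z := fun y z h => smul_left_injective k hY0 h
  have hadd : ∀ x y, val (x + y) = val x + val y := fun x y => by
    simp [val, smul_add, Finset.sum_add_distrib]
  let θ : awayAlg N q S →+* k :=
    { toFun := e
      map_one' := huniq _ _ (by rw [← hval, hone, one_smul])
      map_mul' := fun x y => huniq _ _ (by
        rw [← hval, hvalF, hval, map_smul, hFe, smul_smul, mul_comm])
      map_zero' := huniq _ _ (by rw [← hval, zero_smul]; simp [val])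
      map_add' := fun x y => huniq _ _ (by rw [← hval, hadd, hval, hval, add_smul]) }
  refine ⟨θ, n, c, Ψ, hrep, hval, fun l hl hlS h0 h1 => huniq _ _ ?_⟩
  show e _ • Y = _
  rw [← hval, ← hYe l hl hlS]
  conv_rhs => rw [hrep, map_sum]
  simp only [val, map_smul]
  exact Finset.sum_congr rfl fun i _ => congrArg _ (castFn_tOp l _)

/-- The cokernel of the traces is killed by an element outside the kernel of the character. -/
theorem exists_coker_kill [Finite k] (hp2 : p ≠ 2) (hq : q.Prime) (hqN : ¬ q ∣ N) (D : ALData N q)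
    (S : Finset ℕ) (a : ℕ → k) (θ : awayAlg N q S →+* k)
    (hθ : ∀ (l : ℕ) (hl : l.Prime) (hlS : l ∉ S) (h0 : ¬ l ∣ N) (h1 : ¬ l ∣ N * q),
      θ ⟨(opT hl h0, opT hl h1), Algebra.subset_adjoin ⟨l, hl, hlS, h0, h1, rfl⟩⟩ = a l)
    {ℓ : ℕ} (hℓ : ℓ.Prime) (hℓS : ℓ ∉ S) (hℓN : ¬ ℓ ∣ N) (hℓNq : ¬ ℓ ∣ N * q) (hℓp : ℓ ≠ p)
    (hℓ1 : ℓ ≡ 1 [MOD N]) (hℓa : a ℓ ≠ 1 + ℓ) :
    ∃ s, θ s ≠ 0 ∧ ∀ y, ∃ x, D.betaLev hq hqN x = awayLow N q S s y := by
  have : Fintype k := Fintype.ofFinite k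
  have : (RingHom.ker θ).IsPrime := RingHom.ker_isPrime θ
  set t : awayAlg N q S := ⟨(opT hℓ hℓN, opT hℓ hℓNq),
    Algebra.subset_adjoin ⟨ℓ, hℓ, hℓS, hℓN, hℓNq, rfl⟩⟩
  set E : awayAlg N q S := t - ((1 + ℓ : ℕ) : awayAlg N q S) with hEdef
  have hE : θ E ≠ 0 := by
    rw [hEdef, map_sub, map_natCast, hθ ℓ hℓ hℓS hℓN hℓNq, Nat.cast_add, Nat.cast_one]
    exact sub_ne_zero.mpr hℓa
  have hE1 : (E : EndPair N q).1 = opT hℓ hℓN - ((1 + ℓ : ℕ) : Module.End ℤ (Lev ℤ N)) := by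
    rw [hEdef, Subalgebra.coe_sub, Prod.fst_sub]
    rfl
  obtain ⟨s, hs, hcok⟩ := exists_not_mem_smul_range (awayTop N q S) (awayLow N q S)
    (D.betaLev hq hqN) (betaLev_awayTop hq hqN D) (RingHom.ker θ) (p := p)
    (by rw [RingHom.mem_ker, map_natCast, CharP.cast_eq_zero k p]) fun φ hφβ hφm => by
    have hsplit : ∀ u v, φ (u, v) =
        φ.comp (AddMonoidHom.inl _ _) u + φ.comp (AddMonoidHom.inr _ _) v := fun u v => by
      show φ (u, v) = φ (u, 0) + φ (0, v)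
      rw [← map_add, Prod.mk_add_mk, add_zero, zero_add]
    have hsq := functional_eisenstein_sq hp2 hq (NeZero.pos N) hqN D
      (φ.comp (AddMonoidHom.inl _ _)) (φ.comp (AddMonoidHom.inr _ _))
      (fun Φ hΦ => (hsplit _ _).symm.trans (hφβ ⟨Φ, hΦ⟩)) hℓ hℓN hℓNq hℓp hℓ1
    have hzero : ∀ w, φ (awayLow N q S (E * E) w) = 0 := fun w => by
      rw [show awayLow N q S (E * E) w =
        (((E : EndPair N q).1 * (E : EndPair N q).1) w.1,
          ((E : EndPair N q).1 * (E : EndPair N q).1) w.2) from rfl, hE1, ← pow_two, hsplit,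
        (hsq _).1, (hsq _).2, add_zero]
    have hc : 0 < Fintype.card k - 1 := Nat.sub_pos_of_lt Fintype.one_lt_card
    obtain ⟨r, hr⟩ : ∃ r, Fintype.card k - 1 = r + 1 := ⟨_, (Nat.succ_pred_eq_of_pos hc).symm⟩
    have hz : 1 - (E * E) * (E * E) ^ r ∈ RingHom.ker θ := by
      rw [← pow_succ', ← hr, RingHom.mem_ker, map_sub, map_one, map_pow,
        FiniteField.pow_card_sub_one_eq_one _ (by rw [map_mul]; exact mul_ne_zero hE hE), sub_self]
    refine AddMonoidHom.ext fun y => ?_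
    have h := hφm _ hz y
    rw [map_sub, map_one, LinearMap.sub_apply, Module.End.one_apply, map_sub, map_mul,
      Module.End.mul_apply, hzero, sub_zero] at h
    exact h
  exact ⟨s, hs, hcok⟩

omit [NeZero N] in
/-- Elements outside the kernel of the character act on integral symbols killed by both traces. -/
theorem exists_ker_beta_apply_ne_zero (_hp2 : p ≠ 2) (hq : q.Prime) (hqN : ¬ q ∣ N) (D : ALData N q)
    {S : Finset ℕ} {Y : Cusp → Cusp → k} (hY0 : Y ≠ 0) (hY1 : D.trOp k Y = 0)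
    (hY2 : D.trOp k (D.wOp k Y) = 0) (θ : awayAlg N q S →+* k) {n : ℕ} (c : Fin n → k)
    (Ψ : Fin n → Lev ℤ (N * q)) (hrep : Y = ∑ i, c i • castFn k (Ψ i : Cusp → Cusp → ℤ))
    (hval : ∀ x, ∑ i, c i • castFn k ((awayTop N q S x (Ψ i) : Lev ℤ (N * q)) :
      Cusp → Cusp → ℤ) = θ x • Y)
    {s₁ : awayAlg N q S} (hs₁ : θ s₁ ≠ 0)
    (hcok : ∀ y, ∃ x, D.betaLev hq hqN x = awayLow N q S s₁ y)
    {s : awayAlg N q S} (hs : θ s ≠ 0) :
    ∃ Φ : Lev ℤ (N * q), D.betaLev hq hqN Φ = 0 ∧ awayTop N q S s Φ ≠ 0 := by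
  by_contra hcon
  push Not at hcon
  refine smul_ne_zero (mul_ne_zero hs hs₁) hY0 ?_
  rw [← map_mul, ← hval]
  funext x y
  simp only [Finset.sum_apply, Pi.smul_apply, castFn_apply, smul_eq_mul, Pi.zero_apply]
  let fβ : Lev ℤ (N * q) →+ ((Cusp × Cusp) ⊕ (Cusp × Cusp) → ℤ) :=
    { toFun := fun Φ => Sum.elim
        (fun z => ((D.betaLev hq hqN Φ).1 : Cusp → Cusp → ℤ) z.1 z.2)
        (fun z => ((D.betaLev hq hqN Φ).2 : Cusp → Cusp → ℤ) z.1 z.2)
      map_zero' := by funext z; rcases z with z | z <;> simp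
      map_add' := fun Φ Φ' => by funext z; rcases z with z | z <;> simp }
  let fs : Lev ℤ (N * q) →+ (Cusp × Cusp → ℤ) :=
    { toFun := fun Φ z => (awayTop N q S (s * s₁) Φ : Cusp → Cusp → ℤ) z.1 z.2
      map_zero' := by funext z; simp
      map_add' := fun Φ Φ' => by funext z; simp }
  refine sum_smul_intCast_eq_zero (p := p) c Ψ fβ fs (fun Φ hΦ => ?_) ?_ (x, y)
  · have hd : ∀ Θ : Lev ℤ N, (∀ u v, (p : ℤ) ∣ (Θ : Cusp → Cusp → ℤ) u v) →
        ∃ Θ' : Lev ℤ N, Θ = (p : ℤ) • Θ' := fun Θ hΘ =>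
      exists_eq_smul_of_castFn_eq_zero (Fact.out : p.Prime).ne_zero Θ (funext fun u =>
        funext fun v => (ZMod.intCast_zmod_eq_zero_iff_dvd _ _).mpr (hΘ u v))
    obtain ⟨z₁, hz₁⟩ := hd (D.betaLev hq hqN Φ).1 fun u v => hΦ (Sum.inl (u, v))
    obtain ⟨z₂, hz₂⟩ := hd (D.betaLev hq hqN Φ).2 fun u v => hΦ (Sum.inr (u, v))
    obtain ⟨x', hx'⟩ := hcok (z₁, z₂)
    have hk0 : D.betaLev hq hqN (awayTop N q S s₁ Φ - (p : ℤ) • x') = 0 := by
      rw [map_sub, map_zsmul, hx', betaLev_awayTop, ← map_zsmul, ← map_sub,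
        show D.betaLev hq hqN Φ - (p : ℤ) • (z₁, z₂) = 0 from sub_eq_zero.mpr (Prod.ext hz₁ hz₂),
        map_zero]
    have h0 := hcon _ hk0
    rw [map_sub, map_zsmul, sub_eq_zero, ← Module.End.mul_apply, ← map_mul] at h0
    intro ω
    show (p : ℤ) ∣ (awayTop N q S (s * s₁) Φ : Cusp → Cusp → ℤ) ω.1 ω.2
    rw [h0]
    exact ⟨_, rfl⟩
  · rintro (z | z)
    · have h := congrFun (congrFun hY1 z.1) z.2
      rw [hrep, map_sum] at h
      simp only [map_smul, ← castFn_trOp, Finset.sum_apply, Pi.smul_apply, castFn_apply,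
        smul_eq_mul, Pi.zero_apply] at h
      exact h
    · have h := congrFun (congrFun hY2 z.1) z.2
      rw [hrep, map_sum, map_sum] at h
      simp only [map_smul, ← castFn_wOp, ← castFn_trOp, Finset.sum_apply, Pi.smul_apply,
        castFn_apply, smul_eq_mul, Pi.zero_apply] at h
      exact h

/-- A complex eigensymbol killed by both traces, from a prime of the Hecke ring in its support. -/
theorem exists_complex_eigen (hq : q.Prime) (hqN : ¬ q ∣ N) (D : ALData N q) (S : Finset ℕ)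
    (m : Ideal (awayAlg N q S)) [m.IsPrime]
    (hfaith : ∀ s ∉ m, ∃ Φ : Lev ℤ (N * q), D.betaLev hq hqN Φ = 0 ∧ awayTop N q S s Φ ≠ 0) :
    ∃ (χ : awayAlg N q S →+* ℂ) (Φ : Cusp → Cusp → ℂ), Φ ≠ 0 ∧ Φ ∈ Lev ℂ (N * q) ∧
      D.trOp ℂ Φ = 0 ∧ D.trOp ℂ (D.wOp ℂ Φ) = 0 ∧
      (∀ (l : ℕ) (hl : l.Prime) (hlS : l ∉ S) (h0 : ¬ l ∣ N) (h1 : ¬ l ∣ N * q),
        tOp ℂ l Φ =
          χ ⟨(opT hl h0, opT hl h1), Algebra.subset_adjoin ⟨l, hl, hlS, h0, h1, rfl⟩⟩ • Φ) ∧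
      RingHom.ker χ ≤ m := by
  have : NeZero (N * q) := ⟨mul_ne_zero (NeZero.ne N) hq.ne_zero⟩
  obtain ⟨χ, Φ, h0, hmem, ht, htw, hT, hker⟩ := exists_complex_eigen_of_faithful hq hqN D
    (awayTop N q S) (fun x => exists_lift_pairAlg (R := ℂ) (awayAlg_le S x.2))
    (fun a Φ h => by rw [betaLev_awayTop, h, map_zero]) m hfaith
  exact ⟨χ, Φ, h0, hmem, ht, htw,
    fun l hl _ _ h1 => hT _ (tOp ℂ l) fun Ψ => (castFn_tOp l _).symm, hker⟩

/-- **Eigensymbols modulo `p` killed by both traces lift to newforms.** -/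
theorem exists_newform_of_ker [Finite k] (hp2 : p ≠ 2) (hq : q.Prime) (hqN : ¬ q ∣ N)
    (D : ALData N q) (hell : p = 3 → ∃ t, t.Prime ∧ t ∣ N ∧ t % 3 = 2)
    (S : Finset ℕ) (hS : ∀ l, l.Prime → l ∣ N * q * p → l ∈ S) (a : ℕ → k)
    (hne : ∃ ℓ, ℓ.Prime ∧ ℓ ∉ S ∧ ℓ % (N * q) = 1 % (N * q) ∧ a ℓ ≠ 1 + ℓ)
    {X : Cusp → Cusp → k} (hX : X ∈ eigenPart k (1 : DirichletCharacter k (N * q)) S a)
    (hX0 : X ≠ 0) (h1 : D.trOp k X = 0) (h2 : D.trOp k (D.wOp k X) = 0) :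
    ∃ (M : ℕ) (g : CuspForm (Gamma0 M) 2) (ψ : integralClosure ℤ ℂ →+* AlgebraicClosure k),
      M ∣ N * q ∧ q ∣ M ∧ g.IsNewform ∧ ModularFormClass.qCoeff g q ^ 2 = 1 ∧
      ∀ l, l.Prime → l ∉ S → ∃ b : integralClosure ℤ ℂ,
        (b : ℂ) = ModularFormClass.qCoeff g l ∧ ψ b = algebraMap k (AlgebraicClosure k) (a l) := by
  classical
  obtain ⟨ℓ₀, hℓ₀, hℓ₀S, hℓ₀1, hℓ₀a⟩ := hne
  have : NeZero (N * q) := ⟨mul_ne_zero (NeZero.ne N) hq.ne_zero⟩
  have hSNq : ∀ l, l.Prime → l ∣ N * q → l ∈ S := fun l hl h => hS l hl (h.mul_right p)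
  have hNq : ∀ {l}, l.Prime → l ∉ S → ¬ l ∣ N * q := fun hl hlS h => hlS (hSNq _ hl h)
  have hNl : ∀ {l}, l.Prime → l ∉ S → ¬ l ∣ N := fun hl hlS h => hNq hl hlS (h.mul_right q)
  obtain ⟨Y, hYL, hY0, hY1, hY2, hYe⟩ := exists_exact_eigen hq D S hSNq a hX hX0 h1 h2
  obtain ⟨θ, n, c, Ψ, hrep, hval, hθ⟩ := exists_awayChar hp2 hq hell S a hYL hY0 hYe
  obtain ⟨s₁, hs₁, hcok⟩ := exists_coker_kill hp2 hq hqN D S a θ hθ hℓ₀ hℓ₀S (hNl hℓ₀ hℓ₀S)
    (hNq hℓ₀ hℓ₀S) (fun h => hℓ₀S (hS ℓ₀ hℓ₀ (h ▸ dvd_mul_left ℓ₀ _)))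
    (Nat.ModEq.of_dvd (dvd_mul_right N q) hℓ₀1) hℓ₀a
  have : (RingHom.ker θ).IsPrime := RingHom.ker_isPrime θ
  obtain ⟨χ, Φ, hΦ0, hΦ, htr, htrw, hT, hker⟩ := exists_complex_eigen hq hqN D S (RingHom.ker θ)
    fun s hs => exists_ker_beta_apply_ne_zero hp2 hq hqN D hY0 hY1 hY2 θ c Ψ hrep hval hs₁ hcok hs
  let g₀ : ∀ l : ℕ, l.Prime → l ∉ S → awayAlg N q S := fun l hl hlS =>
    ⟨(opT hl (hNl hl hlS), opT hl (hNq hl hlS)),
      Algebra.subset_adjoin ⟨l, hl, hlS, _, _, rfl⟩⟩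
  -- an eigenvector of `U`
  have hqL : q ∣ N * q := dvd_mul_left q N
  obtain ⟨ε, Φ', hε, hΦ'0, hΦ'L, hΦ'1, hΦ'2, hU, hT'⟩ : ∃ (ε : ℂ) (Φ' : Cusp → Cusp → ℂ),
      ε ^ 2 = 1 ∧ Φ' ≠ 0 ∧ Φ' ∈ Lev ℂ (N * q) ∧ D.trOp ℂ Φ' = 0 ∧
      D.trOp ℂ (D.wOp ℂ Φ') = 0 ∧ uOp ℂ q Φ' = ε • Φ' ∧
      ∀ (l : ℕ) (hl : l.Prime) (hlS : l ∉ S), tOp ℂ l Φ' = χ (g₀ l hl hlS) • Φ' := by
    have hUw : uOp ℂ q Φ = -D.wOp ℂ Φ := by
      have h3 := htrw
      simp only [ALData.trOp, LinearMap.add_apply, LinearMap.id_apply, LinearMap.comp_apply,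
        D.wOp_wOp hq hΦ] at h3
      exact eq_neg_of_add_eq_zero_right h3
    by_cases h : Φ + uOp ℂ q Φ = 0
    · exact ⟨-1, Φ, by norm_num, hΦ0, hΦ, htr, htrw,
        by rw [neg_one_smul]; exact eq_neg_of_add_eq_zero_right h,
        fun l hl hlS => hT l hl hlS _ _⟩
    · refine ⟨1, Φ + uOp ℂ q Φ, one_pow 2, h, add_mem hΦ (uOp_mem hq hqL hΦ), ?_, ?_, ?_,
        fun l hl hlS => ?_⟩
      · rw [map_add, htr, hUw, map_neg, htrw, neg_zero, add_zero]
      · rw [map_add, map_add, htrw, hUw, map_neg, D.wOp_wOp hq hΦ, map_neg, htr, neg_zero,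
          add_zero]
      · rw [map_add, D.uOp_uOp_of_ker hq hΦ htr htrw, one_smul, add_comm]
      · rw [map_add, tOp_uOp_comm hl hq (hNq hl hlS) hqL hΦ, hT l hl hlS (hNl hl hlS) (hNq hl hlS),
          map_smul, smul_add]
  -- congruences
  let χZ : awayAlg N q S →+* integralClosure ℤ ℂ := χ.codRestrict _ fun x =>
    ((isIntegral_algHom_iff (awayAlg N q S).val Subtype.val_injective).mp
      (IsIntegral.pair (Algebra.IsIntegral.isIntegral (R := ℤ) (x : EndPair N q).1)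
        (Algebra.IsIntegral.isIntegral (R := ℤ) (x : EndPair N q).2))).map χ.toIntAlgHom
  obtain ⟨ψ, hψ⟩ := exists_reduction χZ ((algebraMap k (AlgebraicClosure k)).comp θ) fun x hx => by
    have h : χ x = 0 := congrArg Subtype.val (RingHom.mem_ker.mp hx)
    rw [RingHom.mem_ker, RingHom.comp_apply, RingHom.mem_ker.mp (hker h), map_zero]
  let b : ℕ → ℂ := fun l => if h : l.Prime ∧ l ∉ S then χ (g₀ l h.1 h.2) else 0
  have hb : ∀ l (hl : l.Prime) (hlS : l ∉ S), b l = χ (g₀ l hl hlS) := fun l hl hlS =>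
    dif_pos ⟨hl, hlS⟩
  obtain ⟨M, g, hM, hqM, hg, hgq, hgl⟩ := exists_newform_of_ker_trace hq hqN D hΦ'L hΦ'0 hΦ'1
    hΦ'2 S hSNq b ε (fun l hl hlS => by rw [hb l hl hlS]; exact hT' l hl hlS) hU
    ⟨ℓ₀, hℓ₀, hℓ₀S, hℓ₀1, fun hb0 => by
      rw [hb ℓ₀ hℓ₀ hℓ₀S] at hb0
      have e0 : χZ (g₀ ℓ₀ hℓ₀ hℓ₀S) = 1 + (ℓ₀ : integralClosure ℤ ℂ) :=
        Subtype.ext (by push_cast; exact hb0)
      have h := hψ (g₀ ℓ₀ hℓ₀ hℓ₀S)
      rw [e0, map_add, map_one, map_natCast, RingHom.comp_apply, hθ ℓ₀ hℓ₀ hℓ₀S] at h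
      exact hℓ₀a ((algebraMap k (AlgebraicClosure k)).injective (by
        rw [map_add, map_one, map_natCast, ← h]))⟩
  refine ⟨M, g, ψ, hM, hqM, hg, by rw [hgq]; exact hε, fun l hl hlS =>
    ⟨χZ (g₀ l hl hlS), ?_, by rw [hψ, RingHom.comp_apply, hθ l hl hlS]⟩⟩
  rw [hgl l hl hlS, hb l hl hlS]
  rfl

end FLTAgent.ModularityLifting
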