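import Fermat.Agent.ModularityLifting.Degeneracy.Bases
import Fermat.Agent.ModularityLifting.Degeneracy.Coker

/-!
# The degeneracy data between two levels

Everything the patching engine asks of the maps between the levels `N` and `N q`, from the action
of the trace algebra on bases of the two eigenparts.
-/

set_option autoImplicit false
set_option linter.unusedSectionVars false

noncomputable section

namespace FLTAgent.Degeneracy

open FLTAgent.LevelRaising FLTAgent.ModularityLifting Matrix IsLocalRing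

variable {O : Type} [CommRing O] [IsDomain O] [IsNoetherianRing O] {C : Type} [CommRing C]
  [IsDomain C] [Algebra O C] [Module.Finite O C] {X : Type} [Fintype X]
  (F : Subalgebra O (X → C))
  {A : Type} [CommRing A] [IsLocalRing A] [Algebra O A] {N q : ℕ} (D : ALData N q)
  (δ : DirichletCharacter A N) (hq : q.Prime) (hqN : ¬ q ∣ N) (c : Aˣ)
  (S : Finset ℕ) (hS : ∀ l, l.Prime → l ∣ N * q → l ∈ S) (a : ℕ → A)
  {m n : Type} [Fintype m] [DecidableEq m] [Fintype n] [DecidableEq n]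
  (b₀ : Module.Basis m A (eigenPart A δ S a)) (b₁ : Module.Basis n A (eigenPart A (upChar q δ) S a))
  (act₀ : F →ₐ[O] Matrix m m A) (act₁ : F →ₐ[O] Matrix n n A)

/-- Each generator acts at both levels by a scalar, or by one multiple of the same Hecke
operator. -/
def ActsByHecke (G : Set F) : Prop :=
  ∀ g ∈ G, ∃ x : A, (act₀ g = x • 1 ∧ act₁ g = x • 1) ∨
    ∃ (l : ℕ) (hl : l.Prime) (hlN : ¬ l ∣ N * q),
      act₀ g = x • LinearMap.toMatrix b₀ b₀ (tE δ S hS a hl fun h => hlN (h.mul_right q)) ∧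
      act₁ g = x • LinearMap.toMatrix b₁ b₁ (tE' δ S hS a hl hlN)

variable {F δ S a} {G : Set F} (hG : Algebra.adjoin O G = ⊤)
  (hgen : ActsByHecke F δ S hS a b₀ b₁ act₀ act₁ G)

include hG hgen in
theorem intertwines (s : F) :
    act₁ s * jMat δ S hS a b₀ b₁ = jMat δ S hS a b₀ b₁ * act₀ s ∧
      wMat D δ hq c S hS a b₁ * act₁ s = act₁ s * wMat D δ hq c S hS a b₁ ∧
      trMat D δ hq hqN S hS a b₀ b₁ * act₁ s = act₀ s * trMat D δ hq hqN S hS a b₀ b₁ := by
  refine ⟨intertwine_of_adjoin act₁ act₀ _ hG (fun g hg => ?_) s,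
    (intertwine_of_adjoin act₁ act₁ _ hG (fun g hg => ?_) s).symm,
    (intertwine_of_adjoin act₀ act₁ _ hG (fun g hg => ?_) s).symm⟩
  all_goals obtain ⟨x, ⟨h0, h1⟩ | ⟨l, hl, hlN, h0, h1⟩⟩ := hgen g hg
  · rw [h0, h1]; simp
  · rw [h0, h1, Matrix.smul_mul, Matrix.mul_smul, (tMat_comm D δ hq hqN c S hS a b₀ b₁ hl hlN).1]
  · rw [h1]; simp
  · rw [h1, Matrix.smul_mul, Matrix.mul_smul, (tMat_comm D δ hq hqN c S hS a b₀ b₁ hl hlN).2.1]
  · rw [h0, h1]; simp
  · rw [h0, h1, Matrix.smul_mul, Matrix.mul_smul, (tMat_comm D δ hq hqN c S hS a b₀ b₁ hl hlN).2.2]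

variable (hc : (c : A) * c = δ (q : ZMod N)) {e₀ : F}
  (he₀ : act₀ e₀ = (↑c⁻¹ : A) • LinearMap.toMatrix b₀ b₀ (tE δ S hS a hq hqN))

/-- `α`. -/
def αMat : Matrix n (Fin 2 × m) A := alphaMat (jMat δ S hS a b₀ b₁) (wMat D δ hq c S hS a b₁)

/-- `β`. -/
def βMat : Matrix (Fin 2 × m) n A :=
  betaMat (wMat D δ hq c S hS a b₁) (trMat D δ hq hqN S hS a b₀ b₁)

/-- `E`. -/
def EMat (ε : O) : Matrix n n A :=
  eMat (jMat δ S hS a b₀ b₁) (wMat D δ hq c S hS a b₁) (trMat D δ hq hqN S hS a b₀ b₁)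
    (algebraMap O A ε)

/-- The points new at `q` of sign `ε`. -/
def newPts (ε : O) (P₁ : Set X) : Set X :=
  newPoints F (jMat δ S hS a b₀ b₁) (wMat D δ hq c S hS a b₁) (trMat D δ hq hqN S hS a b₀ b₁)
    (algebraMap O A ε) act₁ P₁

theorem newPts_subset (ε : O) (P₁ : Set X) :
    newPts D hq hqN c hS b₀ b₁ act₁ ε P₁ ⊆ P₁ := fun _ h => h.1

include hG hgen hqN in
theorem αMat_comm (t : F) : act₁ t * αMat D hq c hS b₀ b₁ =
    αMat D hq c hS b₀ b₁ * Matrix.of fun x y : Fin 2 × m =>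
      if x.1 = y.1 then act₀ t x.2 y.2 else 0 :=
  alpha_comm (intertwines D hq hqN c hS b₀ b₁ act₀ act₁ hG hgen t).1
    (intertwines D hq hqN c hS b₀ b₁ act₀ act₁ hG hgen t).2.1

include hG hgen in
theorem βMat_comm (t : F) : βMat D hq hqN c hS b₀ b₁ * act₁ t =
    (Matrix.of fun x y : Fin 2 × m => if x.1 = y.1 then act₀ t x.2 y.2 else 0) *
      βMat D hq hqN c hS b₀ b₁ :=
  beta_comm (intertwines D hq hqN c hS b₀ b₁ act₀ act₁ hG hgen t).2.1
    (intertwines D hq hqN c hS b₀ b₁ act₀ act₁ hG hgen t).2.2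

include hG hgen in
theorem EMat_comm (ε : O) (t : F) :
    EMat D hq hqN c hS b₀ b₁ ε * act₁ t = act₁ t * EMat D hq hqN c hS b₀ b₁ ε :=
  e_comm (intertwines D hq hqN c hS b₀ b₁ act₀ act₁ hG hgen t).1
    (intertwines D hq hqN c hS b₀ b₁ act₀ act₁ hG hgen t).2.1
    (intertwines D hq hqN c hS b₀ b₁ act₀ act₁ hG hgen t).2.2 _

include hc he₀ in
theorem βMat_αMat : βMat D hq hqN c hS b₀ b₁ * αMat D hq c hS b₀ b₁ =
    Matrix.of fun x y : Fin 2 × m =>
      if x.1 = y.1 then (if x.2 = y.2 then (q : A) + 1 else 0) else act₀ e₀ x.2 y.2 :=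
  beta_alpha (he₀ ▸ valid D δ hq hqN c S hS a b₀ b₁ hc)

include hc he₀ in
theorem βMat_EMat (ε : O) : βMat D hq hqN c hS b₀ b₁ * EMat D hq hqN c hS b₀ b₁ ε =
    (Matrix.of fun x y : Fin 2 × m =>
      (if x = y then 1 else 0) + algebraMap O A ε *
        (if x.1 = 0 ∧ y.1 = 1 then (if x.2 = y.2 then (q : A) else 0)
        else if x.1 = 1 ∧ y.1 = 0 then (if x.2 = y.2 then -1 else 0)
        else if x.1 = 1 ∧ y.1 = 1 then act₀ e₀ x.2 y.2
        else 0)) * βMat D hq hqN c hS b₀ b₁ :=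
  beta_e (he₀ ▸ valid D δ hq hqN c S hS a b₀ b₁ hc) _

section Coker

variable {P₁ : Set X}
  (hinv : ∃ (x : O) (T' : Matrix m m A), x ≠ 0 ∧ ((q : A) + 1) ^ 2 • T' -
    ((↑c⁻¹ : A) • LinearMap.toMatrix b₀ b₀ (tE δ S hS a hq hqN)) *
      (((↑c⁻¹ : A) • LinearMap.toMatrix b₀ b₀ (tE δ S hS a hq hqN)) * T') =
        algebraMap O A x • (1 : Matrix m m A))
  (hvan₁ : ∀ t : F, (∀ θ ∈ P₁, (t : X → C) θ = 0) → act₁ t = 0)
  (hreg : ∀ x : O, x ≠ 0 → ∀ y : A, x • y = 0 → y = 0)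
  {L : Matrix (Fin 2 × m) n A} (hL : L * αMat D hq c hS b₀ b₁ = 1)
  {ε : O} (hε : ε = 1 ∨ ε = -1)

include hε in
theorem algebraMap_sign_mul : algebraMap O A ε * algebraMap O A ε = 1 := by
  rcases hε with rfl | rfl <;> simp

include hG hgen hc hinv hvan₁ hreg hL hε in
theorem αMat_coker (t : F)
    (ht : ∀ θ ∈ newPts D hq hqN c hS b₀ b₁ act₁ ε P₁, (t : X → C) θ = 0) :
    (αMat D hq c hS b₀ b₁ * L - 1) * act₁ t * EMat D hq hqN c hS b₀ b₁ ε = 0 :=
  coker_eq_zero F act₀ act₁ (valid D δ hq hqN c S hS a b₀ b₁ hc) hL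
    (algebraMap_sign_mul hε)
    (fun s => (intertwines D hq hqN c hS b₀ b₁ act₀ act₁ hG hgen s).1)
    (fun s => (intertwines D hq hqN c hS b₀ b₁ act₀ act₁ hG hgen s).2.1)
    hinv hreg hvan₁ t ht

include hG hgen hc hinv hreg hL hε in
theorem αMat_coker_mem (Z : Set X) (I : Ideal A)
    (hvanI : ∀ t : F, (∀ θ ∈ P₁, θ ∈ Z → (t : X → C) θ = 0) → ∀ i j, act₁ t i j ∈ I)
    (hI : ∀ x : O, x ≠ 0 → ∀ y : A, x • y ∈ I → y ∈ I) (t : F)
    (ht : ∀ θ ∈ newPts D hq hqN c hS b₀ b₁ act₁ ε P₁, θ ∈ Z → (t : X → C) θ = 0) (i j : n) :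
    ((αMat D hq c hS b₀ b₁ * L - 1) * act₁ t * EMat D hq hqN c hS b₀ b₁ ε :
      Matrix n n A) i j ∈ I :=
  coker_mem F act₀ act₁ (valid D δ hq hqN c S hS a b₀ b₁ hc) hL
    (algebraMap_sign_mul hε)
    (fun s => (intertwines D hq hqN c hS b₀ b₁ act₀ act₁ hG hgen s).1)
    (fun s => (intertwines D hq hqN c hS b₀ b₁ act₀ act₁ hG hgen s).2.1)
    hinv hreg I hvanI hI t ht i j

variable (h2 : (2 : O) ≠ 0)

include hG hgen hc hinv hvan₁ hreg hL h2 in
/-- With both signs the cokernel is killed by functions vanishing at all new points. -/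
theorem αMat_coker_two (t : F)
    (ht : ∀ θ ∈ newPts D hq hqN c hS b₀ b₁ act₁ (1 : O) P₁ ∪
      newPts D hq hqN c hS b₀ b₁ act₁ (-1 : O) P₁, (t : X → C) θ = 0) :
    (αMat D hq c hS b₀ b₁ * L - 1) * act₁ t = 0 := by
  have hpos := αMat_coker D hq hqN c hS b₀ b₁ act₀ act₁ hG hgen hc hinv hvan₁ hreg hL (ε := 1)
    (Or.inl rfl) t fun θ h => ht θ (Or.inl h)
  have hneg := αMat_coker D hq hqN c hS b₀ b₁ act₀ act₁ hG hgen hc hinv hvan₁ hreg hL (ε := -1)
    (Or.inr rfl) t fun θ h => ht θ (Or.inr h)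
  have h := congrArg₂ (· + ·) hpos hneg
  rw [← Matrix.mul_add, add_zero] at h
  have he : EMat D hq hqN c hS b₀ b₁ (1 : O) + EMat D hq hqN c hS b₀ b₁ (-1 : O) =
      (2 : O) • (1 : Matrix n n A) := by
    simp only [EMat, eMat, map_one, map_neg, one_smul, neg_smul, two_smul]
    abel
  rw [he, Matrix.mul_smul, Matrix.mul_one] at h
  ext i j
  exact hreg 2 h2 _ (congrFun (congrFun h i) j)

include hG hgen hc hinv hreg hL h2 in
/-- The same modulo an ideal. -/
theorem αMat_coker_two_mem (Z : Set X) (I : Ideal A)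
    (hvanI : ∀ t : F, (∀ θ ∈ P₁, θ ∈ Z → (t : X → C) θ = 0) → ∀ i j, act₁ t i j ∈ I)
    (hI : ∀ x : O, x ≠ 0 → ∀ y : A, x • y ∈ I → y ∈ I) (t : F)
    (ht : ∀ θ ∈ newPts D hq hqN c hS b₀ b₁ act₁ (1 : O) P₁ ∪
      newPts D hq hqN c hS b₀ b₁ act₁ (-1 : O) P₁, θ ∈ Z → (t : X → C) θ = 0) (i j : n) :
    ((αMat D hq c hS b₀ b₁ * L - 1) * act₁ t : Matrix n n A) i j ∈ I := by
  have hpos := αMat_coker_mem D hq hqN c hS b₀ b₁ act₀ act₁ hG hgen hc hinv hreg hL (ε := 1)
    (Or.inl rfl) Z I hvanI hI t (fun θ h => ht θ (Or.inl h)) i j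
  have hneg := αMat_coker_mem D hq hqN c hS b₀ b₁ act₀ act₁ hG hgen hc hinv hreg hL (ε := -1)
    (Or.inr rfl) Z I hvanI hI t (fun θ h => ht θ (Or.inr h)) i j
  have h := I.add_mem hpos hneg
  rw [← Matrix.add_apply, ← Matrix.mul_add] at h
  have he : EMat D hq hqN c hS b₀ b₁ (1 : O) + EMat D hq hqN c hS b₀ b₁ (-1 : O) =
      (2 : O) • (1 : Matrix n n A) := by
    simp only [EMat, eMat, map_one, map_neg, one_smul, neg_smul, two_smul]
    abel
  rw [he, Matrix.mul_smul, Matrix.mul_one] at h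
  exact hI 2 h2 _ h

end Coker

section Singular

include hc in
set_option linter.unusedVariables false in -- `hL` fixes the matrix of the conclusion
/-- The degeneracy map is not surjective modulo the maximal ideal when `T_q ± 1` is not a unit
there and `q` is congruent to zero. -/
theorem exists_unit_entry {L : Matrix (Fin 2 × m) n A} (hL : L * αMat D hq c hS b₀ b₁ = 1)
    {R : Matrix n (Fin 2 × m) A} (hR : βMat D hq hqN c hS b₀ b₁ * R = 1)
    (hqm : (q : A) ∈ maximalIdeal A) {ε : A} (hε : ε * ε = 1)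
    (hdet : ¬ IsUnit ((↑c⁻¹ : A) • LinearMap.toMatrix b₀ b₀ (tE δ S hS a hq hqN) - ε • 1).det) :
    ∃ i j, IsUnit ((αMat D hq c hS b₀ b₁ * L - 1 : Matrix n n A) i j) := by
  by_contra hcon
  push Not at hcon
  set res := (residue A).mapMatrix (m := n)
  have hrα : (αMat D hq c hS b₀ b₁).map (residue A) * L.map (residue A) = 1 := by
    rw [← Matrix.map_mul, ← sub_eq_zero, ← Matrix.map_one (residue A) (map_zero _) (map_one _),
      ← Matrix.map_sub _ (map_sub _)]
    ext i j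
    exact (residue_eq_zero_iff _).mpr (hcon i j)
  have hu : IsUnit ((βMat D hq hqN c hS b₀ b₁ * αMat D hq c hS b₀ b₁).map (residue A)).det := by
    have h1 : (βMat D hq hqN c hS b₀ b₁ * αMat D hq c hS b₀ b₁).map (residue A) *
        (L.map (residue A) * R.map (residue A)) = 1 := by
      rw [Matrix.map_mul, Matrix.mul_assoc, ← Matrix.mul_assoc ((αMat D hq c hS b₀ b₁).map _), hrα,
        Matrix.one_mul, ← Matrix.map_mul, hR, Matrix.map_one _ (map_zero _) (map_one _)]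
    exact IsUnit.of_mul_eq_one _ ((Matrix.det_mul _ _).symm.trans (by rw [h1, Matrix.det_one]))
  set T₀ := (↑c⁻¹ : A) • LinearMap.toMatrix b₀ b₀ (tE δ S hS a hq hqN) with hT₀
  clear_value T₀
  set T := T₀.map (residue A) with hT
  have hT0 : ¬ IsUnit (T - residue A ε • 1).det := by
    intro h
    apply hdet
    have h2 : residue A (T₀ - ε • 1).det = (T - residue A ε • 1).det := by
      rw [RingHom.map_det, map_sub]
      congr 2
      ext i j
      simp [Matrix.one_apply, apply_ite (residue A)]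
    exact (residue_ne_zero_iff_isUnit _).mp (h2 ▸ h.ne_zero)
  obtain ⟨x, hx0, hx⟩ := Matrix.exists_mulVec_eq_zero_iff.mpr
    (not_not.mp fun h => hT0 (isUnit_iff_ne_zero.mpr h))
  have hTx : T *ᵥ x = residue A ε • x := by
    rwa [Matrix.sub_mulVec, sub_eq_zero, Matrix.smul_mulVec, Matrix.one_mulVec] at hx
  let y : Fin 2 × m → ResidueField A := fun z => if z.1 = 0 then x z.2 else -(residue A ε) * x z.2
  have hy : (βMat D hq hqN c hS b₀ b₁ * αMat D hq c hS b₀ b₁).map (residue A) *ᵥ y = 0 := by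
    rw [show βMat D hq hqN c hS b₀ b₁ * αMat D hq c hS b₀ b₁ = _ from
      beta_alpha (hT₀ ▸ valid D δ hq hqN c S hS a b₀ b₁ hc)]
    have hq0 : (q : ResidueField A) = 0 := by
      rw [← map_natCast (residue A)]; exact (residue_eq_zero_iff _).mpr hqm
    funext ⟨i, k⟩
    have e := congrFun hTx k
    simp only [Matrix.mulVec, dotProduct, hT, Matrix.map_apply, Pi.smul_apply, smul_eq_mul] at e
    have hεr : residue A ε * residue A ε = 1 := by rw [← map_mul, hε, map_one]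
    fin_cases i
    · simp [Matrix.mulVec, dotProduct, Fintype.sum_prod_type, Fin.sum_univ_two, y,
        apply_ite (residue A), hq0, mul_left_comm _ (residue A ε),
        ← Finset.mul_sum, e]
      linear_combination -(x k) * hεr
    · simp [Matrix.mulVec, dotProduct, Fintype.sum_prod_type, Fin.sum_univ_two, y,
        apply_ite (residue A), hq0, mul_left_comm _ (residue A ε),
        ← Finset.mul_sum, e]
  have hinj := Matrix.mulVec_injective_of_isUnit ((Matrix.isUnit_iff_isUnit_det _).mpr hu)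
  have := hinj (hy.trans (Matrix.mulVec_zero _).symm)
  exact hx0 (funext fun k => by simpa [y] using congrFun this (0, k))

end Singular

end FLTAgent.Degeneracy
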