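import Fermat.Agent.ModularityLifting.Degeneracy.NewLift
import Fermat.Agent.ModularityLifting.Setup
import Fermat.Agent.ModularityLifting.Points.Coeff
import Fermat.Agent.ModularityLifting.Points.Density
import Fermat.Agent.ModularityLifting.HeckeOfSymb
import Fermat.Agent.GaloisAttach.Supplied
import Fermat.Agent.MFIntegral.IntegralStructure
import Fermat.Agent.SemistableHecke.Assembly
import Fermat.Agent.ConductorMatch.Steinberg
import Mathlib.RingTheory.TensorProduct.Free

/-!
# Residual Galois representations at a Taylor–Wiles prime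

Symbols modulo `p` in the part at a residual representation `ρ`: those new at a prime `t` force
`tr ρ(Frob t) ^ 2 = 4 det ρ(Frob t)`, and those of level prime to `t` have `T_t = tr ρ(Frob t)`.
-/

set_option autoImplicit false

noncomputable section

open CongruenceSubgroup IsLocalRing Polynomial TensorProduct

namespace FLTAgent.ModularityLifting

open FLTAgent.LevelRaising FLTAgent.DefRing FLTAgent.GaloisAttach

local notation "Qbar" => AlgebraicClosure ℚ

/-- A finite torsion free algebra with a point in a field has a point in a complete discrete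
valuation ring whose residual kernel contains the kernel of the given one. -/
theorem exists_point_through {O : Type} [CommRing O] [IsDomain O] [IsDiscreteValuationRing O]
    [IsAdicComplete (maximalIdeal O) O] [Finite (ResidueField O)] [CharZero O]
    (T : Type) [CommRing T] [Algebra O T] [Module.Finite O T] [Module.IsTorsionFree O T]
    {K : Type} [Field K] [Algebra O K] (f : T →ₐ[O] K) :
    ∃ (C : Type) (_ : CommRing C) (_ : IsDomain C) (_ : IsDiscreteValuationRing C)
      (_ : IsAdicComplete (maximalIdeal C) C) (_ : Finite (ResidueField C)) (_ : CharZero C)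
      (_ : Algebra O C) (_ : IsLocalHom (algebraMap O C)) (g : T →ₐ[O] C),
      ∀ z, f z = 0 → g z ∈ maximalIdeal C := by
  classical
  have : (RingHom.ker f).IsPrime := RingHom.ker_isPrime f
  obtain ⟨Q, hQ, hQP⟩ := Ideal.exists_minimalPrimes_le (I := ⊥) (J := RingHom.ker f) bot_le
  have : Q.IsPrime := hQ.1.1
  have hinj : Function.Injective (algebraMap O (T ⧸ Q)) := by
    refine (injective_iff_map_eq_zero _).mpr fun o ho => by_contra fun hne => ?_
    rw [IsScalarTower.algebraMap_apply O T (T ⧸ Q), Ideal.Quotient.algebraMap_eq,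
      Ideal.Quotient.eq_zero_iff_mem] at ho
    refine Set.disjoint_left.mp (Ideal.disjoint_nonZeroDivisors_of_mem_minimalPrimes hQ) ho ?_
    refine mem_nonZeroDivisors_iff_right.mpr fun y hy => ?_
    have h1 : o • y = 0 := by rw [Algebra.smul_def, mul_comm, hy]
    exact (smul_eq_zero.mp h1).resolve_left hne
  have : Module.IsTorsionFree O (T ⧸ Q) :=
    Module.isTorsionFree_iff_algebraMap_injective.mpr hinj
  have : Algebra.IsIntegral O (T ⧸ Q) := Algebra.IsIntegral.of_finite O _
  have : Module.IsTorsionFree O (HeckePoints.Kbar O) :=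
    Module.isTorsionFree_iff_algebraMap_injective.mpr (HeckePoints.algebraMap_kbar_injective O)
  have : Algebra.IsAlgebraic O (T ⧸ Q) := Algebra.IsIntegral.isAlgebraic
  let g : T ⧸ Q →ₐ[O] HeckePoints.Kbar O := IsAlgClosed.lift
  obtain ⟨s, hs⟩ := Module.Finite.fg_top (R := O) (M := T ⧸ Q)
  obtain ⟨C, _, _, _, _, _, _, _, _, _, _, jC, hjC, -, hsC⟩ :=
    HeckePoints.exists_coeff O (g '' (s : Set (T ⧸ Q))) (s.finite_toSet.image g) (by
      rintro _ ⟨z, -, rfl⟩
      exact (IsIntegral.of_finite O z).map g)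
  have hrange : ∀ z, g z ∈ jC.range := fun z => by
    have hz : z ∈ Submodule.span O (s : Set (T ⧸ Q)) := hs ▸ Submodule.mem_top
    induction hz using Submodule.span_induction with
    | mem y hy => exact hsC ⟨y, hy, rfl⟩
    | zero => rw [map_zero]; exact zero_mem _
    | add _ _ _ _ ha hb => rw [map_add]; exact add_mem ha hb
    | smul a _ _ ha => rw [map_smul]; exact Subalgebra.smul_mem _ ha a
  let g' : T ⧸ Q →ₐ[O] C :=
    (AlgEquiv.ofInjective jC hjC).symm.toAlgHom.comp (g.codRestrict jC.range hrange)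
  have hg : Function.Injective g := by
    refine (injective_iff_map_eq_zero g).mpr fun z hz => ?_
    have hk : (RingHom.ker g.toRingHom).comap (algebraMap O (T ⧸ Q)) = ⊥ :=
      (Submodule.eq_bot_iff _).mpr fun o ho => HeckePoints.algebraMap_kbar_injective O (by
        rw [map_zero, ← g.commutes o]; exact ho)
    have : (RingHom.ker g.toRingHom).IsPrime := RingHom.ker_isPrime _
    have := Ideal.eq_bot_of_comap_eq_bot (R := O) hk
    exact (Submodule.eq_bot_iff _).mp this z hz
  have hg' : Function.Injective g' := fun a b h => hg (by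
    have h' := congrArg (fun w : jC.range => (w : HeckePoints.Kbar O))
      ((AlgEquiv.ofInjective jC hjC).symm.injective h)
    exact h')
  have hloc : IsLocalHom g'.toRingHom := by
    refine RingHom.IsIntegral.isLocalHom (fun c => ?_) hg'
    let := g'.toRingHom.toAlgebra
    have : IsScalarTower O (T ⧸ Q) C :=
      IsScalarTower.of_algebraMap_eq fun o => (g'.commutes o).symm
    exact (IsIntegral.of_finite O c).tower_top
  refine ⟨C, inferInstance, inferInstance, inferInstance, inferInstance, inferInstance,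
    inferInstance, inferInstance, inferInstance, g'.comp (Ideal.Quotient.mkₐ O Q), fun z hz => ?_⟩
  rw [mem_maximalIdeal, mem_nonunits_iff]
  intro hu
  have hzu := hloc.map_nonunit _ hu
  let f' : T ⧸ Q →+* K := Ideal.Quotient.lift Q (f : T →+* K) fun a ha => hQP ha
  have h0 : f' (Ideal.Quotient.mk Q z) = 0 := hz
  exact not_isUnit_zero (h0 ▸ hzu.map f')

/-- An order reduced compatibly with a complete discrete valuation ring embeds in an extension,
with the same congruences. -/
theorem exists_point_of_reduction {O : Type} [CommRing O] [IsDomain O] [IsDiscreteValuationRing O]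
    [IsAdicComplete (maximalIdeal O) O] [Finite (ResidueField O)] [CharZero O]
    (R₀ : Subring ℂ) [Module.Finite ℤ R₀] {K : Type} [Field K] (π : R₀ →+* K)
    (j : ResidueField O →+* K) :
    ∃ (C : Type) (_ : CommRing C) (_ : IsDomain C) (_ : IsDiscreteValuationRing C)
      (_ : IsAdicComplete (maximalIdeal C) C) (_ : Finite (ResidueField C)) (_ : CharZero C)
      (_ : Algebra O C) (_ : IsLocalHom (algebraMap O C)) (ι : R₀ →+* C),
      ∀ (x : R₀) (o : O), π x = j (residue O o) →
        residue C (ι x) = residue C (algebraMap O C o) := by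
  classical
  let : Algebra O K := (j.comp (residue O)).toAlgebra
  have : Module.Free ℤ R₀ := Module.free_of_finite_type_torsion_free'
  let f : O ⊗[ℤ] R₀ →ₐ[O] K :=
    Algebra.TensorProduct.lift (Algebra.ofId O K) π.toIntAlgHom fun _ _ => Commute.all _ _
  obtain ⟨C, i1, i2, i3, i4, i5, i6, i7, i8, g, hg⟩ := exists_point_through (O ⊗[ℤ] R₀) f
  refine ⟨C, i1, i2, i3, i4, i5, i6, i7, i8, g.toRingHom.comp
    (Algebra.TensorProduct.includeRight (R := ℤ) (A := O) (B := R₀)).toRingHom, fun x o hxo => ?_⟩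
  rw [← sub_eq_zero, ← map_sub, residue_eq_zero_iff]
  have h := hg ((1 : O) ⊗ₜ[ℤ] x - algebraMap O (O ⊗[ℤ] R₀) o) (by
    rw [map_sub, AlgHom.commutes, sub_eq_zero]
    show (Algebra.TensorProduct.lift _ _ _) ((1 : O) ⊗ₜ[ℤ] x) = _
    rw [Algebra.TensorProduct.lift_tmul, map_one, one_mul]
    exact hxo)
  rw [map_sub, AlgHom.commutes] at h
  exact h

/-- Representations over a field with the same traces and determinants at almost all Frobenius
elements have the same traces. -/
theorem trace_eq_of_frobenius {K : Type} [Field K] {f : AbsGal → K} {ε : AbsGal →* K}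
    (hf : IsPseudoRep f ε) (hc : HeckePoints.TraceCont (⊥ : Ideal K) f ε) (M : MatRep K)
    (hM : MatCont M) (S : Finset ℕ)
    (h : ∀ l, l.Prime → l ∉ S → ∀ P : ValuationSubring Qbar, P.LiesOverPrime l →
      ∀ σ, P.IsFrobeniusAt σ l → f σ = (M σ).trace ∧ ε σ = (M σ).det) :
    ∀ σ, f σ = (M σ).trace := by
  have hm : maximalIdeal K = ⊥ := maximalIdeal_eq_bot
  have hcM : HeckePoints.TraceCont (⊥ : Ideal K) (fun σ => (M σ).trace)
      (Matrix.detMonoidHom.comp M) := fun k => by
    obtain ⟨L, hL, hfix⟩ := hM 1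
    refine ⟨L, hL, fun σ hσ => ?_⟩
    have e : M σ = 1 := sub_eq_zero.mp (Matrix.ext fun i j => by
      simpa [hm] using hfix σ hσ i j)
    refine ⟨?_, fun y => ?_⟩
    · rw [MonoidHom.comp_apply, e, map_one, sub_self]; exact zero_mem _
    · show (M (y * σ)).trace - (M y).trace ∈ _
      rw [map_mul, e, mul_one, sub_self]; exact zero_mem _
  exact congrFun (HeckePoints.eq_of_frobenius frobeniusDivisions hf
    (isPseudoRep_of_matRep M _ fun _ => rfl) hc hcM S h).1

/-- The determinant of a representation with cyclotomic determinant at a Frobenius element. -/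
theorem det_frobenius_residual {k : Type} [Field k] {p : ℕ} (hp : p.Prime) [CharP k p]
    {ρ : MatRep k}
    (hdet : DetCyclotomic ρ p) {l : ℕ} (hl : l.Prime) (hlp : l ≠ p)
    {P : ValuationSubring Qbar} (hP : P.LiesOverPrime l) {σ : AbsGal}
    (hσ : P.IsFrobeniusAt σ l) : (ρ σ).det = (l : k) := by
  have h := hdet 1 σ l fun μ hμ => by
    rw [pow_one] at hμ
    exact FLTAgent.Density.isFrobeniusAt_apply_of_pow_eq_one hl hP hσ
      (fun hd => hlp ((Nat.prime_dvd_prime_iff_eq hl hp).mp hd)) hμ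
  rwa [pow_one, CharP.cast_eq_zero k p, Ideal.span_singleton_eq_bot.mpr rfl, Ideal.mem_bot,
    sub_eq_zero] at h

variable {p : ℕ} [Fact p.Prime] {O : Type} [CommRing O] [IsDomain O] [IsDiscreteValuationRing O]
  [IsAdicComplete (maximalIdeal O) O] [Finite (ResidueField O)] [CharZero O]
  [CharP (ResidueField O) p] {N t : ℕ} [NeZero N]

/-- **Residual symbols new at `t`**: they force a double Frobenius eigenvalue at `t`. -/
theorem trace_sq_eq_of_new (hp2 : p ≠ 2) (ht : t.Prime) (htp : t ≠ p) (htN : ¬ t ∣ N)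
    (ht1 : t % p = 1) (D : ALData N t) (hell : p = 3 → ∃ s, s.Prime ∧ s ∣ N ∧ s % 3 = 2)
    (S : Finset ℕ) (hS : ∀ l, l.Prime → l ∣ N * t * p → l ∈ S)
    (ρ : MatRep (ResidueField O)) (hρ : MatCont ρ) (hdet : DetCyclotomic ρ p)
    (a : ℕ → ResidueField O) (ha : ∀ l, l.Prime → l ∉ S → ∀ A : ValuationSubring Qbar,
      A.LiesOverPrime l → ∀ φ, A.IsFrobeniusAt φ l → (ρ φ).trace = a l)
    (hne : ∃ ℓ, ℓ.Prime ∧ ℓ ∉ S ∧ ℓ % (N * t) = 1 % (N * t) ∧ a ℓ ≠ 1 + ℓ)
    {X : Cusp → Cusp → ResidueField O}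
    (hX : X ∈ eigenPart (ResidueField O) (1 : DirichletCharacter (ResidueField O) (N * t)) S a)
    (hX0 : X ≠ 0) (h1 : D.trOp (ResidueField O) X = 0)
    (h2 : D.trOp (ResidueField O) (D.wOp (ResidueField O) X) = 0)
    {A : ValuationSubring Qbar} (hA : A.LiesOverPrime t) {φ : AbsGal}
    (hφ : A.IsFrobeniusAt φ t) : (ρ φ).trace ^ 2 = 4 * (ρ φ).det := by
  classical
  have hp : p.Prime := Fact.out
  obtain ⟨M, g, ψ, hM, htM, hg, -, hgl⟩ :=
    exists_newform_of_ker hp2 ht htN D hell S hS a hne hX hX0 h1 h2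
  have : NeZero M :=
    ⟨fun h => mul_ne_zero (NeZero.ne N) ht.ne_zero (Nat.eq_zero_of_zero_dvd (h ▸ hM))⟩
  have hsq : ¬ t ^ 2 ∣ M := fun h => htN (by
    have h' := h.trans hM
    rw [pow_two] at h'
    exact (Nat.mul_dvd_mul_iff_right ht.pos).mp h')
  have hMS : ∀ q, q.Prime → q ∣ M → q ∈ S := fun q hq h => hS q hq ((h.trans hM).mul_right p)
  have hpS : p ∈ S := hS p hp (dvd_mul_left p _)
  set χ : CuspForm.heckeAlgebra M 2 (↑S : Set ℕ) →+* ℂ :=
    FLTAgent.Eigenforms.eigenChar hg.isNormalizedEigenform with hχdef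
  have hχ := fun (ℓ : ℕ) (hℓ : ℓ.Prime) (hℓM : ¬ ℓ ∣ M) (hℓS : ℓ ∉ (↑S : Set ℕ)) =>
    FLTAgent.Eigenforms.eigenChar_T hg.isNormalizedEigenform hℓ hℓM hℓS
  have := FLTAgent.MFIntegral.moduleFinite_heckeAlgebra M 2 (↑S : Set ℕ)
  have : Module.Finite ℤ χ.range :=
    Module.Finite.of_surjective χ.rangeRestrict.toIntAlgHom.toLinearMap χ.rangeRestrict_surjective
  let π : χ.range →+* AlgebraicClosure (ResidueField O) :=
    ψ.comp (χ.range.subtype.codRestrict _ fun x =>
      (IsIntegral.of_finite ℤ x).map χ.range.subtype.toIntAlgHom)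
  obtain ⟨C, _, _, _, _, _, _, _, _, ι, hι⟩ :=
    exists_point_of_reduction (O := O) χ.range π (algebraMap _ _)
  have hpC : (p : C) ∈ maximalIdeal C := by
    rw [← map_natCast (algebraMap O C)]
    refine map_nonunit (algebraMap O C) _ ?_
    rw [← residue_eq_zero_iff, map_natCast, CharP.cast_eq_zero]
  obtain ⟨O'', _, _, _, _, _, _, _, _, _, -, ρg, hρg, hst⟩ :=
    ConductorMatch.steinberg hg p S C hpC χ hχ ι hpS hMS
  -- compare the residual traces
  set i : ResidueField O →+* ResidueField O'' :=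
    (ResidueField.map (algebraMap C O'')).comp (ResidueField.map (algebraMap O C)) with hi
  have : CharP (ResidueField O'') p := charP_of_injective_ringHom i.injective p
  let b := Module.finBasisOfFinrankEq O'' ρg.V ρg.finrank_eq
  set M₁ := mapRep i ρ
  set M₂ := mapRep (residue O'') (matRep ρg b) with hM₂
  have hch : ∀ (σ : AbsGal) (c d : O''), LinearMap.charpoly (ρg.ρ σ) = Polynomial.X ^ 2 -
    Polynomial.C c * Polynomial.X + Polynomial.C d →
      (M₂ σ).trace = residue O'' c ∧ (M₂ σ).det = residue O'' d := by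
    intro σ c d h
    rw [← LinearMap.charpoly_toMatrix (ρg.ρ σ) b, ← matRep_apply, Matrix.charpoly_fin_two] at h
    have h0 := congrArg (fun P : O''[X] => P.coeff 0) h
    have h1 := congrArg (fun P : O''[X] => P.coeff 1) h
    simp [coeff_X_pow, coeff_C] at h0 h1
    exact ⟨by rw [← h1]; exact (AddMonoidHom.map_trace (residue O'').toAddMonoidHom _).symm,
      by rw [← h0]; exact (RingHom.map_det (residue O'') _).symm⟩
  have hM₁ : ∀ σ, (M₁ σ).trace = i (ρ σ).trace ∧ (M₁ σ).det = i (ρ σ).det := fun σ =>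
    ⟨(AddMonoidHom.map_trace i.toAddMonoidHom _).symm, (RingHom.map_det i _).symm⟩
  have hfrob : ∀ l, l.Prime → l ∉ S → ∀ P : ValuationSubring Qbar, P.LiesOverPrime l →
      ∀ σ, P.IsFrobeniusAt σ l →
        (M₂ σ).trace = (M₁ σ).trace ∧ (M₂ σ).det = (M₁ σ).det := by
    intro l hl hlS P hP σ hσ
    have hlM : ¬ l ∣ M := fun h => hlS (hMS l hl h)
    have hlS' : l ∉ (↑S : Set ℕ) := fun h => hlS (Finset.mem_coe.mp h)
    obtain ⟨h1, h2⟩ := hch σ _ _ (hρg l hl hlM hlS' P hP σ hσ)
    rw [h1, h2, (hM₁ σ).1, (hM₁ σ).2, ha l hl hlS P hP σ hσ,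
      det_frobenius_residual hp hdet hl (fun h => hlS (h ▸ hpS)) hP hσ, map_natCast, map_natCast]
    refine ⟨?_, rfl⟩
    obtain ⟨o, ho⟩ := residue_surjective (a l)
    have hπ : π (χ.rangeRestrict (CuspForm.heckeAlgebra.T hl hlM hlS')) =
        algebraMap _ _ (residue O o) := by
      obtain ⟨c, hc, hψc⟩ := hgl l hl hlS
      rw [ho, ← hψc]
      refine congrArg ψ (Subtype.ext ?_)
      rw [hc]
      exact hχ l hl hlM hlS'
    have e := hι _ o hπ
    rw [← ho, hi]
    simp only [RingHom.comp_apply, ResidueField.map_residue]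
    rw [← ResidueField.map_residue (algebraMap C O''),
      ← ResidueField.map_residue (algebraMap C O'')]
    exact congrArg (ResidueField.map (algebraMap C O'')) e
  have htr := trace_eq_of_frobenius (isPseudoRep_of_matRep M₂ (Matrix.detMonoidHom.comp M₂)
    fun _ => rfl) (fun k => by
      obtain ⟨L, hL, hfix⟩ := (matCont_matRep ρg b).map (residue O'') ⟨fun x hx => by
        by_contra hxn
        exact hx.ne_zero ((residue_eq_zero_iff x).mpr hxn)⟩ 1
      refine ⟨L, hL, fun σ hσ => ?_⟩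
      have e : M₂ σ = 1 := sub_eq_zero.mp (Matrix.ext fun i j => by
        have h := hfix σ hσ i j
        rwa [pow_one, maximalIdeal_eq_bot, Ideal.mem_bot] at h)
      exact ⟨by rw [MonoidHom.comp_apply, e, map_one, sub_self]; exact zero_mem _,
        fun y => by
          show (M₂ (y * σ)).trace - (M₂ y).trace ∈ _
          rw [map_mul, e, mul_one, sub_self]; exact zero_mem _⟩)
    M₁ (hρ.map i inferInstance) S hfrob φ
  -- Frobenius at `t`
  have ht' : (t : ResidueField O) = 1 := by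
    have h : ((t : ℕ) : ResidueField O) = ((1 : ℕ) : ResidueField O) :=
      (CharP.natCast_eq_natCast (ResidueField O) p).mpr
        (by show t % p = 1 % p; rw [ht1, Nat.one_mod_eq_one.mpr hp.ne_one])
    rw [h, Nat.cast_one]
  have ht'' : (residue O'' (t : O'')) = 1 := by rw [map_natCast, ← map_natCast i, ht', map_one]
  refine i.injective ?_
  rw [map_pow, map_mul, map_ofNat, ← (hM₁ φ).1, det_frobenius_residual hp hdet ht htp hA hφ, ht',
    map_one, ← htr]
  rcases hst t ht htp htM hsq A hA φ hφ with h | h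
  · rw [(hch φ _ _ h).1, map_add, map_one, ht'']; norm_num
  · rw [(hch φ (-((t : O'') + 1)) (t : O'') (by rw [h, map_neg, neg_mul, sub_neg_eq_add])).1,
      map_neg, map_add, map_one, ht'']
    norm_num

/-- An eigensymbol modulo `p` gives a character of the Hecke algebra of cusp forms. -/
theorem exists_residual_heckeChar (hp2 : p ≠ 2)
    (hell : p = 3 → ∃ s, s.Prime ∧ s ∣ N ∧ s % 3 = 2)
    (S₀ : Finset ℕ) (hS₀ : ∀ q, q.Prime → q ∣ N * p → q ∈ S₀) (a₀ : ℕ → ResidueField O)
    (hne : ∃ ℓ, ℓ.Prime ∧ ℓ ∉ S₀ ∧ ℓ % N = 1 % N ∧ a₀ ℓ ≠ 1 + ℓ)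
    {Z : Cusp → Cusp → ResidueField O} (hZ : Z ∈ Lev (ResidueField O) N) (hZ0 : Z ≠ 0)
    (hZeig : ∀ l, l.Prime → l ∉ S₀ → tOp (ResidueField O) l Z = a₀ l • Z) :
    ∃ χ : CuspForm.heckeAlgebra N 2 (↑S₀ : Set ℕ) →+* ResidueField O,
      ∀ (l : ℕ) (hl : l.Prime) (hlL : ¬ l ∣ N) (hlS : l ∉ (↑S₀ : Set ℕ)),
        χ (CuspForm.heckeAlgebra.T hl hlL hlS) = a₀ l := by
  classical
  have hS₀' : ∀ q, q.Prime → q ∣ N → q ∈ S₀ := fun q hq h => hS₀ q hq (h.mul_right p)
  choose a' ha' using fun l => residue_surjective (a₀ l)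
  obtain ⟨ℓ₀, hℓ₀, hℓ₀S, hℓ₀1, hℓ₀a⟩ := hne
  have hne' : ∃ ℓ, ℓ.Prime ∧ ℓ ∉ S₀ ∧ ℓ % N = 1 % N ∧ residue O (a' ℓ) ≠ residue O (1 + ℓ) :=
    ⟨ℓ₀, hℓ₀, hℓ₀S, hℓ₀1, by rw [ha', map_add, map_one, map_natCast]; exact hℓ₀a⟩
  obtain ⟨-, -, hbc⟩ := eigenPart_free_baseChange p hp2 (1 : DirichletCharacter O N)
    (fun u => ⟨0, by simp⟩) hell S₀ hS₀ a' hne'
  obtain ⟨hsurj, hker⟩ := hbc (ResidueField O) (residue O) residue_surjective
  have hone : (1 : DirichletCharacter O N).ringHomComp (residue O) = 1 := by ext u; simp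
  obtain ⟨Ψ, hΨ, hΨZ⟩ := hsurj Z (by
    rw [hone, show residue O ∘ a' = a₀ from funext ha', mem_eigenPart_one_iff hS₀']
    exact ⟨hZ, fun l hl hlS => ⟨1, by
      rw [pow_one, tShift_apply, hZeig l hl hlS, sub_self]⟩⟩)
  obtain ⟨act, hact⟩ := hecke_of_symb S₀ hS₀' a' hne'
  let E := eigenPart O (1 : DirichletCharacter O N) S₀ a'
  let v : E := ⟨Ψ, hΨ⟩
  let red : E →+ (Cusp → Cusp → ResidueField O) :=
    { toFun := fun Φ x y => residue O ((Φ : Cusp → Cusp → O) x y)
      map_zero' := funext fun x => funext fun y => map_zero _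
      map_add' := fun Φ Φ' => funext fun x => funext fun y => map_add _ _ _ }
  have hredsmul : ∀ (r : O) (Φ : E), red (r • Φ) = residue O r • red Φ := fun r Φ =>
    funext fun x => funext fun y => map_mul (residue O) r ((Φ : Cusp → Cusp → O) x y)
  have hredv : red v = Z := hΨZ
  have hred0 : ∀ (F : Module.End O E) Φ, red Φ = 0 → red (F Φ) = 0 := by
    intro F Φ h
    have hΦm : Φ ∈ RingHom.ker (residue O) • (⊤ : Submodule O E) := by
      have h1 := hker Φ Φ.2 fun x y => congrFun (congrFun h x) y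
      have h2 : (Φ : Cusp → Cusp → O) ∈
          (RingHom.ker (residue O) • (⊤ : Submodule O E)).map (Submodule.subtype _) := by
        rwa [Submodule.map_smul'', Submodule.map_top, Submodule.range_subtype]
      obtain ⟨Φ', hΦ', he⟩ := Submodule.mem_map.mp h2
      rwa [← Subtype.ext (a2 := Φ) he]
    have h3 := Submodule.mem_map_of_mem (f := F) hΦm
    rw [Submodule.map_smul''] at h3
    have h4 := Submodule.smul_mono le_rfl le_top h3
    refine Submodule.smul_induction_on h4 (fun r hr Θ _ => ?_) fun Θ Θ' h h' => ?_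
    · rw [hredsmul, RingHom.mem_ker.mp hr, zero_smul]
    · rw [map_add, h, h', add_zero]
  have hex : ∀ x : CuspForm.heckeAlgebra N 2 (↑S₀ : Set ℕ),
      ∃ d : ResidueField O, red (act x v) = d • Z := by
    rintro ⟨x, hx⟩
    induction hx using Algebra.adjoin_induction with
    | mem x hx =>
      rcases hx with ⟨l, hl, hlL, hlS, rfl⟩ | ⟨q, hqL, hq, hqS, rfl⟩
      · refine ⟨a₀ l, ?_⟩
        rw [← hZeig l hl (fun h => hlS (Finset.mem_coe.mpr h)), ← hredv]
        refine Eq.trans ?_ (compVal_tOp (residue O).toAddMonoidHom l (v : Cusp → Cusp → O))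
        exact congrArg (compVal (residue O).toAddMonoidHom) (hact l hl hlL hlS v)
      · exact absurd (Finset.mem_coe.mpr (hS₀' q hq hqL)) hqS
    | algebraMap r =>
      refine ⟨(r : ResidueField O), ?_⟩
      rw [show (⟨_, Subalgebra.algebraMap_mem _ r⟩ : CuspForm.heckeAlgebra N 2 (↑S₀ : Set ℕ)) =
        algebraMap ℤ _ r from rfl, eq_intCast, map_intCast, Module.End.intCast_apply, map_zsmul,
        hredv, Int.cast_smul_eq_zsmul]
    | add x y hx hy ihx ihy =>
      obtain ⟨d, hd⟩ := ihx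
      obtain ⟨e, he⟩ := ihy
      refine ⟨d + e, ?_⟩
      rw [show (⟨x + y, _⟩ : CuspForm.heckeAlgebra N 2 (↑S₀ : Set ℕ)) = ⟨x, hx⟩ + ⟨y, hy⟩ from rfl,
        map_add, LinearMap.add_apply, map_add, hd, he, add_smul]
    | mul x y hx hy ihx ihy =>
      obtain ⟨d, hd⟩ := ihx
      obtain ⟨e, he⟩ := ihy
      obtain ⟨e', rfl⟩ := residue_surjective e
      refine ⟨residue O e' * d, ?_⟩
      have h1 := hred0 (act ⟨x, hx⟩) (act ⟨y, hy⟩ v - e' • v) (by
        rw [map_sub, hredsmul, hredv, he, sub_self])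
      rw [map_sub, map_smul, map_sub, hredsmul, hd, sub_eq_zero, smul_smul] at h1
      rw [show (⟨x * y, _⟩ : CuspForm.heckeAlgebra N 2 (↑S₀ : Set ℕ)) = ⟨x, hx⟩ * ⟨y, hy⟩ from rfl,
        map_mul, Module.End.mul_apply, h1]
  choose d hd using hex
  have huniq : ∀ y z : ResidueField O, y • Z = z • Z → y = z := fun y z h =>
    smul_left_injective (ResidueField O) hZ0 h
  let χ : CuspForm.heckeAlgebra N 2 (↑S₀ : Set ℕ) →+* ResidueField O :=
    { toFun := d
      map_one' := huniq _ _ (by rw [← hd, map_one, Module.End.one_apply, hredv, one_smul])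
      map_mul' := fun x y => huniq _ _ (by
        obtain ⟨e', he'⟩ := residue_surjective (d y)
        have h1 := hred0 (act x) (act y v - e' • v) (by
          rw [map_sub, hredsmul, hredv, hd y, he', sub_self])
        rw [map_sub, map_smul, map_sub, hredsmul, hd x, sub_eq_zero, smul_smul, he'] at h1
        rw [← hd, map_mul, Module.End.mul_apply, h1, mul_comm])
      map_zero' := huniq _ _ (by rw [← hd, map_zero, LinearMap.zero_apply, map_zero, zero_smul])
      map_add' := fun x y => huniq _ _ (by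
        rw [← hd, map_add, LinearMap.add_apply, map_add, hd x, hd y, add_smul]) }
  refine ⟨χ, fun l hl hlL hlS => huniq _ _ ?_⟩
  show d _ • Z = _
  rw [← hd, ← hZeig l hl (fun h => hlS (Finset.mem_coe.mpr h)), ← hredv]
  refine Eq.trans ?_ (compVal_tOp (residue O).toAddMonoidHom l (v : Cusp → Cusp → O))
  exact congrArg (compVal (residue O).toAddMonoidHom) (hact l hl hlL hlS v)

/-- **Residual symbols of level prime to `t`**: `T_t` is the trace of Frobenius at `t`. -/
theorem eigenvalue_eq_trace (hp2 : p ≠ 2) (ht : t.Prime) (htp : t ≠ p) (htN : ¬ t ∣ N)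
    (hell : p = 3 → ∃ s, s.Prime ∧ s ∣ N ∧ s % 3 = 2)
    (S : Finset ℕ) (hS : ∀ l, l.Prime → l ∣ N * t * p → l ∈ S)
    (ρ : MatRep (ResidueField O)) (hρ : MatCont ρ) (hdet : DetCyclotomic ρ p)
    (a : ℕ → ResidueField O) (ha : ∀ l, l.Prime → l ∉ S → ∀ A : ValuationSubring Qbar,
      A.LiesOverPrime l → ∀ φ, A.IsFrobeniusAt φ l → (ρ φ).trace = a l)
    (hne : ∃ ℓ, ℓ.Prime ∧ ℓ ∉ S ∧ ℓ % N = 1 % N ∧ a ℓ ≠ 1 + ℓ)
    {Y : Cusp → Cusp → ResidueField O}
    (hY : Y ∈ eigenPart (ResidueField O) (1 : DirichletCharacter (ResidueField O) N) S a)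
    (hY0 : Y ≠ 0) {c : ResidueField O} (hc : tOp (ResidueField O) t Y = c • Y)
    {A : ValuationSubring Qbar} (hA : A.LiesOverPrime t) {φ : AbsGal}
    (hφ : A.IsFrobeniusAt φ t) : c = (ρ φ).trace := by
  classical
  have hp : p.Prime := Fact.out
  set S₀ := S.erase t with hS₀
  have hS₀N : ∀ q, q.Prime → q ∣ N * p → q ∈ S₀ := fun q hq h => by
    refine Finset.mem_erase.mpr ⟨fun e => ?_, hS q hq (by
      rw [mul_right_comm]; exact h.mul_right t)⟩
    subst e
    rcases (Nat.Prime.dvd_mul hq).mp h with h | h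
    · exact htN h
    · exact htp ((Nat.prime_dvd_prime_iff_eq hq hp).mp h)
  have hS₀N' : ∀ q, q.Prime → q ∣ N → q ∈ S₀ := fun q hq h => hS₀N q hq (h.mul_right p)
  have hSN : ∀ q, q.Prime → q ∣ N → q ∈ S := fun q hq h => Finset.mem_of_mem_erase (hS₀N' q hq h)
  -- an exact eigensymbol at all primes outside `S₀`
  set a₀ : ℕ → (ResidueField O) := Function.update a t c with ha₀
  have hT : ∀ {l}, l.Prime → l ∉ S → ¬ l ∣ N := fun hl hlS h => hlS (hSN _ hl h)
  let ι₁ := {l : ℕ // l.Prime ∧ l ∉ S}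
  let U : Submodule (ResidueField O) (Cusp → Cusp → (ResidueField O)) :=
    eigenPart (ResidueField O) (1 : DirichletCharacter (ResidueField O) N) S a ⊓
    LinearMap.ker (tShift (ResidueField O) t c)
  have hUle : U ≤ Lev (ResidueField O) N := fun v hv => ((mem_eigenPart_one_iff hSN).mp hv.1).1
  have hcomm : ∀ {l m : ℕ} {d e : (ResidueField O)}, l.Prime → m.Prime → ¬ l ∣ N → ¬ m ∣ N → l ≠ m →
      ∀ v ∈ Lev (ResidueField O) N, tShift (ResidueField O) l d (tShift (ResidueField O) m e v) =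
        tShift (ResidueField O) m e (tShift (ResidueField O) l d v) := by
    intro l m d e hl hm hlN hmN hlm v hv
    simp only [tShift_apply, map_sub, map_smul, smul_sub, smul_comm d e,
      tOp_comm hl hm hlm hlN hmN hv]
    abel
  have htS : t ∈ S := hS t ht ((dvd_mul_left t N).mul_right p)
  have : FiniteDimensional (ResidueField O) U := Submodule.finiteDimensional_of_le hUle
  obtain ⟨Z, hZ, hZ0, hZe⟩ :=
    exists_forall_apply_eq_zero (fun i : ι₁ => tShift (ResidueField O) i.1 (a i.1)) U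
    ((Submodule.ne_bot_iff _).mpr ⟨Y, ⟨hY, by
      rw [SetLike.mem_coe, LinearMap.mem_ker, tShift_apply, hc, sub_self]⟩, hY0⟩)
    (fun i v hv => by
      obtain ⟨hvL, hvn⟩ := (mem_eigenPart_one_iff hSN).mp hv.1
      refine ⟨(mem_eigenPart_one_iff hSN).mpr ⟨sub_mem (tOp_mem i.2.1 (hT i.2.1 i.2.2) hvL)
        (Submodule.smul_mem _ _ hvL), fun l hl hlS => ?_⟩, ?_⟩
      · obtain ⟨j, hj⟩ := hvn l hl hlS
        refine ⟨j + 1, ?_⟩
        rcases eq_or_ne l i.1 with h | h
        · rw [h] at hj ⊢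
          rw [pow_succ', Module.End.mul_apply,
            ← Module.End.mul_apply (tShift (ResidueField O) i.1 (a i.1) ^ j),
            ← pow_succ, pow_succ', Module.End.mul_apply, hj, map_zero, map_zero]
        · have hmove : ∀ m, (tShift (ResidueField O) l (a l) ^ m) v ∈ Lev (ResidueField O) N ∧
              (tShift (ResidueField O) l (a l) ^ m) (tShift (ResidueField O) i.1 (a i.1) v) =
                tShift (ResidueField O) i.1 (a i.1) ((tShift (ResidueField O) l (a l) ^ m) v) := by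
            intro m
            induction m with
            | zero => exact ⟨by simpa using hvL, by simp⟩
            | succ m ihm =>
              simp only [pow_succ', Module.End.mul_apply]
              exact ⟨sub_mem (tOp_mem hl (hT hl hlS) ihm.1) (Submodule.smul_mem _ _ ihm.1),
                by rw [ihm.2, hcomm hl i.2.1 (hT hl hlS) (hT i.2.1 i.2.2) h _ ihm.1]⟩
          rw [pow_succ', Module.End.mul_apply, (hmove j).2, hj, map_zero, map_zero]
      · rw [SetLike.mem_coe, LinearMap.mem_ker,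
          hcomm ht i.2.1 htN (hT i.2.1 i.2.2) (fun h => i.2.2 (h ▸ htS)) v hvL,
          show tShift (ResidueField O) t c v = 0 from hv.2, map_zero])
    (fun i j v hv => by
      rcases eq_or_ne i j with rfl | hij
      · rfl
      exact hcomm i.2.1 j.2.1 (hT i.2.1 i.2.2) (hT j.2.1 j.2.2) (fun h => hij (Subtype.ext h)) v
        (hUle hv))
    (fun i v hv => ((mem_eigenPart_one_iff hSN).mp hv.1).2 i.1 i.2.1 i.2.2)
  have hZeig : ∀ l, l.Prime → l ∉ S₀ → tOp (ResidueField O) l Z = a₀ l • Z := by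
    intro l hl hlS₀
    rcases eq_or_ne l t with rfl | hlt
    · rw [ha₀, Function.update_self]; exact sub_eq_zero.mp hZ.2
    · rw [ha₀, Function.update_of_ne hlt]
      exact sub_eq_zero.mp (hZe ⟨l, hl, fun h => hlS₀ (Finset.mem_erase.mpr ⟨hlt, h⟩)⟩)
  -- lift it to `O` and get a character of the Hecke algebra
  obtain ⟨ℓ₀, hℓ₀, hℓ₀S, hℓ₀1, hℓ₀a⟩ := hne
  have hℓ₀t : ℓ₀ ≠ t := fun h => hℓ₀S (h ▸ htS)
  obtain ⟨χ, hχT⟩ := exists_residual_heckeChar hp2 hell S₀ hS₀N a₀
    ⟨ℓ₀, hℓ₀, fun h => hℓ₀S (Finset.mem_of_mem_erase h), hℓ₀1, by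
      rw [ha₀, Function.update_of_ne hℓ₀t]; exact hℓ₀a⟩ (hUle hZ) hZ0 hZeig
  -- compare with `ρ`
  obtain ⟨T⟩ := exists_attachedTrace hp (jacobianInputs N hp) frobeniusDivisions S₀.finite_toSet
    (⊥ : Ideal (ResidueField O)) (by rw [Ideal.mem_bot, CharP.cast_eq_zero]) χ
  obtain ⟨hTp, hTc⟩ := HeckePoints.traceCont_of_attached T
  have hmain := trace_eq_of_frobenius hTp hTc ρ hρ S fun l hl hlS P hP σ hσ => by
    have hlS₀ : l ∉ (↑S₀ : Set ℕ) := fun h => hlS (Finset.mem_of_mem_erase (Finset.mem_coe.mp h))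
    have hlp : l ≠ p := fun h => hlS (h ▸ hS p hp (dvd_mul_left p _))
    obtain ⟨h1, h2⟩ := T.frob l hl (hT hl hlS) hlS₀ hlp P hP σ hσ
    refine ⟨?_, by rw [h2, det_frobenius_residual hp hdet hl hlp hP hσ]⟩
    rw [h1, hχT, ha₀, Function.update_of_ne (fun h => hlS (by rw [h]; exact htS)),
      ha l hl hlS P hP σ hσ]
  have htS₀ : t ∉ (↑S₀ : Set ℕ) := fun h => (Finset.mem_erase.mp (Finset.mem_coe.mp h)).1 rfl
  obtain ⟨h1, -⟩ := T.frob t ht htN htS₀ htp A hA φ hφ
  rw [← hmain φ, h1, hχT, ha₀, Function.update_self]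

end FLTAgent.ModularityLifting
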